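/-
Idempotents of maximal ideals in finite algebras over a complete local noetherian ring
(owner: helper87).
-/
import Fermat.Prelude.Thm_Algebra_finite_maximalSpectrum_and_bijective_localization_of_module_finite
import Mathlib.RingTheory.Finiteness.Basic
import Mathlib.RingTheory.Noetherian.Basic
import Mathlib.Algebra.Algebra.Subalgebra.Basic
import Mathlib.LinearAlgebra.Pi

set_option autoImplicit false

namespace Fermat.Agent.TW.Mod

variable {𝒪 : Type} [CommRing 𝒪] [IsLocalRing 𝒪] [IsNoetherianRing 𝒪]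
  [IsAdicComplete (IsLocalRing.maximalIdeal 𝒪) 𝒪]

/-- The idempotent of a maximal ideal `m`: elements outside `m` are invertible on it. -/
theorem exists_idempotent_of_maximal {T : Type} [CommRing T] [Algebra 𝒪 T] [Module.Finite 𝒪 T]
    (m : Ideal T) [hm : m.IsMaximal] :
    ∃ e : T, e * e = e ∧ e ∉ m ∧ (∀ J : Ideal T, J.IsMaximal → J ≠ m → e ∈ J) ∧
      ∀ a ∉ m, ∃ v, v * a * e = e := by
  classical
  obtain ⟨-, hb, -, -⟩ :=
    Algebra.finite_maximalSpectrum_and_bijective_localization_of_module_finite (𝒪 := 𝒪) T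
  set I : MaximalSpectrum T := ⟨m, hm⟩
  set φ := RingHom.pi fun J : MaximalSpectrum T => algebraMap T (Localization.AtPrime J.asIdeal)
  obtain ⟨e, he⟩ := hb.2 (Pi.single I 1)
  have heI : algebraMap T (Localization.AtPrime I.asIdeal) e = 1 := by
    have := congrFun he I
    rw [Pi.single_eq_same] at this
    exact this
  refine ⟨e, hb.1 ?_, fun hem => ?_, fun J hJ hJm => ?_, fun a ha => ?_⟩
  · rw [map_mul, he]
    funext J
    by_cases h : J = I
    · subst h; simp
    · simp [Pi.single_eq_of_ne h]
  · have := (IsLocalization.AtPrime.to_map_mem_maximal_iff (Localization.AtPrime I.asIdeal)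
      I.asIdeal e).2 hem
    rw [heI] at this
    exact (IsLocalRing.maximalIdeal.isMaximal _).ne_top (Ideal.eq_top_of_isUnit_mem _ this isUnit_one)
  · have hne : (⟨J, hJ⟩ : MaximalSpectrum T) ≠ I := fun h => hJm (congrArg MaximalSpectrum.asIdeal h)
    have := congrFun he ⟨J, hJ⟩
    rw [Pi.single_eq_of_ne hne] at this
    exact (IsLocalization.AtPrime.to_map_mem_maximal_iff (Localization.AtPrime J) J e).1 (by
      change algebraMap T (Localization.AtPrime J) e ∈ _
      rw [show algebraMap T (Localization.AtPrime J) e = 0 from this]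
      exact zero_mem _)
  · obtain ⟨w, hw⟩ := (IsLocalization.AtPrime.isUnit_to_map_iff
      (Localization.AtPrime I.asIdeal) I.asIdeal a).2 ha
    obtain ⟨v, hv⟩ := hb.2 (Pi.single I (↑w⁻¹ : Localization.AtPrime I.asIdeal))
    refine ⟨v, hb.1 ?_⟩
    rw [map_mul, map_mul, he, hv]
    funext J
    by_cases h : J = I
    · subst h
      have hφ : φ a I = (w : Localization.AtPrime I.asIdeal) := hw.symm
      simp only [Pi.mul_apply, Pi.single_eq_same, hφ, Units.inv_mul, one_mul]
    · simp [Pi.single_eq_of_ne h]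

omit [IsLocalRing 𝒪] [IsAdicComplete (IsLocalRing.maximalIdeal 𝒪) 𝒪] in
/-- Endomorphisms of a finite module over a noetherian ring form a finite module. -/
theorem finite_end_of_finite (H : Type) [AddCommGroup H] [Module 𝒪 H] [Module.Finite 𝒪 H] :
    Module.Finite 𝒪 (Module.End 𝒪 H) := by
  obtain ⟨n, g, hg⟩ := Module.Finite.exists_fin (R := 𝒪) (M := H)
  let Φ : Module.End 𝒪 H →ₗ[𝒪] (Fin n → H) :=
    { toFun := fun f i => f (g i), map_add' := fun _ _ => rfl, map_smul' := fun _ _ => rfl }
  refine Module.Finite.of_injective Φ fun f f' h => ?_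
  exact LinearMap.ext_on hg (by rintro _ ⟨i, rfl⟩; exact congrFun h i)

omit [IsLocalRing 𝒪] [IsAdicComplete (IsLocalRing.maximalIdeal 𝒪) 𝒪] in
/-- Algebras of operators on a finite module are finite. -/
theorem finite_subalgebra_end {H : Type} [AddCommGroup H] [Module 𝒪 H] [Module.Finite 𝒪 H]
    (S : Subalgebra 𝒪 (Module.End 𝒪 H)) : Module.Finite 𝒪 S :=
  have := finite_end_of_finite (𝒪 := 𝒪) H
  Module.Finite.of_injective S.val.toLinearMap Subtype.val_injective

end Fermat.Agent.TW.Mod
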