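/-
Localisation of a family of commuting operators at a residual system of eigenvalues
(owner: helper87).
-/
import Fermat.Agent.TW.Mod.Idempotent
import Mathlib.RingTheory.LocalRing.ResidueField.Basic
import Mathlib.RingTheory.Ideal.Quotient.Operations
import Mathlib.RingTheory.Finiteness.Nakayama
import Mathlib.Algebra.Algebra.Prod
import Mathlib.Tactic

set_option autoImplicit false

namespace Fermat.Agent.TW.Mod

open IsLocalRing

variable (𝒪 : Type) [CommRing 𝒪] [IsLocalRing 𝒪]
variable {ι : Type*} {E E' : Type} [Ring E] [Algebra 𝒪 E] [Ring E'] [Algebra 𝒪 E']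

/-- The algebra generated by a family of operators. -/
abbrev famAlg (f : ι → E) : Subalgebra 𝒪 E := Algebra.adjoin 𝒪 (Set.range f)

/-- The generators. -/
def famGen (f : ι → E) (i : ι) : famAlg 𝒪 f := ⟨f i, Algebra.subset_adjoin ⟨i, rfl⟩⟩

/-- The residual system `lam` occurs in the family `f`. -/
def Occurs (f : ι → E) (lam : ι → ResidueField 𝒪) : Prop :=
  ∃ φ : famAlg 𝒪 f →ₐ[𝒪] ResidueField 𝒪, ∀ i, φ (famGen 𝒪 f i) = lam i

variable {𝒪} {f : ι → E} {f' : ι → E'} {lam : ι → ResidueField 𝒪}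

/-- Two characters which agree on the generators are equal. -/
theorem famAlg_hom_ext {B : Type*} [Semiring B] [Algebra 𝒪 B]
    {φ ψ : famAlg 𝒪 f →ₐ[𝒪] B} (h : ∀ i, φ (famGen 𝒪 f i) = ψ (famGen 𝒪 f i)) : φ = ψ :=
  AlgHom.adjoin_ext (fun x hx => by obtain ⟨i, rfl⟩ := hx; exact h i)

/-- Commuting generators generate a commutative algebra. -/
theorem famAlg_commute (hc : ∀ i j, Commute (f i) (f j)) {a b : E} (ha : a ∈ famAlg 𝒪 f)
    (hb : b ∈ famAlg 𝒪 f) : Commute a b := by
  have := Algebra.isMulCommutative_adjoin 𝒪 (s := Set.range f)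
    (by rintro _ ⟨i, rfl⟩ _ ⟨j, rfl⟩; exact hc i j)
  exact congrArg Subtype.val (mul_comm' (⟨a, ha⟩ : famAlg 𝒪 f) ⟨b, hb⟩)

/-- The map between generated algebras induced by an algebra map. -/
def famMap (π : E →ₐ[𝒪] E') (hπ : ∀ i, π (f i) = f' i) : famAlg 𝒪 f →ₐ[𝒪] famAlg 𝒪 f' :=
  (π.comp (famAlg 𝒪 f).val).codRestrict (famAlg 𝒪 f') fun a => by
    have : π a ∈ (famAlg 𝒪 f).map π := ⟨_, a.2, rfl⟩
    rw [AlgHom.map_adjoin, ← Set.range_comp] at this
    rw [show f' = π ∘ f from (funext hπ).symm]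
    exact this

@[simp] theorem coe_famMap (π : E →ₐ[𝒪] E') (hπ : ∀ i, π (f i) = f' i) (a : famAlg 𝒪 f) :
    (famMap π hπ a : E') = π a := rfl

theorem famMap_gen (π : E →ₐ[𝒪] E') (hπ : ∀ i, π (f i) = f' i) (i : ι) :
    famMap π hπ (famGen 𝒪 f i) = famGen 𝒪 f' i := Subtype.ext (hπ i)

theorem famMap_surjective (π : E →ₐ[𝒪] E') (hπ : ∀ i, π (f i) = f' i) :
    Function.Surjective (famMap π hπ) := by
  rintro ⟨b, hb⟩
  have : b ∈ (famAlg 𝒪 f).map π := by
    rw [AlgHom.map_adjoin, ← Set.range_comp]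
    rwa [show π ∘ f = f' from funext hπ]
  obtain ⟨a, ha, rfl⟩ := this
  exact ⟨⟨a, ha⟩, rfl⟩

namespace Occurs

/-- The character of an occurring system. -/
noncomputable def char (h : Occurs 𝒪 f lam) : famAlg 𝒪 f →ₐ[𝒪] ResidueField 𝒪 := h.choose

theorem char_gen (h : Occurs 𝒪 f lam) (i : ι) : h.char (famGen 𝒪 f i) = lam i := h.choose_spec i

theorem char_eq (h : Occurs 𝒪 f lam) {φ : famAlg 𝒪 f →ₐ[𝒪] ResidueField 𝒪}
    (hφ : ∀ i, φ (famGen 𝒪 f i) = lam i) : h.char = φ :=
  famAlg_hom_ext fun i => by rw [h.char_gen, hφ]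

/-- A system of the image occurs in the source. -/
theorem of_map (π : E →ₐ[𝒪] E') (hπ : ∀ i, π (f i) = f' i) (h : Occurs 𝒪 f' lam) :
    Occurs 𝒪 f lam :=
  ⟨h.char.comp (famMap π hπ), fun i => by
    rw [AlgHom.comp_apply, famMap_gen, h.char_gen]⟩

theorem char_famMap (π : E →ₐ[𝒪] E') (hπ : ∀ i, π (f i) = f' i) (h : Occurs 𝒪 f lam)
    (h' : Occurs 𝒪 f' lam) (a : famAlg 𝒪 f) : h'.char (famMap π hπ a) = h.char a :=
  AlgHom.congr_fun (h.char_eq (φ := h'.char.comp (famMap π hπ)) fun i => by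
    rw [AlgHom.comp_apply, famMap_gen, h'.char_gen]).symm a

/-- A system whose character factors through `π` occurs in the image. -/
theorem map_of_ker (π : E →ₐ[𝒪] E') (hπ : ∀ i, π (f i) = f' i) (h : Occurs 𝒪 f lam)
    (hker : ∀ a : famAlg 𝒪 f, π a = 0 → h.char a = 0) : Occurs 𝒪 f' lam := by
  have hs := famMap_surjective π hπ
  have hk : RingHom.ker (famMap π hπ).toRingHom ≤ RingHom.ker h.char.toRingHom := fun a ha => by
    rw [RingHom.mem_ker] at ha ⊢
    exact hker a (by simpa using congrArg Subtype.val ha)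
  have hagree : ∀ a b, famMap π hπ a = famMap π hπ b → h.char a = h.char b := fun a b hab => by
    rw [← sub_eq_zero, ← map_sub]
    exact RingHom.mem_ker.1 (hk (RingHom.mem_ker.2 (by
      show famMap π hπ (a - b) = 0
      rw [map_sub, hab, sub_self])))
  refine ⟨{ toFun := fun b => h.char (Function.surjInv hs b), map_one' := ?_, map_mul' := ?_,
            map_zero' := ?_, map_add' := ?_, commutes' := ?_ }, fun i => ?_⟩
  · rw [hagree _ 1 (by rw [Function.surjInv_eq hs, map_one]), map_one]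
  · intro a b
    rw [hagree _ (Function.surjInv hs a * Function.surjInv hs b)
      (by rw [Function.surjInv_eq hs, map_mul, Function.surjInv_eq hs, Function.surjInv_eq hs]),
      map_mul]
  · rw [hagree _ 0 (by rw [Function.surjInv_eq hs, map_zero]), map_zero]
  · intro a b
    rw [hagree _ (Function.surjInv hs a + Function.surjInv hs b)
      (by rw [Function.surjInv_eq hs, map_add, Function.surjInv_eq hs, Function.surjInv_eq hs]),
      map_add]
  · intro c
    show h.char (Function.surjInv hs _) = _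
    rw [hagree _ (algebraMap 𝒪 _ c) (by rw [Function.surjInv_eq hs, AlgHom.commutes]),
      AlgHom.commutes]
  · show h.char (Function.surjInv hs _) = _
    rw [hagree _ (famGen 𝒪 f i) (by rw [Function.surjInv_eq hs, famMap_gen]), h.char_gen]

section Idem

variable [IsNoetherianRing 𝒪] [IsAdicComplete (maximalIdeal 𝒪) 𝒪] [Module.Finite 𝒪 E]
  (hc : ∀ i j, Commute (f i) (f j)) (h : Occurs 𝒪 f lam)

include hc h in
theorem exists_idem : ∃ e : famAlg 𝒪 f, e * e = e ∧ h.char e = 1 ∧
    (∀ φ : famAlg 𝒪 f →ₐ[𝒪] ResidueField 𝒪, φ ≠ h.char → φ e = 0) ∧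
    ∀ a, h.char a ≠ 0 → ∃ v, v * a * e = e := by
  have := Algebra.isMulCommutative_adjoin 𝒪 (s := Set.range f)
    (by rintro _ ⟨i, rfl⟩ _ ⟨j, rfl⟩; exact hc i j)
  let _ : CommRing (famAlg 𝒪 f) := { (inferInstance : Ring (famAlg 𝒪 f)) with mul_comm := mul_comm' }
  have : Module.Finite 𝒪 (famAlg 𝒪 f) :=
    Module.Finite.of_injective (famAlg 𝒪 f).val.toLinearMap Subtype.val_injective
  have hsurj : ∀ φ : famAlg 𝒪 f →ₐ[𝒪] ResidueField 𝒪, Function.Surjective φ := fun φ x => by
    obtain ⟨c, rfl⟩ := IsLocalRing.residue_surjective x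
    exact ⟨algebraMap 𝒪 _ c, φ.commutes c⟩
  have hmax : ∀ φ : famAlg 𝒪 f →ₐ[𝒪] ResidueField 𝒪, (RingHom.ker φ.toRingHom).IsMaximal :=
    fun φ => RingHom.ker_isMaximal_of_surjective φ.toRingHom (hsurj φ)
  have := hmax h.char
  obtain ⟨e, he, hem, heJ, hinv⟩ := exists_idempotent_of_maximal (𝒪 := 𝒪)
    (RingHom.ker h.char.toRingHom)
  refine ⟨e, he, ?_, fun φ hφ => ?_, fun a ha => hinv a (by simpa using ha)⟩
  · have h2 : h.char e * h.char e = h.char e := by rw [← map_mul, he]
    rcases eq_or_ne (h.char e) 0 with h0 | h0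
    · exact absurd (RingHom.mem_ker.2 h0) hem
    · exact mul_left_eq_self₀.1 h2 |>.resolve_right h0
  · refine RingHom.mem_ker.1 (heJ _ (hmax φ) fun hker => hφ (AlgHom.ext fun a => ?_))
    obtain ⟨c, hc'⟩ := IsLocalRing.residue_surjective (h.char a)
    have hmem : a - algebraMap 𝒪 _ c ∈ RingHom.ker h.char.toRingHom := by
      rw [RingHom.mem_ker]
      show h.char (a - _) = 0
      rw [map_sub, h.char.commutes, ← hc']
      exact sub_self _
    rw [← hker, RingHom.mem_ker] at hmem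
    change φ (a - _) = 0 at hmem
    rw [map_sub, φ.commutes, sub_eq_zero] at hmem
    rw [hmem, ← hc']
    rfl

/-- The idempotent of an occurring system. -/
noncomputable def idem : E := ((h.exists_idem hc).choose : E)

theorem idem_mem : h.idem hc ∈ famAlg 𝒪 f := (h.exists_idem hc).choose.2

theorem idem_mul_idem : h.idem hc * h.idem hc = h.idem hc :=
  congrArg Subtype.val (h.exists_idem hc).choose_spec.1

theorem char_idem : h.char ⟨h.idem hc, h.idem_mem hc⟩ = 1 := (h.exists_idem hc).choose_spec.2.1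

theorem apply_idem_of_ne {φ : famAlg 𝒪 f →ₐ[𝒪] ResidueField 𝒪} (hφ : φ ≠ h.char) :
    φ ⟨h.idem hc, h.idem_mem hc⟩ = 0 :=
  (h.exists_idem hc).choose_spec.2.2.1 φ hφ

/-- What the character does not kill is invertible on the localised part. -/
theorem exists_inv {a : E} (ha : a ∈ famAlg 𝒪 f) (hne : h.char ⟨a, ha⟩ ≠ 0) :
    ∃ v ∈ famAlg 𝒪 f, v * a * h.idem hc = h.idem hc := by
  obtain ⟨v, hv⟩ := (h.exists_idem hc).choose_spec.2.2.2 ⟨a, ha⟩ hne
  exact ⟨v, v.2, congrArg Subtype.val hv⟩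

/-- A shifted generator is invertible on the localised part. -/
theorem exists_inv_sub_algebraMap (i : ι) (c : 𝒪)
    (hne : lam i ≠ algebraMap 𝒪 (ResidueField 𝒪) c) :
    f i - algebraMap 𝒪 E c ∈ famAlg 𝒪 f ∧
      ∃ v ∈ famAlg 𝒪 f, v * (f i - algebraMap 𝒪 E c) * h.idem hc = h.idem hc := by
  have hch : h.char (famGen 𝒪 f i - algebraMap 𝒪 _ c) ≠ 0 := by
    rw [map_sub, h.char_gen, AlgHom.commutes, sub_ne_zero]
    exact hne
  exact ⟨(famGen 𝒪 f i - algebraMap 𝒪 _ c).2,
    h.exists_inv hc (famGen 𝒪 f i - algebraMap 𝒪 _ c).2 hch⟩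

theorem commute_idem {a : E} (ha : a ∈ famAlg 𝒪 f) : Commute a (h.idem hc) :=
  famAlg_commute hc ha (h.idem_mem hc)

/-- Characterisation of the idempotent. -/
theorem idem_unique {e : E} (he : e ∈ famAlg 𝒪 f) (hee : e * e = e) (h1 : h.char ⟨e, he⟩ = 1)
    (hinv : ∃ v, v * h.idem hc * e = e) : e = h.idem hc := by
  obtain ⟨v, -, hv⟩ := h.exists_inv hc he (by rw [h1]; exact one_ne_zero)
  obtain ⟨w, hw⟩ := hinv
  have e1 : h.idem hc * e = h.idem hc := by
    conv_rhs => rw [← hv]
    conv_lhs => rw [← hv]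
    rw [mul_assoc, mul_assoc, mul_assoc, ← (h.commute_idem hc he).eq, ← mul_assoc e e, hee]
  have e2 : e * h.idem hc = e := by
    conv_rhs => rw [← hw]
    conv_lhs => rw [← hw]
    rw [mul_assoc w, mul_assoc, mul_assoc, (h.commute_idem hc he).eq, ← mul_assoc (h.idem hc) (h.idem hc),
      h.idem_mul_idem hc]
  rw [← e2, (h.commute_idem hc he).eq, e1]

omit [Module.Finite 𝒪 E] in
/-- Idempotents map to idempotents. -/
theorem map_idem [Module.Finite 𝒪 E] [Module.Finite 𝒪 E'] (π : E →ₐ[𝒪] E')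
    (hπ : ∀ i, π (f i) = f' i) (h' : Occurs 𝒪 f' lam) (hc' : ∀ i j, Commute (f' i) (f' j)) :
    π (h.idem hc) = h'.idem hc' := by
  refine h'.idem_unique hc' (famMap π hπ ⟨_, h.idem_mem hc⟩).2 ?_ ?_ ?_
  · rw [← map_mul, h.idem_mul_idem]
  · exact (h.char_famMap π hπ h' ⟨_, h.idem_mem hc⟩).trans (h.char_idem hc)
  · obtain ⟨⟨a, ha⟩, ha'⟩ := famMap_surjective π hπ ⟨_, h'.idem_mem hc'⟩
    obtain ⟨v, -, hv⟩ := h.exists_inv hc ha (by
      rw [← h.char_famMap π hπ h' ⟨a, ha⟩, ha', h'.char_idem hc']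
      exact one_ne_zero)
    refine ⟨π v, ?_⟩
    have ha'' : π a = h'.idem hc' := congrArg Subtype.val ha'
    rw [← ha'', ← map_mul, ← map_mul, hv]

end Idem

end Occurs

section Modules

variable {R R' : Type} [CommRing R] [CommRing R'] [Algebra 𝒪 R] [Algebra 𝒪 R']
variable {H : Type} [AddCommGroup H] [Module R H] [Module 𝒪 H] [IsScalarTower 𝒪 R H]
variable {H' : Type} [AddCommGroup H'] [Module R' H'] [Module 𝒪 H'] [IsScalarTower 𝒪 R' H']

omit [IsLocalRing 𝒪] in
/-- `R`-linear endomorphisms of an `𝒪`-finite module form an `𝒪`-finite algebra. -/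
theorem finite_end_restrict [IsNoetherianRing 𝒪] [Module.Finite 𝒪 H] :
    Module.Finite 𝒪 (Module.End R H) :=
  have := finite_end_of_finite (𝒪 := 𝒪) H
  Module.Finite.of_injective
    ({ toFun := fun φ => φ.restrictScalars 𝒪
       map_add' := fun _ _ => rfl
       map_smul' := fun _ _ => rfl } : Module.End R H →ₗ[𝒪] Module.End 𝒪 H)
    (LinearMap.restrictScalars_injective 𝒪)

variable {F : ι → Module.End R H} {F' : ι → Module.End R' H'} {g : H →ₗ[𝒪] H'}

omit [IsLocalRing 𝒪] in
/-- An intertwiner of the generators intertwines the generated algebras. -/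
theorem intertwine_famAlg (hg : ∀ i x, g (F i x) = F' i (g x))
    (a : famAlg 𝒪 (fun i => (F i, F' i))) (x : H) :
    g ((a : Module.End R H × Module.End R' H').1 x) =
      (a : Module.End R H × Module.End R' H').2 (g x) := by
  obtain ⟨a, ha⟩ := a
  revert x
  induction ha using Algebra.adjoin_induction with
  | mem y hy => obtain ⟨i, rfl⟩ := hy; exact hg i
  | algebraMap c =>
    intro x
    show g (c • x) = c • g x
    exact map_smul g c x
  | add y z _ _ hy hz =>
    intro x
    show g (y.1 x + z.1 x) = y.2 (g x) + z.2 (g x)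
    rw [map_add, hy, hz]
  | mul y z _ _ hy hz =>
    intro x
    show g (y.1 (z.1 x)) = y.2 (z.2 (g x))
    rw [hy, hz]

omit [IsLocalRing 𝒪] in
theorem commute_pair (hF : ∀ i j, Commute (F i) (F j)) (hF' : ∀ i j, Commute (F' i) (F' j))
    (i j : ι) : Commute (F i, F' i) (F j, F' j) := Commute.prod (hF i j) (hF' i j)

/-- Along a surjective intertwiner a system of the target occurs in the source. -/
theorem Occurs.of_surjective (hg : ∀ i x, g (F i x) = F' i (g x)) (hgs : Function.Surjective g)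
    (h' : Occurs 𝒪 F' lam) : Occurs 𝒪 F lam := by
  have hπ : ∀ i, AlgHom.snd 𝒪 (Module.End R H) (Module.End R' H') (F i, F' i) = F' i := fun i => rfl
  have hπ' : ∀ i, AlgHom.fst 𝒪 (Module.End R H) (Module.End R' H') (F i, F' i) = F i := fun i => rfl
  have hP : Occurs 𝒪 (fun i => (F i, F' i)) lam := h'.of_map _ hπ
  refine hP.map_of_ker _ hπ' fun a ha => ?_
  have ha2 : famMap (AlgHom.snd 𝒪 (Module.End R H) (Module.End R' H')) hπ a = 0 := by
    refine Subtype.ext (LinearMap.ext fun y => ?_)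
    obtain ⟨x, rfl⟩ := hgs y
    rw [coe_famMap, AlgHom.snd_apply]
    rw [← intertwine_famAlg hg]
    rw [show (a : Module.End R H × Module.End R' H').1 = 0 from ha]
    simp
  rw [← hP.char_famMap _ hπ h' a, ha2, map_zero]

variable [IsNoetherianRing 𝒪] [IsAdicComplete (maximalIdeal 𝒪) 𝒪]
  [Module.Finite 𝒪 (Module.End R H)] [Module.Finite 𝒪 (Module.End R' H')]

/-- An intertwiner commutes with the idempotents. -/
theorem Occurs.intertwine_idem (hg : ∀ i x, g (F i x) = F' i (g x))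
    (hF : ∀ i j, Commute (F i) (F j)) (hF' : ∀ i j, Commute (F' i) (F' j))
    (h : Occurs 𝒪 F lam) (h' : Occurs 𝒪 F' lam) (x : H) :
    g (h.idem hF x) = h'.idem hF' (g x) := by
  have hP : Occurs 𝒪 (fun i => (F i, F' i)) lam := h.of_map (AlgHom.fst 𝒪 _ _) fun _ => rfl
  have e1 := hP.map_idem (commute_pair hF hF') (AlgHom.fst 𝒪 _ _) (fun _ => rfl) h hF
  have e2 := hP.map_idem (commute_pair hF hF') (AlgHom.snd 𝒪 _ _) (fun _ => rfl) h' hF'
  rw [show h.idem hF = _ from e1.symm, show h'.idem hF' = _ from e2.symm]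
  exact intertwine_famAlg hg ⟨_, hP.idem_mem _⟩ x

end Modules

section Perturb

variable {R : Type} [CommRing R] [IsLocalRing R] {H : Type} [AddCommGroup H] [Module R H]
  [Module.Finite R H]

/-- An operator invertible on the range of `e` stays so after a small scalar perturbation. -/
theorem exists_inv_sub_smul {t v e : Module.End R H} (het : Commute e t) (hev : Commute e v)
    (hvt : Commute v t) (hee : e * e = e) (hv : v * t * e = e) {r : R} (hr : r ∈ maximalIdeal R) :
    ∃ v' : Module.End R H, e * v' * (t - r • 1) * e = e := by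
  set u : Module.End R H := 1 - r • (v * e) with hu
  have hsurj : Function.Surjective u := by
    rw [← LinearMap.range_eq_top]
    refine top_le_iff.1 (Submodule.le_of_le_smul_of_le_jacobson_bot (Module.Finite.fg_top)
      (IsLocalRing.maximalIdeal_le_jacobson ⊥) fun x _ => ?_)
    have : x = u x + r • (v * e) x := by simp [hu]
    rw [this]
    exact Submodule.add_mem_sup (LinearMap.mem_range_self u x)
      (Submodule.smul_mem_smul hr Submodule.mem_top)
  obtain ⟨w, hw⟩ := (Module.End.isUnit_iff u).2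
    ⟨OrzechProperty.injective_of_surjective_endomorphism u hsurj, hsurj⟩
  have hte : Commute u (t * e) := by
    refine (Commute.one_left _).sub_left (Commute.smul_left ?_ r)
    exact (hvt.mul_right hev.symm).mul_left (het.mul_right (Commute.refl e))
  have key : (t - r • 1) * e = u * (t * e) := by
    rw [hte.eq, hu, sub_mul, mul_sub, mul_one, smul_mul_assoc, one_mul, mul_smul_comm]
    congr 2
    rw [mul_assoc, ← mul_assoc e v, hev.eq, mul_assoc v, hee, ← mul_assoc, ← hvt.eq, hv]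
  refine ⟨v * ↑w⁻¹, ?_⟩
  rw [mul_assoc (e * _), key, mul_assoc e, mul_assoc v, ← mul_assoc (↑w⁻¹ : Module.End R H), ← hw,
    Units.inv_mul, one_mul, ← mul_assoc v, hv, hee]

end Perturb

end Fermat.Agent.TW.Mod
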