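/-
Twisted derivations, their coboundaries and `H¹`, for a group acting on `R`-modules through a
character `ε : G →* Rˣ` (owner: helper87).
-/
import Mathlib.Algebra.Module.Submodule.Map
import Mathlib.LinearAlgebra.Quotient.Basic
import Mathlib.GroupTheory.OrderOfElement
import Mathlib.Algebra.Module.Pi
import Mathlib.Algebra.Group.Torsion
import Mathlib.Algebra.Module.Hom
import Mathlib.LinearAlgebra.Pi
import Mathlib.Tactic

set_option autoImplicit false

namespace Fermat.Agent.TW.Mod

variable {G : Type*} [Group G] {R : Type*} [CommRing R] (ε : G →* Rˣ)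
variable (A B : Type*) [AddCommGroup A] [Module R A] [AddCommGroup B] [Module R B]

/-- The derivations `G → A`, for `G` acting on `A` through `ε`. -/
def Der : Submodule R (G → A) where
  carrier := {c | ∀ g h, c (g * h) = c g + (ε g : R) • c h}
  zero_mem' := fun g h => by simp
  add_mem' := fun {c d} hc hd g h => by
    simp only [Pi.add_apply, hc g h, hd g h, smul_add]
    abel
  smul_mem' := fun r {c} hc g h => by
    simp only [Pi.smul_apply, hc g h, smul_add, smul_comm r (ε g : R)]

variable {ε A B}

theorem mem_Der {c : G → A} : c ∈ Der ε A ↔ ∀ g h, c (g * h) = c g + (ε g : R) • c h := Iff.rfl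

theorem Der.map_mul (c : Der ε A) (g h : G) :
    (c : G → A) (g * h) = (c : G → A) g + (ε g : R) • (c : G → A) h := c.2 g h

theorem Der.map_one (c : Der ε A) : (c : G → A) 1 = 0 := by
  have h := c.2 1 1
  rw [one_mul, _root_.map_one, Units.val_one, one_smul] at h
  simpa using h

theorem Der.map_inv (c : Der ε A) (g : G) :
    (c : G → A) g⁻¹ = -((ε g⁻¹ : Rˣ) : R) • (c : G → A) g := by
  have h := c.2 g⁻¹ g
  rw [inv_mul_cancel, Der.map_one] at h
  rw [neg_smul]
  exact eq_neg_of_add_eq_zero_left h.symm

theorem Der.map_pow_of_trivial (c : Der ε A) {g : G} (hg : ε g = 1) (n : ℕ) :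
    (c : G → A) (g ^ n) = n • (c : G → A) g := by
  induction n with
  | zero => simp [Der.map_one]
  | succ n ih =>
    rw [pow_succ', Der.map_mul c, hg, Units.val_one, one_smul, ih, succ_nsmul']

/-- A derivation with torsion-free values kills the elements of finite order acting trivially. -/
theorem Der.map_eq_zero_of_isOfFinOrder [IsAddTorsionFree A] (c : Der ε A) {g : G} (hg : ε g = 1)
    (hfin : IsOfFinOrder g) : (c : G → A) g = 0 := by
  obtain ⟨n, hn, hgn⟩ := isOfFinOrder_iff_pow_eq_one.1 hfin
  have h := Der.map_pow_of_trivial c hg n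
  rw [hgn, Der.map_one c] at h
  exact (smul_eq_zero.1 h.symm).resolve_left hn.ne'

variable (ε A) in
/-- The coboundary map. -/
def cobound : A →ₗ[R] Der ε A where
  toFun a := ⟨fun g => (ε g : R) • a - a, fun g h => by
    simp only [_root_.map_mul, Units.val_mul, mul_smul, smul_sub]
    abel⟩
  map_add' a b := Subtype.ext (funext fun g => by
    show (ε g : R) • (a + b) - (a + b) = ((ε g : R) • a - a) + ((ε g : R) • b - b)
    rw [smul_add]; abel)
  map_smul' r a := Subtype.ext (funext fun g => by
    show (ε g : R) • (r • a) - r • a = r • ((ε g : R) • a - a)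
    rw [smul_sub, smul_comm])

theorem cobound_apply (a : A) (g : G) :
    ((cobound ε A a : Der ε A) : G → A) g = (ε g : R) • a - a := rfl

/-- Push forward along a linear map of coefficients. -/
def Der.map (f : A →ₗ[R] B) : Der ε A →ₗ[R] Der ε B where
  toFun c := ⟨fun g => f ((c : G → A) g), fun g h => by
    simp only [Der.map_mul c g h, _root_.map_add, _root_.map_smul]⟩
  map_add' c d := Subtype.ext (funext fun g => f.map_add _ _)
  map_smul' r c := Subtype.ext (funext fun g => f.map_smul _ _)

@[simp] theorem Der.map_apply (f : A →ₗ[R] B) (c : Der ε A) (g : G) :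
    ((Der.map f c : Der ε B) : G → B) g = f ((c : G → A) g) := rfl

theorem Der.map_cobound (f : A →ₗ[R] B) (a : A) :
    Der.map f (cobound ε A a) = cobound ε B (f a) := by
  ext g
  simp [cobound_apply]

variable (ε A) in
/-- First cohomology, as derivations modulo coboundaries. -/
abbrev H1 : Type _ := (Der ε A) ⧸ LinearMap.range (cobound ε A)

/-- Push forward of classes. -/
def H1.map (f : A →ₗ[R] B) : H1 ε A →ₗ[R] H1 ε B :=
  Submodule.mapQ _ _ (Der.map f) (by
    rintro _ ⟨a, rfl⟩
    exact ⟨f a, (Der.map_cobound f a).symm⟩)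

@[simp] theorem H1.map_mk (f : A →ₗ[R] B) (c : Der ε A) :
    H1.map f (Submodule.Quotient.mk c) = Submodule.Quotient.mk (Der.map f c) := rfl

theorem cobound_eq_zero (h : ∀ (g : G) (a : A), (ε g : R) • a = a) : cobound ε A = 0 := by
  ext a g
  simp [cobound_apply, h]

/-- For trivial action derivations are homomorphisms. -/
def Der.homEquiv (h : ∀ (g : G) (a : A), (ε g : R) • a = a) :
    Der ε A ≃ₗ[R] (Additive G →+ A) where
  toFun c :=
    { toFun := fun g => (c : G → A) g.toMul
      map_zero' := Der.map_one c
      map_add' := fun g g' => by rw [toMul_add, Der.map_mul c, h] }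
  map_add' _ _ := rfl
  map_smul' _ _ := rfl
  invFun φ := ⟨fun g => φ (Additive.ofMul g), fun g g' => by
    show φ (Additive.ofMul (g * g')) = φ (Additive.ofMul g) + (ε g : R) • φ (Additive.ofMul g')
    rw [ofMul_mul, _root_.map_add, h]⟩
  left_inv _ := rfl
  right_inv _ := rfl

/-- For trivial action `H¹` is the group of homomorphisms. -/
def H1.homEquiv (h : ∀ (g : G) (a : A), (ε g : R) • a = a) :
    H1 ε A ≃ₗ[R] (Additive G →+ A) :=
  (Submodule.quotEquivOfEqBot _ (by rw [cobound_eq_zero h, LinearMap.range_zero])).trans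
    (Der.homEquiv h)

@[simp] theorem H1.homEquiv_mk (h : ∀ (g : G) (a : A), (ε g : R) • a = a) (c : Der ε A) (g : G) :
    H1.homEquiv h (Submodule.Quotient.mk c) (Additive.ofMul g) = (c : G → A) g := rfl

/-- `H¹` commutes with surjective change of coefficients, given that derivations do. -/
theorem H1.map_surjective {f : A →ₗ[R] B} (hf : Function.Surjective (Der.map (ε := ε) f)) :
    Function.Surjective (H1.map (ε := ε) f) := by
  intro x
  induction x using Submodule.Quotient.induction_on with
  | _ d =>
    obtain ⟨c, rfl⟩ := hf d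
    exact ⟨Submodule.Quotient.mk c, rfl⟩

/-- The kernel of a surjective change of coefficients on `H¹`. -/
theorem H1.ker_map {f : A →ₗ[R] B} (hf : Function.Surjective f) :
    LinearMap.ker (H1.map (ε := ε) f) =
      (LinearMap.ker (Der.map (ε := ε) f)).map (Submodule.mkQ _) := by
  ext x
  induction x using Submodule.Quotient.induction_on with
  | _ c =>
    constructor
    · intro hc
      rw [LinearMap.mem_ker, H1.map_mk, Submodule.Quotient.mk_eq_zero] at hc
      obtain ⟨b, hb⟩ := hc
      obtain ⟨a, rfl⟩ := hf b
      refine ⟨c - cobound ε A a, ?_, ?_⟩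
      · rw [SetLike.mem_coe, LinearMap.mem_ker, _root_.map_sub, Der.map_cobound, hb, sub_self]
      · rw [Submodule.mkQ_apply, Submodule.Quotient.eq]
        exact ⟨-a, by simp⟩
    · rintro ⟨d, hd, hdc⟩
      rw [← hdc, LinearMap.mem_ker, Submodule.mkQ_apply, H1.map_mk, LinearMap.mem_ker.1 hd,
        Submodule.Quotient.mk_zero]

end Fermat.Agent.TW.Mod
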