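/-
Weighted coset systems and the operators they define on twisted derivations
(owner: helper87).
-/
import Fermat.Agent.TW.Mod.Cocycle
import Mathlib.LinearAlgebra.Matrix.SpecialLinearGroup
import Mathlib.Algebra.Module.BigOperators

set_option autoImplicit false

namespace Fermat.Agent.TW.Mod

open scoped MatrixGroups

variable {Γ : Subgroup SL(2, ℤ)} {R : Type*} [CommRing R] (ε : Γ →* Rˣ)

/-- The integral matrix of an element of `Γ`. -/
def matOf (γ : Γ) : Matrix (Fin 2) (Fin 2) ℤ := ((γ : SL(2, ℤ)) : Matrix (Fin 2) (Fin 2) ℤ)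

theorem matOf_mul (γ δ : Γ) : matOf (γ * δ) = matOf γ * matOf δ := by simp [matOf]

@[simp] theorem matOf_one : matOf (1 : Γ) = 1 := by simp [matOf]

theorem matOf_inv_mul (γ : Γ) : matOf γ⁻¹ * matOf γ = 1 := by
  rw [← matOf_mul, inv_mul_cancel, matOf_one]

/-- A finite family `α` of matrices permuted by right multiplication by `Γ` up to left
multiplication, with weights compatible with `ε`. -/
structure CosetSystem (ι : Type*) where
  mat : ι → Matrix (Fin 2) (Fin 2) ℤ
  weight : ι → R
  next : Γ → Equiv.Perm ι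
  coc : Γ → ι → Γ
  next_mul : ∀ g h i, next (g * h) i = next h (next g i)
  coc_mul : ∀ g h i, coc (g * h) i = coc g i * coc h (next g i)
  rel : ∀ g i, matOf (coc g i) * mat (next g i) = mat i * matOf g
  weight_rel : ∀ g i, weight i * (ε (coc g i) : R) = (ε g : R) * weight (next g i)

variable {ε} {A B : Type*} [AddCommGroup A] [Module R A] [AddCommGroup B] [Module R B]

namespace CosetSystem

variable {ι : Type*} [Fintype ι] (S : CosetSystem ε ι)

/-- `(T c)(g) = ∑ᵢ wᵢ c(γᵢ)` where `αᵢ g = γᵢ α_(σ i)`. -/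
def op : Der ε A →ₗ[R] Der ε A where
  toFun c := ⟨fun g => ∑ i, S.weight i • (c : Γ → A) (S.coc g i), fun g h => by
    show ∑ i, S.weight i • (c : Γ → A) (S.coc (g * h) i) = _
    simp only [S.coc_mul, Der.map_mul c, smul_add, smul_smul, S.weight_rel,
      Finset.sum_add_distrib, Finset.smul_sum]
    congr 1
    exact Fintype.sum_equiv (S.next g) _ _ fun i => rfl⟩
  map_add' c d := Subtype.ext (funext fun g => by
    show ∑ i, S.weight i • ((c : Γ → A) (S.coc g i) + (d : Γ → A) (S.coc g i)) =
      (∑ i, S.weight i • (c : Γ → A) (S.coc g i)) + ∑ i, S.weight i • (d : Γ → A) (S.coc g i)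
    simp [smul_add, Finset.sum_add_distrib])
  map_smul' r c := Subtype.ext (funext fun g => by
    show ∑ i, S.weight i • (r • (c : Γ → A) (S.coc g i)) =
      r • ∑ i, S.weight i • (c : Γ → A) (S.coc g i)
    simp [Finset.smul_sum, smul_comm r])

theorem op_apply (c : Der ε A) (g : Γ) :
    ((S.op c : Der ε A) : Γ → A) g = ∑ i, S.weight i • (c : Γ → A) (S.coc g i) := rfl

/-- The degree: `T` acts through it on coboundaries. -/
def degree : R := ∑ i, S.weight i

theorem op_cobound (a : A) : S.op (cobound ε A a) = cobound ε A (S.degree • a) := by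
  ext g
  rw [op_apply, cobound_apply]
  simp only [cobound_apply, smul_sub, smul_smul, S.weight_rel, Finset.sum_sub_distrib,
    degree, ← Finset.sum_smul]
  rw [← Finset.mul_sum, Equiv.sum_comp (S.next g) S.weight, mul_comm]

theorem op_natural (f : A →ₗ[R] B) (c : Der ε A) : Der.map f (S.op c) = S.op (Der.map f c) := by
  ext g
  simp [op_apply]

/-- The operator on `H¹`. -/
def opH1 : H1 ε A →ₗ[R] H1 ε A :=
  Submodule.mapQ _ _ S.op (by
    rintro _ ⟨a, rfl⟩
    exact ⟨S.degree • a, (S.op_cobound a).symm⟩)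

@[simp] theorem opH1_mk (c : Der ε A) :
    S.opH1 (A := A) (Submodule.Quotient.mk c) = Submodule.Quotient.mk (S.op c) := rfl

theorem opH1_natural (f : A →ₗ[R] B) (x : H1 ε A) : H1.map f (S.opH1 (A := A) x) = S.opH1 (A := B) (H1.map f x) := by
  induction x using Submodule.Quotient.induction_on with
  | _ c => simp [op_natural]

/-- The composite system `β_j α_i`. -/
def comp {κ : Type*} (S' : CosetSystem ε κ) : CosetSystem ε (κ × ι) where
  mat x := S'.mat x.1 * S.mat x.2
  weight x := S.weight x.2 * S'.weight x.1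
  next g :=
    { toFun := fun x => (S'.next (S.coc g x.2) x.1, S.next g x.2)
      invFun := fun y =>
        ((S'.next (S.coc g ((S.next g).symm y.2))).symm y.1, (S.next g).symm y.2)
      left_inv := fun x => by simp
      right_inv := fun y => by simp }
  coc g x := S'.coc (S.coc g x.2) x.1
  next_mul g h x := by
    show ((S'.next (S.coc (g * h) x.2) x.1, S.next (g * h) x.2) : κ × ι) = _
    rw [S.coc_mul, S'.next_mul, S.next_mul]
    rfl
  coc_mul g h x := by
    show S'.coc (S.coc (g * h) x.2) x.1 = _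
    rw [S.coc_mul, S'.coc_mul]
    rfl
  rel g x := by
    show matOf (S'.coc (S.coc g x.2) x.1) *
      (S'.mat (S'.next (S.coc g x.2) x.1) * S.mat (S.next g x.2)) = S'.mat x.1 * S.mat x.2 * matOf g
    rw [← mul_assoc, S'.rel, mul_assoc, S.rel, mul_assoc]
  weight_rel g x := by
    show S.weight x.2 * S'.weight x.1 * (ε (S'.coc (S.coc g x.2) x.1) : R) =
      (ε g : R) * (S.weight (S.next g x.2) * S'.weight (S'.next (S.coc g x.2) x.1))
    rw [mul_assoc, S'.weight_rel, ← mul_assoc, S.weight_rel, mul_assoc]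

theorem op_comp {κ : Type*} [Fintype κ] (S' : CosetSystem ε κ) (c : Der ε A) :
    S.op (S'.op c) = (S.comp S').op c := by
  ext g
  simp only [op_apply, Finset.smul_sum, smul_smul, comp]
  rw [Fintype.sum_prod_type_right]

/-- Two systems representing the same cosets define the same operator on `H¹`. -/
theorem opH1_eq_of_reps {ι' : Type*} [Fintype ι'] (S' : CosetSystem ε ι')
    (hcancel : ∀ (i j : ι) (a b : Γ), matOf a * S.mat i = matOf b * S.mat j → i = j ∧ a = b)
    (π : ι' ≃ ι) (u : ι' → Γ) (hmat : ∀ i, S'.mat i = matOf (u i) * S.mat (π i))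
    (hw : ∀ i, S'.weight i * (ε (u i) : R) = S.weight (π i)) :
    (S'.opH1 : H1 ε A →ₗ[R] H1 ε A) = S.opH1 := by
  refine Submodule.linearMap_qext _ (LinearMap.ext fun c => ?_)
  simp only [LinearMap.comp_apply, Submodule.mkQ_apply, opH1_mk]
  rw [Submodule.Quotient.eq]
  refine ⟨-∑ i, S'.weight i • (c : Γ → A) (u i), ?_⟩
  ext g
  have key : ∀ i, S.next g (π i) = π (S'.next g i) ∧
      S'.coc g i * u (S'.next g i) = u i * S.coc g (π i) := by
    intro i
    have h := hcancel (π (S'.next g i)) (S.next g (π i))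
      (S'.coc g i * u (S'.next g i)) (u i * S.coc g (π i)) (by
        rw [matOf_mul, matOf_mul, mul_assoc, ← hmat, S'.rel, hmat, mul_assoc, mul_assoc, S.rel])
    exact ⟨h.1.symm, h.2⟩
  have hc : ∀ i, S'.weight i • (c : Γ → A) (S'.coc g i) =
      S'.weight i • (c : Γ → A) (u i) + S.weight (π i) • (c : Γ → A) (S.coc g (π i)) -
        ((ε g : R) * S'.weight (S'.next g i)) • (c : Γ → A) (u (S'.next g i)) := by
    intro i
    have h := congrArg (fun x => S'.weight i • (c : Γ → A) x) (key i).2
    simp only [Der.map_mul c, smul_add, smul_smul, S'.weight_rel, hw] at h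
    exact eq_sub_of_add_eq h
  rw [cobound_apply]
  show _ = ((S'.op c : Der ε A) : Γ → A) g - ((S.op c : Der ε A) : Γ → A) g
  rw [op_apply, op_apply, Finset.sum_congr rfl fun i _ => hc i, Finset.sum_sub_distrib,
    Finset.sum_add_distrib, π.sum_comp fun i => S.weight i • (c : Γ → A) (S.coc g i),
    Equiv.sum_comp (S'.next g) fun i => ((ε g : R) * S'.weight i) • (c : Γ → A) (u i)]
  simp only [smul_neg, mul_smul, ← Finset.smul_sum]
  abel

end CosetSystem

end Fermat.Agent.TW.Mod
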