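/-
The induced module on a coset space and the Shapiro section on derivations (owner: helper87).
-/
import Fermat.Agent.TW.Mod.Cocycle
import Mathlib.GroupTheory.GroupAction.Quotient
import Mathlib.GroupTheory.Index

set_option autoImplicit false

namespace Fermat.Agent.TW.Mod

variable {G : Type*} [Group G] {Γ : Subgroup G}

variable (Γ) in
/-- Coset representatives, with `1` for the base coset. -/
noncomputable def rep (x : G ⧸ Γ) : G := by
  classical exact if x = (1 : G) then 1 else x.out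

@[simp] theorem rep_base : rep Γ ((1 : G) : G ⧸ Γ) = 1 := by simp [rep]

theorem mk_rep (x : G ⧸ Γ) : ((rep Γ x : G) : G ⧸ Γ) = x := by
  classical
  unfold rep
  split_ifs with h
  · exact h.symm
  · exact QuotientGroup.out_eq' x

variable (Γ) in
/-- The Schreier cocycle `k(g, x) = r_x⁻¹ g r_(g⁻¹ x)`. -/
noncomputable def schreier (g : G) (x : G ⧸ Γ) : Γ :=
  ⟨(rep Γ x)⁻¹ * (g * rep Γ (g⁻¹ • x)), by
    rw [← QuotientGroup.eq, mk_rep]
    rw [← smul_eq_mul, ← MulAction.Quotient.smul_mk, mk_rep, smul_inv_smul]⟩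

theorem schreier_coe (g : G) (x : G ⧸ Γ) :
    (schreier Γ g x : G) = (rep Γ x)⁻¹ * (g * rep Γ (g⁻¹ • x)) := rfl

theorem schreier_mul (g h : G) (x : G ⧸ Γ) :
    schreier Γ (g * h) x = schreier Γ g x * schreier Γ h (g⁻¹ • x) := by
  apply Subtype.ext
  simp only [Subgroup.coe_mul, schreier_coe, mul_inv_rev, mul_smul]
  group

theorem schreier_base (γ : Γ) : schreier Γ (γ : G) ((1 : G) : G ⧸ Γ) = γ := by
  apply Subtype.ext
  have : ((γ : G)⁻¹ • ((1 : G) : G ⧸ Γ)) = ((1 : G) : G ⧸ Γ) := by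
    rw [MulAction.Quotient.smul_mk, smul_eq_mul, mul_one, QuotientGroup.eq]
    simp
  rw [schreier_coe, this, rep_base, inv_one, one_mul, mul_one]

theorem base_smul (γ : Γ) : (γ : G) • ((1 : G) : G ⧸ Γ) = ((1 : G) : G ⧸ Γ) := by
  rw [MulAction.Quotient.smul_mk, smul_eq_mul, mul_one, QuotientGroup.eq]
  simp

theorem schreier_central {z : G} (hz : ∀ g, Commute z g) (hzΓ : z ∈ Γ) (x : G ⧸ Γ) :
    (schreier Γ z x : G) = z := by
  have hx : z⁻¹ • x = x := by
    obtain ⟨g, rfl⟩ := QuotientGroup.mk_surjective x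
    rw [MulAction.Quotient.smul_mk, smul_eq_mul, QuotientGroup.eq]
    rw [mul_inv_rev, inv_inv, mul_assoc, (hz g).eq, inv_mul_cancel_left]
    exact hzΓ
  rw [schreier_coe, hx, (hz _).eq, inv_mul_cancel_left]

variable {R : Type*} [CommRing R] (ε : Γ →* Rˣ)
variable {A B : Type*} [AddCommGroup A] [Module R A] [AddCommGroup B] [Module R B]

/-- The action on the induced module `G ⧸ Γ → A`. -/
noncomputable def indAct (g : G) : (G ⧸ Γ → A) →ₗ[R] (G ⧸ Γ → A) where
  toFun f x := (ε (schreier Γ g x) : R) • f (g⁻¹ • x)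
  map_add' f f' := funext fun x => by simp
  map_smul' r f := funext fun x => by simp [smul_comm r]

theorem indAct_apply (g : G) (f : G ⧸ Γ → A) (x : G ⧸ Γ) :
    indAct ε g f x = (ε (schreier Γ g x) : R) • f (g⁻¹ • x) := rfl

theorem indAct_mul (g h : G) (f : G ⧸ Γ → A) :
    indAct ε (g * h) f = indAct ε g (indAct ε h f) := by
  funext x
  simp only [indAct_apply, schreier_mul, map_mul, Units.val_mul, mul_smul, mul_inv_rev]

theorem indAct_one (f : G ⧸ Γ → A) : indAct ε 1 f = f := by
  funext x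
  have : schreier Γ 1 x = 1 := Subtype.ext (by simp [schreier_coe])
  rw [indAct_apply, this, map_one, Units.val_one, one_smul, inv_one, one_smul]

theorem indAct_central {z : G} (hz : ∀ g, Commute z g) (hzΓ : z ∈ Γ) (hε : ε ⟨z, hzΓ⟩ = 1)
    (f : G ⧸ Γ → A) : indAct ε z f = f := by
  funext x
  have hs : schreier Γ z x = ⟨z, hzΓ⟩ := Subtype.ext (schreier_central hz hzΓ x)
  have hx : z⁻¹ • x = x := by
    have h : (schreier Γ z x : G) = z := schreier_central hz hzΓ x
    rw [schreier_coe, inv_mul_eq_iff_eq_mul] at h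
    have h' : rep Γ (z⁻¹ • x) = rep Γ x := by
      rw [← (hz (rep Γ x)).eq] at h
      exact mul_left_cancel h
    have := congrArg (fun g : G => ((g : G) : G ⧸ Γ)) h'
    simpa [mk_rep] using this
  rw [indAct_apply, hs, hε, Units.val_one, one_smul, hx]

theorem indAct_natural (π : A →ₗ[R] B) (g : G) (f : G ⧸ Γ → A) :
    (fun x => π (indAct ε g f x)) = indAct ε g (fun x => π (f x)) := by
  funext x
  simp [indAct_apply]

/-- Cocycles of `G` in the induced module. -/
def IsIndCocycle (C : G → G ⧸ Γ → A) : Prop :=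
  ∀ g h, C (g * h) = C g + indAct ε g (C h)

/-- The Shapiro section. -/
noncomputable def shapiroSec (c : Der ε A) (g : G) (x : G ⧸ Γ) : A :=
  (c : Γ → A) (schreier Γ g x)

theorem isIndCocycle_shapiroSec (c : Der ε A) : IsIndCocycle ε (shapiroSec ε c) := fun g h => by
  funext x
  simp [shapiroSec, schreier_mul, Der.map_mul c, indAct_apply]

/-- Evaluation at the base coset. -/
def shapiroEval {C : G → G ⧸ Γ → A} (hC : IsIndCocycle ε C) : Der ε A :=
  ⟨fun γ => C (γ : G) ((1 : G) : G ⧸ Γ), fun γ δ => by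
    show C (((γ * δ : Γ) : G)) _ = _
    rw [Subgroup.coe_mul, hC]
    have : ((γ : G))⁻¹ • ((1 : G) : G ⧸ Γ) = ((1 : G) : G ⧸ Γ) := by
      rw [inv_smul_eq_iff, base_smul]
    rw [Pi.add_apply, indAct_apply, schreier_base, this]⟩

theorem shapiroEval_sec (c : Der ε A) :
    shapiroEval ε (isIndCocycle_shapiroSec ε c) = c := by
  ext γ
  show (c : Γ → A) (schreier Γ (γ : G) _) = _
  rw [schreier_base]

theorem IsIndCocycle.ext_of_closure {C C' : G → G ⧸ Γ → A} (hC : IsIndCocycle ε C)
    (hC' : IsIndCocycle ε C') {s : Set G} (hs : Subgroup.closure s = ⊤)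
    (h : ∀ g ∈ s, C g = C' g) : C = C' := by
  have one0 : ∀ {D : G → G ⧸ Γ → A}, IsIndCocycle ε D → D 1 = 0 := fun {D} hD => by
    have := hD 1 1
    rw [one_mul, indAct_one] at this
    simpa using this
  funext g
  have hg : g ∈ Subgroup.closure s := hs ▸ Subgroup.mem_top g
  induction hg using Subgroup.closure_induction with
  | mem x hx => exact h x hx
  | one => rw [one0 hC, one0 hC']
  | mul x y _ _ hx hy => rw [hC, hC', hx, hy]
  | inv x _ hx =>
    have e : ∀ {D : G → G ⧸ Γ → A}, IsIndCocycle ε D → D x⁻¹ = -indAct ε x⁻¹ (D x) :=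
      fun {D} hD => by
        have := hD x⁻¹ x
        rw [inv_mul_cancel, one0 hD] at this
        exact eq_neg_of_add_eq_zero_left this.symm
    rw [e hC, e hC', hx]

end Fermat.Agent.TW.Mod
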