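/-
For a finite index subgroup `Γ ∋ -1` of `SL(2, ℤ)` and a character `ε` killing the elements of
finite order, derivations `Γ → A` are a natural direct summand of `(SL(2,ℤ)/Γ → A)²` for
torsion-free `A` (owner: helper87).
-/
import Fermat.Agent.TW.Mod.Induced
import Fermat.Agent.MF.ParHom.Presentation
import Mathlib.RingTheory.Finiteness.Projective

set_option autoImplicit false

namespace Fermat.Agent.TW.Mod

open ModularGroup
open Fermat.Agent.MF.ParHom (genU S_sq genU_cube slLift closure_S_genU)
open scoped MatrixGroups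

variable {Γ : Subgroup SL(2, ℤ)}
variable {R : Type*} [CommRing R] (ε : Γ →* Rˣ)
variable {A B : Type*} [AddCommGroup A] [Module R A] [AddCommGroup B] [Module R B]

/-- `-1 ∈ Γ` and `ε` kills the elements of finite order. -/
structure Admissible : Prop where
  neg_one_mem : (-1 : SL(2, ℤ)) ∈ Γ
  trivial_of_finOrder : ∀ γ : Γ, IsOfFinOrder γ → ε γ = 1

theorem neg_one_commute (g : SL(2, ℤ)) : Commute (-1 : SL(2, ℤ)) g := by
  show (-1) * g = g * (-1)
  simp

section Act

variable {ε}

theorem Admissible.eps_neg_one (h : Admissible ε) : ε ⟨-1, h.neg_one_mem⟩ = 1 :=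
  h.trivial_of_finOrder _ (isOfFinOrder_iff_pow_eq_one.2
    ⟨2, by norm_num, Subtype.ext (by simp)⟩)

theorem Admissible.indAct_neg_one (h : Admissible ε) (f : SL(2, ℤ) ⧸ Γ → A) :
    indAct ε (-1) f = f :=
  indAct_central ε neg_one_commute h.neg_one_mem h.eps_neg_one f

theorem Admissible.indAct_S_S (h : Admissible ε) (f : SL(2, ℤ) ⧸ Γ → A) :
    indAct ε S (indAct ε S f) = f := by
  rw [← indAct_mul, S_sq, h.indAct_neg_one]

theorem Admissible.indAct_U_U_U (h : Admissible ε) (f : SL(2, ℤ) ⧸ Γ → A) :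
    indAct ε genU (indAct ε genU (indAct ε genU f)) = f := by
  rw [← indAct_mul, ← indAct_mul, genU_cube, h.indAct_neg_one]

theorem Admissible.neg_one_smul (h : Admissible ε) (x : SL(2, ℤ) ⧸ Γ) : (-1 : SL(2, ℤ)) • x = x := by
  obtain ⟨g, rfl⟩ := QuotientGroup.mk_surjective x
  rw [MulAction.Quotient.smul_mk, smul_eq_mul, QuotientGroup.eq]
  simpa using h.neg_one_mem

theorem Admissible.U_inv_cube_smul (h : Admissible ε) (x : SL(2, ℤ) ⧸ Γ) :
    genU⁻¹ • genU⁻¹ • genU⁻¹ • x = x := by
  rw [← mul_smul, ← mul_smul, ← mul_inv_rev, ← mul_inv_rev, ← mul_assoc, genU_cube]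
  conv_rhs => rw [← h.neg_one_smul x]
  congr 1
  exact inv_eq_of_mul_eq_one_right (by simp)

theorem Admissible.S_inv_sq_smul (h : Admissible ε) (x : SL(2, ℤ) ⧸ Γ) :
    S⁻¹ • S⁻¹ • x = x := by
  rw [← mul_smul, ← mul_inv_rev, S_sq]
  conv_rhs => rw [← h.neg_one_smul x]
  congr 1
  exact inv_eq_of_mul_eq_one_right (by simp)

theorem Admissible.eps_schreier_S (h : Admissible ε) {x : SL(2, ℤ) ⧸ Γ} (hx : S⁻¹ • x = x) :
    ε (schreier Γ S x) = 1 := by
  refine h.trivial_of_finOrder _ ?_
  rw [← Submonoid.isOfFinOrder_coe]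
  show IsOfFinOrder ((schreier Γ S x : SL(2, ℤ)))
  rw [schreier_coe, hx, ← mul_assoc]
  have := (MulAut.conj (rep Γ x)⁻¹).toMonoidHom.isOfFinOrder
    (isOfFinOrder_iff_pow_eq_one.2 ⟨4, by norm_num, by decide⟩ : IsOfFinOrder (S : SL(2, ℤ)))
  simpa [MulAut.conj_apply] using this

theorem Admissible.eps_schreier_U (h : Admissible ε) {x : SL(2, ℤ) ⧸ Γ} (hx : genU⁻¹ • x = x) :
    ε (schreier Γ genU x) = 1 := by
  refine h.trivial_of_finOrder _ ?_
  rw [← Submonoid.isOfFinOrder_coe]
  show IsOfFinOrder ((schreier Γ genU x : SL(2, ℤ)))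
  rw [schreier_coe, hx, ← mul_assoc]
  have := (MulAut.conj (rep Γ x)⁻¹).toMonoidHom.isOfFinOrder
    (isOfFinOrder_iff_pow_eq_one.2 ⟨6, by norm_num, by decide⟩ : IsOfFinOrder (genU : SL(2, ℤ)))
  simpa [MulAut.conj_apply] using this

end Act

section Proj

variable (Γ)

/-- The chosen representatives of the free `S`-orbits. -/
def repS (x : SL(2, ℤ) ⧸ Γ) : Prop :=
  WellOrderingRel x (S⁻¹ • x)

/-- The chosen first representatives of the free `genU`-orbits. -/
def repU (x : SL(2, ℤ) ⧸ Γ) : Prop :=
  WellOrderingRel x (genU⁻¹ • x) ∧ WellOrderingRel x (genU⁻¹ • genU⁻¹ • x)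

variable {Γ}

variable (R) in
open scoped Classical in
/-- Restriction to a set of cosets, extended by zero. -/
noncomputable def mask (P : SL(2, ℤ) ⧸ Γ → Prop) :
    (SL(2, ℤ) ⧸ Γ → A) →ₗ[R] (SL(2, ℤ) ⧸ Γ → A) where
  toFun f x := if P x then f x else 0
  map_add' f f' := funext fun x => by by_cases h : P x <;> simp [h]
  map_smul' r f := funext fun x => by by_cases h : P x <;> simp [h]

open scoped Classical in
@[simp] theorem mask_apply (P : SL(2, ℤ) ⧸ Γ → Prop) (f : SL(2, ℤ) ⧸ Γ → A) (x : SL(2, ℤ) ⧸ Γ) :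
    mask R P f x = if P x then f x else 0 := rfl

/-- The natural projection onto the kernel of `1 + S`. -/
noncomputable def projS : (SL(2, ℤ) ⧸ Γ → A) →ₗ[R] (SL(2, ℤ) ⧸ Γ → A) :=
  (LinearMap.id - indAct ε S) ∘ₗ mask R (repS Γ)

/-- The natural projection onto the kernel of `1 + U + U²`. -/
noncomputable def projU : (SL(2, ℤ) ⧸ Γ → A) →ₗ[R] (SL(2, ℤ) ⧸ Γ → A) :=
  (LinearMap.id - indAct ε genU) ∘ₗ
    (mask R (repU Γ) + mask R (fun x => repU Γ (genU⁻¹ • x)) ∘ₗ (LinearMap.id + indAct ε genU))

open scoped Classical in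
theorem projS_apply (f : SL(2, ℤ) ⧸ Γ → A) (x : SL(2, ℤ) ⧸ Γ) :
    projS ε f x = (if repS Γ x then f x else 0) -
      (ε (schreier Γ S x) : R) • (if repS Γ (S⁻¹ • x) then f (S⁻¹ • x) else 0) := by
  simp [projS, indAct_apply]

open scoped Classical in
theorem projU_apply (f : SL(2, ℤ) ⧸ Γ → A) (x : SL(2, ℤ) ⧸ Γ) :
    projU ε f x =
      ((if repU Γ x then f x else 0) +
        (if repU Γ (genU⁻¹ • x) then
          f x + (ε (schreier Γ genU x) : R) • f (genU⁻¹ • x) else 0)) -
      (ε (schreier Γ genU x) : R) • ((if repU Γ (genU⁻¹ • x) then f (genU⁻¹ • x) else 0) +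
        (if repU Γ (genU⁻¹ • genU⁻¹ • x) then f (genU⁻¹ • x) +
          (ε (schreier Γ genU (genU⁻¹ • x)) : R) • f (genU⁻¹ • genU⁻¹ • x) else 0)) := by
  by_cases h1 : repU Γ (genU⁻¹ • x) <;> by_cases h2 : repU Γ (genU⁻¹ • genU⁻¹ • x) <;>
    simp [projU, indAct_apply, h1, h2]

variable {ε}

theorem Admissible.add_indAct_projS (h : Admissible ε) (f : SL(2, ℤ) ⧸ Γ → A) :
    projS ε f + indAct ε S (projS ε f) = 0 := by
  simp only [projS, LinearMap.comp_apply, LinearMap.sub_apply, LinearMap.id_apply, map_sub,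
    h.indAct_S_S]
  abel

theorem Admissible.add_indAct_projU (h : Admissible ε) (f : SL(2, ℤ) ⧸ Γ → A) :
    projU ε f + indAct ε genU (projU ε f) + indAct ε genU (indAct ε genU (projU ε f)) = 0 := by
  simp only [projU, LinearMap.comp_apply, LinearMap.sub_apply, LinearMap.id_apply, map_sub,
    h.indAct_U_U_U]
  abel

open scoped Classical in
theorem Admissible.projS_eq_self_of (h : Admissible ε) (h2 : ∀ a : A, 2 • a = 0 → a = 0)
    {f : SL(2, ℤ) ⧸ Γ → A} (hf : f + indAct ε S f = 0) : projS ε f = f := by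
  funext x
  have hfx : f x + (ε (schreier Γ S x) : R) • f (S⁻¹ • x) = 0 := congrFun hf x
  have tr : IsWellOrder (SL(2, ℤ) ⧸ Γ) WellOrderingRel := WellOrderingRel.isWellOrder
  rw [projS_apply]
  by_cases hx : S⁻¹ • x = x
  · have hr : ¬ repS Γ x := by
      rw [repS, hx]; exact irrefl x
    simp only [hx, if_neg hr, h.eps_schreier_S hx, Units.val_one, one_smul] at hfx ⊢
    rw [← two_nsmul] at hfx
    simp [h2 _ hfx]
  · have hr' : repS Γ (S⁻¹ • x) ↔ WellOrderingRel (S⁻¹ • x) x := by
      rw [repS, h.S_inv_sq_smul]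
    rcases trichotomous_of WellOrderingRel x (S⁻¹ • x) with hlt | heq | hgt
    · rw [if_pos (show repS Γ x from hlt), if_neg (by rw [hr']; exact asymm hlt)]
      simp
    · exact absurd heq.symm hx
    · rw [if_neg (show ¬ repS Γ x from asymm hgt), if_pos (hr'.2 hgt)]
      rw [zero_sub]
      exact (eq_neg_of_add_eq_zero_left hfx).symm

theorem Admissible.projS_eq_self [IsAddTorsionFree A] (h : Admissible ε)
    {f : SL(2, ℤ) ⧸ Γ → A} (hf : f + indAct ε S f = 0) : projS ε f = f :=
  h.projS_eq_self_of (fun _ ha => (smul_eq_zero.1 ha).resolve_left two_ne_zero) hf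

open scoped Classical in
theorem Admissible.projU_eq_self_of_fixed (h : Admissible ε)
    (h3 : ∀ g : SL(2, ℤ), g⁻¹ * genU * g ∈ Γ → ∀ a : A, 3 • a = 0 → a = 0)
    {f : SL(2, ℤ) ⧸ Γ → A} (hf : f + indAct ε genU f + indAct ε genU (indAct ε genU f) = 0) :
    projU ε f = f := by
  have tr : IsWellOrder (SL(2, ℤ) ⧸ Γ) WellOrderingRel := WellOrderingRel.isWellOrder
  have irr : ∀ z, ¬ WellOrderingRel (α := SL(2, ℤ) ⧸ Γ) z z := fun z => irrefl z
  have c3 := h.U_inv_cube_smul
  set c : SL(2, ℤ) ⧸ Γ → R := fun x => (ε (schreier Γ genU x) : R) with hc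
  -- the difference is killed by the norm and vanishes at two points of every free orbit
  set d := projU ε f - f with hd
  have hd0 : d + indAct ε genU d + indAct ε genU (indAct ε genU d) = 0 := by
    have h1 := h.add_indAct_projU f
    simp only [hd, map_sub]
    linear_combination (norm := abel) h1 - hf
  have rep2 : ∀ x, repU Γ x → ¬ repU Γ (genU⁻¹ • x) ∧ ¬ repU Γ (genU⁻¹ • genU⁻¹ • x) := by
    intro x hx
    refine ⟨fun h' => ?_, fun h' => ?_⟩
    · have := h'.2
      rw [c3] at this
      exact asymm hx.1 this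
    · have := h'.1
      rw [c3] at this
      exact asymm hx.2 this
  have zero1 : ∀ x, repU Γ x → d x = 0 := by
    intro x hx
    simp [hd, projU_apply, if_pos hx, if_neg (rep2 x hx).1, if_neg (rep2 x hx).2]
  have zero2 : ∀ x, repU Γ (genU⁻¹ • x) → d x = 0 := by
    intro x hx
    have h1 : ¬ repU Γ x := by
      have := (rep2 _ hx).2
      rwa [c3] at this
    simp [hd, projU_apply, if_pos hx, if_neg h1, if_neg (rep2 _ hx).1, smul_add]
  have zero_fix : ∀ x, genU⁻¹ • x = x → d x = 0 := by
    intro x hx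
    have h1 : ¬ repU Γ x := fun h' => irr x (by simpa [hx] using h'.1)
    have hfx := congrFun hf x
    simp only [Pi.add_apply, indAct_apply, Pi.zero_apply, hx, h.eps_schreier_U hx, Units.val_one,
      one_smul] at hfx
    rw [← two_nsmul, ← succ_nsmul] at hfx
    have hmem : (rep Γ x)⁻¹ * genU * rep Γ x ∈ Γ := by
      have := (schreier Γ genU x).2
      rwa [schreier_coe, hx, ← mul_assoc] at this
    have hf0 := h3 _ hmem _ hfx
    simp [hd, projU_apply, hx, if_neg h1, hf0]
  suffices ∀ x, d x = 0 by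
    rw [← sub_eq_zero]
    exact funext this
  intro x
  set y := genU⁻¹ • x with hy
  set z := genU⁻¹ • y with hz
  have hzx : genU⁻¹ • z = x := c3 x
  by_cases hfix : genU⁻¹ • x = x
  · exact zero_fix x hfix
  have hyz : y ≠ z := fun e => hfix (by
    have := congrArg (fun t => genU • t) e
    simpa [hy, hz] using this.symm)
  have hxz : x ≠ z := fun e => hyz (by
    rw [← e] at hzx
    have e' : y = x := hzx
    rw [e'] ; exact e)
  have hxy : x ≠ y := fun e => hfix e.symm
  have hnorm : d x + c x • d y + c x • (c y • d z) = 0 := by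
    have := congrFun hd0 x
    simpa [indAct_apply, hc, hy, hz] using this
  have hR : repU Γ x ∨ repU Γ y ∨ repU Γ z := by
    have e1 : repU Γ y ↔ WellOrderingRel y z ∧ WellOrderingRel y x := by
      rw [repU, ← hz, hzx]
    have e2 : repU Γ z ↔ WellOrderingRel z x ∧ WellOrderingRel z y := by
      rw [repU, hzx, ← hy]
    rw [e1, e2, repU, ← hy, ← hz]
    rcases trichotomous_of WellOrderingRel x y with a | a | a <;>
      rcases trichotomous_of WellOrderingRel y z with b | b | b <;>
      rcases trichotomous_of WellOrderingRel x z with e | e | e <;>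
      first
        | exact absurd a hxy
        | exact absurd b hyz
        | exact absurd e hxz
        | exact Or.inl ⟨a, e⟩
        | exact Or.inr (Or.inl ⟨b, a⟩)
        | exact Or.inr (Or.inr ⟨e, b⟩)
        | exact absurd (trans_of WellOrderingRel (trans_of WellOrderingRel a b) e) (irr x)
        | exact absurd (trans_of WellOrderingRel (trans_of WellOrderingRel e b) a) (irr x)
  rcases hR with hr | hr | hr
  · exact zero1 x hr
  · exact zero2 x hr
  · have hy0 : d y = 0 := zero2 y hr
    have hz0 : d z = 0 := zero1 z hr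
    simpa [hy0, hz0] using hnorm

theorem Admissible.projU_eq_self_of (h : Admissible ε) (h3 : ∀ a : A, 3 • a = 0 → a = 0)
    {f : SL(2, ℤ) ⧸ Γ → A} (hf : f + indAct ε genU f + indAct ε genU (indAct ε genU f) = 0) :
    projU ε f = f :=
  h.projU_eq_self_of_fixed (fun _ _ => h3) hf

theorem Admissible.projU_eq_self [IsAddTorsionFree A] (h : Admissible ε)
    {f : SL(2, ℤ) ⧸ Γ → A} (hf : f + indAct ε genU f + indAct ε genU (indAct ε genU f) = 0) :
    projU ε f = f :=
  h.projU_eq_self_of (fun _ ha => (smul_eq_zero.1 ha).resolve_left (by norm_num)) hf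

end Proj

section Lift

variable {ε}

/-- An affine permutation of the induced module. -/
noncomputable def affineS (h : Admissible ε) (f : SL(2, ℤ) ⧸ Γ → A) :
    Equiv.Perm (SL(2, ℤ) ⧸ Γ → A) :=
  Function.Involutive.toPerm (fun v => indAct ε S v + projS ε f) fun v => by
    simp only [map_add, h.indAct_S_S]
    rw [add_assoc, add_comm (indAct ε S (projS ε f)), h.add_indAct_projS, add_zero]

/-- An affine permutation of the induced module, of order dividing three. -/
noncomputable def affineU (h : Admissible ε) (f : SL(2, ℤ) ⧸ Γ → A) :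
    Equiv.Perm (SL(2, ℤ) ⧸ Γ → A) where
  toFun v := indAct ε genU v + projU ε f
  invFun v := indAct ε genU (indAct ε genU v + projU ε f) + projU ε f
  left_inv v := by
    simp only [map_add, h.indAct_U_U_U]
    linear_combination (norm := abel) h.add_indAct_projU f
  right_inv v := by
    simp only [map_add, h.indAct_U_U_U]
    linear_combination (norm := abel) h.add_indAct_projU f

variable (h : Admissible ε) (f : (SL(2, ℤ) ⧸ Γ → A) × (SL(2, ℤ) ⧸ Γ → A))

theorem affineS_sq : affineS h f.1 * affineS h f.1 = 1 := by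
  refine Equiv.ext fun v => ?_
  exact Function.Involutive.toPerm_involutive _ v

theorem affineU_cube : affineU h f.2 * affineU h f.2 * affineU h f.2 = 1 := by
  refine Equiv.ext fun v => ?_
  show indAct ε genU (indAct ε genU (indAct ε genU v + projU ε f.2) + projU ε f.2) + projU ε f.2 = v
  simp only [map_add, h.indAct_U_U_U]
  linear_combination (norm := abel) h.add_indAct_projU f.2

/-- The affine action attached to the values at the generators. -/
noncomputable def affineAct : SL(2, ℤ) →* Equiv.Perm (SL(2, ℤ) ⧸ Γ → A) :=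
  slLift (affineS_sq h f) (affineU_cube h f)

theorem affineAct_apply (g : SL(2, ℤ)) (v : SL(2, ℤ) ⧸ Γ → A) :
    affineAct h f g v = indAct ε g v + affineAct h f g 0 := by
  have hg : g ∈ Subgroup.closure ({S, genU} : Set SL(2, ℤ)) :=
    closure_S_genU.symm ▸ Subgroup.mem_top g
  induction hg using Subgroup.closure_induction generalizing v with
  | mem x hx =>
    rcases hx with rfl | rfl
    · simp [affineAct, affineS]
    · simp [affineAct, affineU]
  | one => simp [indAct_one]
  | mul x y _ _ hx hy =>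
    rw [map_mul, Equiv.Perm.mul_apply, Equiv.Perm.mul_apply, hx, hy, map_add, indAct_mul,
      hx (affineAct h f y 0)]
    abel
  | inv x _ hx =>
    rw [map_inv, Equiv.Perm.inv_eq_iff_eq, hx, map_add, ← indAct_mul, mul_inv_cancel, indAct_one,
      add_assoc, ← hx, ← Equiv.Perm.mul_apply, mul_inv_cancel]
    simp

/-- The cocycle with prescribed (projected) values at the generators. -/
noncomputable def liftCocycle (g : SL(2, ℤ)) : SL(2, ℤ) ⧸ Γ → A := affineAct h f g 0

theorem isIndCocycle_liftCocycle : IsIndCocycle ε (liftCocycle h f) := fun g g' => by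
  unfold liftCocycle
  rw [map_mul, Equiv.Perm.mul_apply, affineAct_apply, add_comm]

theorem liftCocycle_S : liftCocycle h f S = projS ε f.1 := by
  simp [liftCocycle, affineAct, affineS]

theorem liftCocycle_U : liftCocycle h f genU = projU ε f.2 := by
  simp [liftCocycle, affineAct, affineU]

end Lift

section Retract

variable {ε}

/-- Values of the Shapiro cocycle at the two generators. -/
noncomputable def genValues :
    Der ε A →ₗ[R] (SL(2, ℤ) ⧸ Γ → A) × (SL(2, ℤ) ⧸ Γ → A) where
  toFun c := (shapiroSec ε c S, shapiroSec ε c genU)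
  map_add' _ _ := rfl
  map_smul' _ _ := rfl

theorem liftCocycle_eq_of (h : Admissible ε) {f : (SL(2, ℤ) ⧸ Γ → A) × (SL(2, ℤ) ⧸ Γ → A)}
    {C : SL(2, ℤ) → SL(2, ℤ) ⧸ Γ → A} (hC : IsIndCocycle ε C) (h1 : C S = projS ε f.1)
    (h2 : C genU = projU ε f.2) : liftCocycle h f = C := by
  refine (isIndCocycle_liftCocycle h f).ext_of_closure ε hC closure_S_genU ?_
  rintro g (rfl | rfl)
  · rw [liftCocycle_S, h1]
  · rw [liftCocycle_U, h2]

theorem isIndCocycle_add {C C' : SL(2, ℤ) → SL(2, ℤ) ⧸ Γ → A} (hC : IsIndCocycle ε C)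
    (hC' : IsIndCocycle ε C') : IsIndCocycle ε (C + C') := fun g g' => by
  simp only [Pi.add_apply, hC g g', hC' g g', map_add]
  abel

theorem isIndCocycle_smul (r : R) {C : SL(2, ℤ) → SL(2, ℤ) ⧸ Γ → A} (hC : IsIndCocycle ε C) :
    IsIndCocycle ε (r • C) := fun g g' => by
  simp only [Pi.smul_apply, hC g g', map_smul, smul_add]

/-- The retraction from the values at the generators to derivations. -/
noncomputable def genRetract (h : Admissible ε) :
    (SL(2, ℤ) ⧸ Γ → A) × (SL(2, ℤ) ⧸ Γ → A) →ₗ[R] Der ε A where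
  toFun f := shapiroEval ε (isIndCocycle_liftCocycle h f)
  map_add' f f' := by
    have e : liftCocycle h (f + f') = liftCocycle h f + liftCocycle h f' :=
      liftCocycle_eq_of h (isIndCocycle_add (isIndCocycle_liftCocycle h f)
        (isIndCocycle_liftCocycle h f')) (by simp [liftCocycle_S]) (by simp [liftCocycle_U])
    exact Subtype.ext (funext fun γ => congrFun (congrFun e (γ : SL(2, ℤ))) _)
  map_smul' r f := by
    have e : liftCocycle h (r • f) = r • liftCocycle h f :=
      liftCocycle_eq_of h (isIndCocycle_smul r (isIndCocycle_liftCocycle h f))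
        (by simp [liftCocycle_S]) (by simp [liftCocycle_U])
    exact Subtype.ext (funext fun γ => congrFun (congrFun e (γ : SL(2, ℤ))) _)

theorem genRetract_genValues_of_fixed (h : Admissible ε) (h2 : ∀ a : A, 2 • a = 0 → a = 0)
    (h3 : ∀ g : SL(2, ℤ), g⁻¹ * genU * g ∈ Γ → ∀ a : A, 3 • a = 0 → a = 0) (c : Der ε A) :
    genRetract h (genValues c) = c := by
  have hC := isIndCocycle_shapiroSec ε c
  have hm1 : shapiroSec ε c (-1) = 0 := by
    funext x
    have e : schreier Γ (-1) x = ⟨-1, h.neg_one_mem⟩ :=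
      Subtype.ext (schreier_central neg_one_commute h.neg_one_mem x)
    show (c : Γ → A) _ = 0
    rw [e]
    have h0 := Der.map_pow_of_trivial c h.eps_neg_one 2
    rw [show (⟨-1, h.neg_one_mem⟩ : Γ) ^ 2 = 1 from Subtype.ext (by simp), Der.map_one c] at h0
    exact h2 _ h0.symm
  have hS : projS ε (genValues c).1 = shapiroSec ε c S := by
    refine h.projS_eq_self_of h2 ?_
    have := hC S S
    rw [S_sq, hm1] at this
    exact this.symm
  have hU : projU ε (genValues c).2 = shapiroSec ε c genU := by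
    refine h.projU_eq_self_of_fixed h3 ?_
    have := hC (genU * genU) genU
    rw [genU_cube, hm1, hC genU genU, indAct_mul] at this
    exact this.symm
  have e := liftCocycle_eq_of h (f := genValues c) hC hS.symm hU.symm
  conv_rhs => rw [← shapiroEval_sec ε c]
  exact Subtype.ext (funext fun γ => congrFun (congrFun e (γ : SL(2, ℤ))) _)

theorem genRetract_genValues_of (h : Admissible ε) (h2 : ∀ a : A, 2 • a = 0 → a = 0)
    (h3 : ∀ a : A, 3 • a = 0 → a = 0) (c : Der ε A) :
    genRetract h (genValues c) = c :=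
  genRetract_genValues_of_fixed h h2 (fun _ _ => h3) c

theorem genRetract_genValues [IsAddTorsionFree A] (h : Admissible ε) (c : Der ε A) :
    genRetract h (genValues c) = c :=
  genRetract_genValues_of h (fun _ ha => (smul_eq_zero.1 ha).resolve_left two_ne_zero)
    (fun _ ha => (smul_eq_zero.1 ha).resolve_left (by norm_num)) c

theorem genRetract_natural (h : Admissible ε) (π : A →ₗ[R] B)
    (f : (SL(2, ℤ) ⧸ Γ → A) × (SL(2, ℤ) ⧸ Γ → A)) :
    Der.map π (genRetract h f) = genRetract h (fun x => π (f.1 x), fun x => π (f.2 x)) := by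
  have hC : IsIndCocycle ε (fun g x => π (liftCocycle h f g x)) := fun g g' => by
    funext x
    simp [isIndCocycle_liftCocycle h f g g', indAct_apply]
  have hS : (fun x => π (projS ε f.1 x)) = projS ε (fun x => π (f.1 x)) := by
    funext x
    classical
    simp only [projS_apply, map_sub, map_smul, apply_ite π, map_zero]
  have hU : (fun x => π (projU ε f.2 x)) = projU ε (fun x => π (f.2 x)) := by
    funext x
    classical
    simp only [projU_apply, map_sub, map_add, map_smul, apply_ite π, map_zero]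
  have e : liftCocycle h (fun x => π (f.1 x), fun x => π (f.2 x)) =
      fun g x => π (liftCocycle h f g x) :=
    liftCocycle_eq_of h hC (by simp only [liftCocycle_S]; exact hS)
      (by simp only [liftCocycle_U]; exact hU)
  exact Subtype.ext (funext fun γ => (congrFun (congrFun e (γ : SL(2, ℤ))) _).symm)

theorem Admissible.projective_der [Γ.FiniteIndex] [IsAddTorsionFree R]
    (h : Admissible ε) : Module.Projective R (Der ε R) :=
  have : Module.Projective R (SL(2, ℤ) ⧸ Γ → R) :=
    Module.Projective.of_equiv (Finsupp.linearEquivFunOnFinite R R (SL(2, ℤ) ⧸ Γ))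
  Module.Projective.of_split genValues (genRetract h)
    (LinearMap.ext fun c => genRetract_genValues h c)

theorem Admissible.finite_der [Γ.FiniteIndex] [IsAddTorsionFree A] [Module.Finite R A]
    (h : Admissible ε) : Module.Finite R (Der ε A) :=
  Module.Finite.of_surjective (genRetract h) fun c => ⟨_, genRetract_genValues h c⟩

theorem Admissible.der_map_surjective [IsAddTorsionFree B] (h : Admissible ε) {π : A →ₗ[R] B}
    (hπ : Function.Surjective π) : Function.Surjective (Der.map (ε := ε) π) := by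
  intro d
  refine ⟨genRetract h (fun x => (hπ ((genValues d).1 x)).choose,
    fun x => (hπ ((genValues d).2 x)).choose), ?_⟩
  rw [genRetract_natural]
  simp only [(hπ _).choose_spec]
  exact genRetract_genValues h d

/-- The kernel of `Der R → Der (R/I)` is `I • Der R`. -/
theorem Admissible.ker_der_map [Γ.FiniteIndex] [IsAddTorsionFree R] (h : Admissible ε)
    (π : R →ₗ[R] B) :
    LinearMap.ker (Der.map (ε := ε) π) = (LinearMap.ker π : Ideal R) • (⊤ : Submodule R (Der ε R)) := by
  classical
  refine le_antisymm ?_ (Submodule.smul_le.2 fun r hr c _ => ?_)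
  · intro c hc
    have hzero : ∀ γ, π ((c : Γ → R) γ) = 0 := fun γ =>
      congrFun (congrArg Subtype.val (LinearMap.mem_ker.1 hc)) γ
    have : Fintype (SL(2, ℤ) ⧸ Γ) := Fintype.ofFinite _
    rw [← genRetract_genValues h c]
    have hdec : genValues c =
        ∑ x, ((genValues c).1 x • (Pi.single x (1 : R), (0 : SL(2, ℤ) ⧸ Γ → R)) +
          (genValues c).2 x • ((0 : SL(2, ℤ) ⧸ Γ → R), Pi.single x (1 : R))) := by
      refine Prod.ext (funext fun y => ?_) (funext fun y => ?_) <;>
        simp [Prod.fst_sum, Prod.snd_sum, Finset.sum_apply, Pi.single_apply]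
    rw [hdec, map_sum]
    refine Submodule.sum_mem _ fun x _ => ?_
    rw [map_add, map_smul, map_smul]
    exact add_mem (Submodule.smul_mem_smul (LinearMap.mem_ker.2 (hzero _)) Submodule.mem_top)
      (Submodule.smul_mem_smul (LinearMap.mem_ker.2 (hzero _)) Submodule.mem_top)
  · rw [LinearMap.mem_ker]
    ext γ
    show π (r • (c : Γ → R) γ) = 0
    rw [smul_eq_mul, mul_comm, ← smul_eq_mul, map_smul, LinearMap.mem_ker.1 hr, smul_zero]

end Retract

end Fermat.Agent.TW.Mod
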