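/-
`T_p` and `U_p` on derivations of `Γ₀(M)` twisted by a character of `d mod M`
(owner: helper87).
-/
import Fermat.Agent.TW.Mod.CosetSystem
import Fermat.Agent.TW.Mod.Free
import Fermat.Agent.HK.HeckeHom

set_option autoImplicit false

namespace Fermat.Agent.TW.Mod

open CongruenceSubgroup Fermat.Agent.HK
open scoped MatrixGroups

variable {M : ℕ} {R : Type*} [CommRing R] (χ : (ZMod M)ˣ →* Rˣ)

/-- The character `γ ↦ χ (d mod M)` of `Γ₀(M)`. -/
def epsOf : Gamma0 M →* Rˣ := χ.comp (Gamma0Map M).toHomUnits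

theorem epsOf_apply (g : Gamma0 M) : epsOf χ g = χ ((Gamma0Map M).toHomUnits g) := rfl

theorem coe_toHomUnits_Gamma0Map (g : Gamma0 M) :
    (((Gamma0Map M).toHomUnits g : (ZMod M)ˣ) : ZMod M) = ((matOf g 1 1 : ℤ) : ZMod M) := rfl

theorem matOf_one_zero (g : Gamma0 M) : ((matOf g 1 0 : ℤ) : ZMod M) = 0 := Gamma0_mem.mp g.2

variable {p : ℕ} [hp : Fact p.Prime]

open scoped Classical in
/-- The value `χ(p)`, for `p ∤ M`. -/
noncomputable def chiPrime (p : ℕ) : Rˣ :=
  if h : p.Coprime M then χ (ZMod.unitOfCoprime p h) else 1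

theorem chiPrime_mul_eps (g g' : Gamma0 M) (hpM : ¬ p ∣ M)
    (h : ((matOf g' 1 1 : ℤ) : ZMod M) = (p : ZMod M) * ((matOf g 1 1 : ℤ) : ZMod M)) :
    (epsOf χ g' : R) = (chiPrime χ p : R) * (epsOf χ g : R) := by
  have hc : p.Coprime M := hp.out.coprime_iff_not_dvd.2 hpM
  rw [chiPrime, dif_pos hc, epsOf_apply, epsOf_apply, ← Units.val_mul, ← map_mul]
  congr 2
  exact Units.ext (by simpa [coe_toHomUnits_Gamma0Map, -MonoidHom.coe_toHomUnits] using h)

/-- The weight of a representative: `χ(p)` on `diag(p, 1)`, `1` otherwise. -/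
noncomputable def heckeWeight (i : HeckeIdx M p) : R :=
  match i.1 with
  | some _ => 1
  | none => (chiPrime χ p : R)

@[simp] theorem heckeWeight_upper (j : Fin p) : heckeWeight χ (HeckeIdx.upper M j) = 1 := rfl

@[simp] theorem heckeWeight_diag (h : ¬ p ∣ M) :
    heckeWeight χ (HeckeIdx.diag h) = (chiPrime χ p : R) := rfl

theorem heckeWeight_rel (g : Gamma0 M) (i : HeckeIdx M p) :
    heckeWeight χ i * (epsOf χ (heckeCoc g i) : R) =
      (epsOf χ g : R) * heckeWeight χ (heckeNext g i) := by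
  have hrel : matOf (heckeCoc g i) * heckeMat (heckeNext g i) = heckeMat i * matOf g :=
    heckeCoc_mul_heckeMat g i
  have hg := matOf_one_zero g
  generalize heckeNext g i = i' at hrel
  revert hrel
  refine HeckeIdx.cases_upper_diag (fun j => ?_) (fun hM => ?_) i <;>
    refine HeckeIdx.cases_upper_diag (fun j' => ?_) (fun hM' => ?_) i' <;> intro hrel <;>
    have e10 := congrFun (congrFun hrel 1) 0 <;> have e11 := congrFun (congrFun hrel 1) 1 <;>
    simp [Matrix.mul_apply, Fin.sum_univ_two] at e10 e11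
  · have hd : matOf (heckeCoc g (HeckeIdx.upper M j)) 1 1 = matOf g 1 1 - j' * matOf g 1 0 :=
      mul_right_cancel₀ (b := (p : ℤ)) (by exact_mod_cast hp.out.ne_zero)
        (by rw [e10] at e11; linear_combination e11)
    simp only [heckeWeight_upper, one_mul, mul_one, epsOf_apply]
    congr 2
    refine Units.ext ?_
    rw [coe_toHomUnits_Gamma0Map, coe_toHomUnits_Gamma0Map, hd]
    push_cast
    rw [hg, mul_zero, sub_zero]
  · simp only [heckeWeight_upper, heckeWeight_diag, one_mul]
    rw [mul_comm]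
    refine chiPrime_mul_eps χ g _ hM' ?_
    rw [e11]
    push_cast
    ring
  · simp only [heckeWeight_upper, heckeWeight_diag, mul_one]
    have hc0 : ((matOf (heckeCoc g (HeckeIdx.diag hM)) 1 0 : ℤ) : ZMod M) = 0 := matOf_one_zero _
    symm
    refine (chiPrime_mul_eps χ _ g hM ?_).trans rfl
    rw [← e11]
    push_cast
    rw [hc0, zero_mul, zero_add, mul_comm]
  · simp only [heckeWeight_diag]
    rw [mul_comm (epsOf χ g : R)]
    congr 1
    rw [epsOf_apply, epsOf_apply]
    congr 2
    exact Units.ext (by rw [coe_toHomUnits_Gamma0Map, coe_toHomUnits_Gamma0Map, e11])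

/-- The coset system of `T_p` (`U_p` for `p ∣ M`), twisted by `χ`. -/
noncomputable def heckeSystem (p : ℕ) [Fact p.Prime] :
    CosetSystem (epsOf χ) (HeckeIdx M p) where
  mat := heckeMat
  weight := heckeWeight χ
  next := heckePerm
  coc := heckeCoc
  next_mul g h i := heckeNext_mul g h i
  coc_mul g h i := heckeCoc_mul g h i
  rel g i := heckeCoc_mul_heckeMat g i
  weight_rel g i := heckeWeight_rel χ g i

variable (A : Type*) [AddCommGroup A] [Module R A]

/-- Twisted `T_p` on derivations. -/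
noncomputable def derT (p : ℕ) [Fact p.Prime] : Der (epsOf χ) A →ₗ[R] Der (epsOf χ) A :=
  (heckeSystem χ p).op

/-- Twisted `T_p` on `H¹`. -/
noncomputable def h1T (p : ℕ) [Fact p.Prime] : H1 (epsOf χ) A →ₗ[R] H1 (epsOf χ) A :=
  (heckeSystem χ p).opH1

variable {A}

@[simp] theorem h1T_mk (c : Der (epsOf χ) A) :
    h1T χ A p (Submodule.Quotient.mk c) = Submodule.Quotient.mk (derT χ A p c) := rfl

theorem derT_cobound (a : A) :
    derT χ A p (cobound (epsOf χ) A a) = cobound (epsOf χ) A ((heckeSystem χ p).degree • a) :=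
  (heckeSystem χ p).op_cobound a

theorem h1T_natural {B : Type*} [AddCommGroup B] [Module R B] (f : A →ₗ[R] B)
    (x : H1 (epsOf χ) A) : H1.map f (h1T χ A p x) = h1T χ B p (H1.map f x) :=
  (heckeSystem χ p).opH1_natural f x

theorem heckeSystem_degree_of_not_dvd (hpM : ¬ p ∣ M) :
    (heckeSystem χ p).degree = (p : R) + (chiPrime χ p : R) := by
  classical
  let e : HeckeIdx M p ≃ Option (Fin p) :=
    Equiv.subtypeUnivEquiv fun _ h => absurd h hpM
  show ∑ i, heckeWeight χ i = _
  rw [← Equiv.sum_comp e.symm, Fintype.sum_option, add_comm]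
  congr 1
  show ∑ j : Fin p, heckeWeight χ (HeckeIdx.upper M j) = _
  simp

/-- Where the weights and the character act trivially, twisted `T_p` is `HK.heckeHom`. -/
theorem homEquiv_derT (h : ∀ (g : Gamma0 M) (a : A), (epsOf χ g : R) • a = a)
    (hw : ∀ a : A, (chiPrime χ p : R) • a = a) (c : Der (epsOf χ) A) :
    Der.homEquiv h (derT χ A p c) = heckeHom M p R A (Der.homEquiv h c) := by
  refine AddMonoidHom.ext fun g => ?_
  obtain ⟨g, rfl⟩ := Additive.ofMul.surjective g
  rw [heckeHom_apply]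
  show ∑ i : HeckeIdx M p, heckeWeight χ i • (c : Gamma0 M → A) (heckeCoc g i) = _
  refine Finset.sum_congr rfl fun i _ => ?_
  induction i using HeckeIdx.cases_upper_diag with
  | h1 j => rw [heckeWeight_upper, one_smul]; rfl
  | h2 hM => rw [heckeWeight_diag, hw]; rfl

theorem homEquiv_h1T (h : ∀ (g : Gamma0 M) (a : A), (epsOf χ g : R) • a = a)
    (hw : ∀ a : A, (chiPrime χ p : R) • a = a) (x : H1 (epsOf χ) A) :
    H1.homEquiv h (h1T χ A p x) = heckeHom M p R A (H1.homEquiv h x) := by
  induction x using Submodule.Quotient.induction_on with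
  | _ c => exact homEquiv_derT χ h hw c

end Fermat.Agent.TW.Mod
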