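/-
Eigen vectors in the reduction of a localised part (owner: helper87).
-/
import Fermat.Agent.TW.Mod.LocPart
import Mathlib.RingTheory.Ideal.GoingUp

set_option autoImplicit false

noncomputable section

namespace Fermat.Agent.TW.Mod

open IsLocalRing

variable {𝒪 : Type} [CommRing 𝒪] [IsLocalRing 𝒪] [IsNoetherianRing 𝒪]
  [IsAdicComplete (maximalIdeal 𝒪) 𝒪]
variable {R : Type} [CommRing R] [Algebra 𝒪 R]
variable {H : Type} [AddCommGroup H] [Module R H] [Module 𝒪 H] [IsScalarTower 𝒪 R H]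
  [Module.Finite 𝒪 (Module.End R H)]
variable {ι : Type*} {F : ι → Module.End R H} {lam : ι → ResidueField 𝒪}

/-- If a stable set inside the localised part survives reduction, the reduction contains an eigen
vector. -/
theorem Occurs.exists_eigen (hF : ∀ i j, Commute (F i) (F j)) (h : Occurs 𝒪 F lam)
    {W : Type*} [AddCommGroup W] (g : H →+ W)
    (hgm : ∀ (r : 𝒪), r ∈ maximalIdeal 𝒪 → ∀ x, g (r • x) = 0)
    (K : Submodule 𝒪 H) (hK : ∀ i, ∀ x ∈ K, F i x ∈ K) (hKe : ∀ x ∈ K, h.idem hF x = x)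
    {x₀ : H} (hx₀ : x₀ ∈ K) (hg : g x₀ ≠ 0) :
    ∃ x ∈ K, g x ≠ 0 ∧
      ∀ i, ∀ c : 𝒪, residue 𝒪 c = lam i → g (F i x) = g (c • x) := by
  classical
  let _ : CommRing (famAlg 𝒪 F) :=
    { (inferInstance : Ring (famAlg 𝒪 F)) with
      mul_comm := fun a b => Subtype.ext (famAlg_commute hF a.2 b.2) }
  have hfin : Module.Finite 𝒪 (famAlg 𝒪 F) :=
    Module.Finite.of_injective (famAlg 𝒪 F).val.toLinearMap Subtype.val_injective
  have : IsNoetherianRing (famAlg 𝒪 F) :=
    isNoetherian_of_tower 𝒪 (inferInstance : IsNoetherian 𝒪 (famAlg 𝒪 F))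
  have hstab : ∀ a ∈ famAlg 𝒪 F, ∀ x ∈ K, a x ∈ K := by
    intro a ha
    induction ha using Algebra.adjoin_induction with
    | mem y hy => obtain ⟨i, rfl⟩ := hy; exact hK i
    | algebraMap c => intro x hx; exact K.smul_mem c hx
    | add y z _ _ hy hz => intro x hx; exact K.add_mem (hy x hx) (hz x hx)
    | mul y z _ _ hy hz => intro x hx; exact hy _ (hz x hx)
  let I : Ideal (famAlg 𝒪 F) :=
    { carrier := {a | ∀ b : famAlg 𝒪 F, g ((b * a : famAlg 𝒪 F).1 x₀) = 0}
      zero_mem' := fun b => by simp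
      add_mem' := fun {a a'} ha ha' b => by
        rw [mul_add, AddMemClass.coe_add, LinearMap.add_apply, map_add, ha b, ha' b, add_zero]
      smul_mem' := fun r a ha b => by rw [smul_eq_mul, ← mul_assoc]; exact ha _ }
  set J := RingHom.ker h.char.toRingHom with hJ
  set e : famAlg 𝒪 F := ⟨h.idem hF, h.idem_mem hF⟩ with he
  have hJrad : J ≤ I.radical := by
    rw [Ideal.radical_eq_sInf]
    refine le_sInf fun P ⟨hIP, hP⟩ => ?_
    have hmP : maximalIdeal 𝒪 ≤ P.comap (algebraMap 𝒪 (famAlg 𝒪 F)) := fun r hr => hIP fun b => by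
      rw [← Algebra.commutes, ← Algebra.smul_def]
      exact hgm r hr _
    have hP' : P.IsMaximal := by
      have : Algebra.IsIntegral 𝒪 (famAlg 𝒪 F) := inferInstance
      refine Ideal.isMaximal_of_isIntegral_of_isMaximal_comap (R := 𝒪) P ?_
      rw [← (IsLocalRing.maximalIdeal.isMaximal 𝒪).eq_of_le
        (Ideal.IsPrime.ne_top (Ideal.comap_isPrime _ P)) hmP]
      exact IsLocalRing.maximalIdeal.isMaximal 𝒪
    have he1 : 1 - e ∈ P := hIP fun b => by
      rw [MulMemClass.coe_mul, Module.End.mul_apply]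
      simp [he, hKe x₀ hx₀]
    intro a ha
    by_contra haP
    have hPJ : ¬ P ≤ J := fun hle => haP ((hP'.eq_of_le (RingHom.ker_ne_top _) hle).symm ▸ ha)
    obtain ⟨y, hyP, hyJ⟩ := SetLike.not_le_iff_exists.1 hPJ
    obtain ⟨v, hvm, hv⟩ := h.exists_inv hF y.2 (by simpa using fun h0 => hyJ (RingHom.mem_ker.2 h0))
    have heP : e ∈ P := by
      have : (⟨v, hvm⟩ : famAlg 𝒪 F) * y * e = e := Subtype.ext hv
      rw [← this]
      exact P.mul_mem_right _ (P.mul_mem_left _ hyP)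
    exact hP.ne_top (Ideal.eq_top_of_isUnit_mem _ (by simpa using P.add_mem he1 heP) isUnit_one)
  have hex := Ideal.exists_pow_le_of_le_radical_of_fg hJrad (IsNoetherian.noetherian J)
  obtain ⟨m, hm⟩ : ∃ m, Nat.find hex = m + 1 := by
    refine Nat.exists_eq_succ_of_ne_zero fun h0 => hg ?_
    have := Nat.find_spec hex
    rw [h0, pow_zero, Ideal.one_eq_top] at this
    simpa using this (Submodule.mem_top (x := (1 : famAlg 𝒪 F))) 1
  obtain ⟨a, haJ, haI⟩ := SetLike.not_le_iff_exists.1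
    (Nat.find_min hex (show m < Nat.find hex by rw [hm]; exact Nat.lt_succ_self m))
  obtain ⟨b, hb⟩ : ∃ b : famAlg 𝒪 F, g ((b * a : famAlg 𝒪 F).1 x₀) ≠ 0 := by
    by_contra hcon
    push Not at hcon
    exact haI hcon
  refine ⟨(b * a : famAlg 𝒪 F).1 x₀, hstab _ (b * a : famAlg 𝒪 F).2 x₀ hx₀, hb, fun i c hc => ?_⟩
  have hj : famGen 𝒪 F i - algebraMap 𝒪 _ c ∈ J := by
    rw [hJ, RingHom.mem_ker]
    show h.char _ = 0
    rw [map_sub, h.char_gen, AlgHom.commutes, ← hc]
    exact sub_self _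
  have hz : (famGen 𝒪 F i - algebraMap 𝒪 _ c) * (b * a) ∈ I := by
    have := Nat.find_spec hex
    rw [hm, pow_succ'] at this
    exact this (Ideal.mul_mem_mul hj (Ideal.mul_mem_left _ b haJ))
  have h0 := hz 1
  rw [one_mul, MulMemClass.coe_mul, Module.End.mul_apply, AddSubgroupClass.coe_sub,
    LinearMap.sub_apply, map_sub, sub_eq_zero] at h0
  exact h0

end Fermat.Agent.TW.Mod
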