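/-
The twisted Hecke operators commute on `H¹(Γ₀(M))` (owner: helper87).
-/
import Fermat.Agent.TW.Mod.Hecke

set_option autoImplicit false

namespace Fermat.Agent.TW.Mod

open CongruenceSubgroup Fermat.Agent.HK
open scoped MatrixGroups

section Triangular

variable {M : ℕ} {R : Type*} [CommRing R] (χ : (ZMod M)ˣ →* Rˣ)

/-- Upper unipotent element of `Γ₀(M)`. -/
def upperUni (M : ℕ) (t : ℤ) : Gamma0 M :=
  ⟨⟨!![1, t; 0, 1], by simp [Matrix.det_fin_two_of]⟩, Gamma0_mem.mpr (by simp)⟩

@[simp] theorem matOf_upperUni (t : ℤ) : matOf (upperUni M t) = !![1, t; 0, 1] := rfl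

theorem epsOf_upperUni (t : ℤ) : epsOf χ (upperUni M t) = 1 := by
  rw [epsOf_apply, show (Gamma0Map M).toHomUnits (upperUni M t) = 1 from
    Units.ext (by rw [coe_toHomUnits_Gamma0Map]; simp), map_one]

variable (n : ℕ)

/-- Invariant of the left unipotent class of an upper triangular matrix of determinant `n`. -/
def kappa (X : Matrix (Fin 2) (Fin 2) ℤ) : ℤ × ZMod n :=
  (X 0 0, ((X 0 0 * X 0 1 : ℤ) : ZMod n))

variable {n}

theorem exists_upperUni_of_kappa_eq {X Y : Matrix (Fin 2) (Fin 2) ℤ} (hX : X 1 0 = 0)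
    (hY : Y 1 0 = 0) (ha : 0 < X 0 0) (dX : X.det = (n : ℤ)) (dY : Y.det = (n : ℤ))
    (h : kappa n X = kappa n Y) : ∃ t : ℤ, Y = matOf (upperUni M t) * X := by
  simp only [kappa, Prod.mk.injEq] at h
  obtain ⟨ha', hb⟩ := h
  rw [Matrix.det_fin_two, hX, mul_zero, sub_zero] at dX
  rw [Matrix.det_fin_two, hY, mul_zero, sub_zero, ← ha'] at dY
  have hd : Y 1 1 = X 1 1 := mul_left_cancel₀ ha.ne' (dY.trans dX.symm)
  obtain ⟨t, ht⟩ := (ZMod.intCast_eq_intCast_iff_dvd_sub _ _ _).1 hb
  refine ⟨t, ?_⟩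
  have hb' : Y 0 1 = X 0 1 + t * X 1 1 := mul_left_cancel₀ ha.ne' (by
    rw [← ha', ← dX] at ht
    linear_combination ht)
  ext r c
  fin_cases r <;> fin_cases c <;>
    simp [Matrix.mul_apply, Fin.sum_univ_two, hX, hY, hd, ← ha', hb']

/-- Upper triangular matrices of positive diagonal in the same left `Γ₀(M)` coset have the same
invariant. -/
theorem kappa_eq_of_coset {X Y : Matrix (Fin 2) (Fin 2) ℤ} {a b : Gamma0 M} (hX : X 1 0 = 0)
    (hY : Y 1 0 = 0) (haX : 0 < X 0 0) (haY : 0 < Y 0 0) (dX : X.det = (n : ℤ))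
    (h : matOf a * X = matOf b * Y) : kappa n X = kappa n Y := by
  set k := b⁻¹ * a with hk
  have e : matOf k * X = Y := by
    rw [hk, matOf_mul, mul_assoc, h, ← mul_assoc, matOf_inv_mul, one_mul]
  have e00 := congrFun (congrFun e 0) 0
  have e01 := congrFun (congrFun e 0) 1
  have e10 := congrFun (congrFun e 1) 0
  simp only [Matrix.mul_apply, Fin.sum_univ_two, hX, hY, mul_zero, add_zero] at e00 e01 e10
  have hk10 : matOf k 1 0 = 0 := (mul_eq_zero.1 e10).resolve_right haX.ne'
  have hdet : (matOf k).det = 1 := (k : SL(2, ℤ)).det_coe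
  rw [Matrix.det_fin_two, hk10, mul_zero, sub_zero] at hdet
  have hk00 : matOf k 0 0 = 1 := by
    rcases Int.mul_eq_one_iff_eq_one_or_neg_one.1 hdet with ⟨h1, -⟩ | ⟨h1, -⟩
    · exact h1
    · rw [h1] at e00; omega
  rw [hk00, one_mul] at e00 e01
  rw [Matrix.det_fin_two, hX, mul_zero, sub_zero] at dX
  simp only [kappa, ← e00, ← e01, Prod.mk.injEq, true_and]
  rw [ZMod.intCast_eq_intCast_iff_dvd_sub]
  exact ⟨matOf k 0 1, by rw [← dX]; ring⟩

end Triangular

section Product

variable {M p r : ℕ} [hp : Fact p.Prime] [hr : Fact r.Prime]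

/-- The product `β_j α_i` of representatives. -/
def prodMat (x : HeckeIdx M r × HeckeIdx M p) : Matrix (Fin 2) (Fin 2) ℤ :=
  heckeMat x.1 * heckeMat x.2

omit hp hr in
theorem prodMat_one_zero (x : HeckeIdx M r × HeckeIdx M p) : prodMat x 1 0 = 0 := by
  simp [prodMat, Matrix.mul_apply, Fin.sum_univ_two, heckeMat_one_zero]

omit hp hr in
theorem det_prodMat (x : HeckeIdx M r × HeckeIdx M p) : (prodMat x).det = ((r * p : ℕ) : ℤ) := by
  simp [prodMat, Matrix.det_mul, det_heckeMat]

omit hp hr in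
theorem heckeMat_zero_zero (i : HeckeIdx M p) :
    heckeMat i 0 0 = if i.1.isSome then 1 else (p : ℤ) := by
  induction i using HeckeIdx.cases_upper_diag with
  | h1 j => simp [HeckeIdx.upper, heckeMat]
  | h2 h => simp [HeckeIdx.diag, heckeMat]

omit hp hr in
theorem prodMat_zero_zero (x : HeckeIdx M r × HeckeIdx M p) :
    prodMat x 0 0 = heckeMat x.1 0 0 * heckeMat x.2 0 0 := by
  simp [prodMat, Matrix.mul_apply, Fin.sum_univ_two, heckeMat_one_zero]

theorem prodMat_zero_zero_pos (x : HeckeIdx M r × HeckeIdx M p) : 0 < prodMat x 0 0 := by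
  have h1 : (0 : ℤ) < p := by exact_mod_cast hp.out.pos
  have h2 : (0 : ℤ) < r := by exact_mod_cast hr.out.pos
  rw [prodMat_zero_zero, heckeMat_zero_zero, heckeMat_zero_zero]
  split_ifs <;> positivity

variable (hne : p ≠ r)
include hne

theorem isSome_eq_of_zero_zero_eq (x y : HeckeIdx M r × HeckeIdx M p)
    (h : prodMat x 0 0 = prodMat y 0 0) :
    x.1.1.isSome = y.1.1.isSome ∧ x.2.1.isSome = y.2.1.isSome := by
  have h1 : (1 : ℤ) < p := by exact_mod_cast hp.out.one_lt
  have h2 : (1 : ℤ) < r := by exact_mod_cast hr.out.one_lt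
  have h3 : (p : ℤ) ≠ r := by exact_mod_cast hne
  rw [prodMat_zero_zero, prodMat_zero_zero, heckeMat_zero_zero, heckeMat_zero_zero,
    heckeMat_zero_zero, heckeMat_zero_zero] at h
  revert h
  cases x.1.1.isSome <;> cases x.2.1.isSome <;> cases y.1.1.isSome <;> cases y.2.1.isSome <;>
    simp only [Bool.false_eq_true, if_false, if_true, and_true, true_and, and_self, one_mul,
      mul_one, reduceCtorEq, imp_false, false_and, and_false] <;>
    intro h <;> first | trivial | nlinarith | omega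

theorem prodMat_kappa_injective {x y : HeckeIdx M r × HeckeIdx M p}
    (h : kappa (r * p) (prodMat x) = kappa (r * p) (prodMat y)) : x = y := by
  have hp' : Prime (p : ℤ) := Nat.prime_iff_prime_int.mp hp.out
  have hr' : Prime (r : ℤ) := Nat.prime_iff_prime_int.mp hr.out
  have hpr : ¬ (p : ℤ) ∣ r := fun hd =>
    hne ((Nat.prime_dvd_prime_iff_eq hp.out hr.out).1 (Int.natCast_dvd_natCast.1 hd))
  obtain ⟨hs1, hs2⟩ := isSome_eq_of_zero_zero_eq hne x y (congrArg Prod.fst h)
  have hb := (ZMod.intCast_eq_intCast_iff_dvd_sub _ _ _).1 (congrArg Prod.snd h)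
  push_cast at hb
  obtain ⟨x1, x2⟩ := x
  obtain ⟨y1, y2⟩ := y
  revert hb hs1 hs2
  refine HeckeIdx.cases_upper_diag (fun j => ?_) (fun hM => ?_) x1 <;>
    refine HeckeIdx.cases_upper_diag (fun j' => ?_) (fun hM' => ?_) y1 <;>
    refine HeckeIdx.cases_upper_diag (fun i => ?_) (fun hN => ?_) x2 <;>
    refine HeckeIdx.cases_upper_diag (fun i' => ?_) (fun hN' => ?_) y2 <;>
    intro hs1 hs2 hb <;>
    first
      | (simp [HeckeIdx.upper, HeckeIdx.diag] at hs1; done)
      | (simp [HeckeIdx.upper, HeckeIdx.diag] at hs2; done)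
      | skip <;>
    simp [prodMat, Matrix.mul_apply, Fin.sum_univ_two] at hb
  · have hi : (i : ℤ) = i' := by
      have h' : (p : ℤ) ∣ (i' : ℤ) - i := by
        have := (dvd_mul_left (p : ℤ) r).trans hb
        have e : ((i' : ℤ) + (j' : ℤ) * p) - ((i : ℤ) + (j : ℤ) * p) =
            ((i' : ℤ) - i) + ((j' : ℤ) - j) * p := by ring
        rw [e] at this
        exact (dvd_add_left (dvd_mul_left _ _)).1 this
      obtain ⟨t, ht⟩ := h'
      have := i.isLt; have := i'.isLt
      have h1 : -(p : ℤ) < p * t := by omega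
      have h2 : p * t < (p : ℤ) := by omega
      have : t = 0 := by nlinarith
      rw [this, mul_zero] at ht
      omega
    obtain ⟨t, ht⟩ := hb
    have hj : (j : ℤ) = j' := by
      have e : (p : ℤ) * ((j' : ℤ) - j) = p * (r * t) := by linear_combination ht + hi
      have e' := mul_left_cancel₀ hp'.ne_zero e
      have := j.isLt; have := j'.isLt
      have h1 : -(r : ℤ) < r * t := by omega
      have h2 : r * t < (r : ℤ) := by omega
      have : t = 0 := by nlinarith
      rw [this, mul_zero] at e'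
      omega
    exact Prod.ext (congrArg (HeckeIdx.upper M) (Fin.ext (by exact_mod_cast hj)))
      (congrArg (HeckeIdx.upper M) (Fin.ext (by exact_mod_cast hi)))
  · have h' : (r : ℤ) ∣ (p : ℤ) * ((j' : ℤ) - j) := by
      have := (dvd_mul_right (r : ℤ) p).trans hb
      rwa [← mul_sub] at this
    have hrp : ¬ (r : ℤ) ∣ p := fun hd =>
      hne ((Nat.prime_dvd_prime_iff_eq hr.out hp.out).1 (Int.natCast_dvd_natCast.1 hd)).symm
    obtain ⟨t, ht⟩ := (hr'.dvd_or_dvd h').resolve_left hrp
    have := j.isLt; have := j'.isLt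
    have h1 : -(r : ℤ) < r * t := by omega
    have h2 : r * t < (r : ℤ) := by omega
    have : t = 0 := by nlinarith
    rw [this, mul_zero] at ht
    exact Prod.ext (congrArg (HeckeIdx.upper M) (Fin.ext (by omega))) rfl
  · have h' : (p : ℤ) ∣ (r : ℤ) * ((r : ℤ) * ((i' : ℤ) - i)) := by
      have := (dvd_mul_left (p : ℤ) r).trans hb
      simpa [mul_sub, mul_assoc] using this
    obtain ⟨t, ht⟩ := (hp'.dvd_or_dvd ((hp'.dvd_or_dvd h').resolve_left hpr)).resolve_left hpr
    have := i.isLt; have := i'.isLt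
    have h1 : -(p : ℤ) < p * t := by omega
    have h2 : p * t < (p : ℤ) := by omega
    have : t = 0 := by nlinarith
    rw [this, mul_zero] at ht
    exact Prod.ext rfl (congrArg (HeckeIdx.upper M) (Fin.ext (by omega)))
  · rfl

/-- Every `α_i β_j` has the invariant of some `β_j' α_i'` of the same shape. -/
theorem exists_kappa_eq (y : HeckeIdx M p × HeckeIdx M r) :
    ∃ x : HeckeIdx M r × HeckeIdx M p,
      kappa (r * p) (prodMat x) = kappa (r * p) (prodMat y) ∧
      x.1.1.isSome = y.2.1.isSome ∧ x.2.1.isSome = y.1.1.isSome := by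
  have : NeZero p := ⟨hp.out.ne_zero⟩
  have : NeZero r := ⟨hr.out.ne_zero⟩
  obtain ⟨i, j⟩ := y
  refine HeckeIdx.cases_upper_diag (fun i => ?_) (fun hN => ?_) i <;>
    refine HeckeIdx.cases_upper_diag (fun j => ?_) (fun hM => ?_) j
  · set n := (j : ℕ) + (i : ℕ) * r with hn
    have hlt : n < r * p := by
      have := i.isLt; have := j.isLt
      have : ((i : ℕ) + 1) * r ≤ p * r := Nat.mul_le_mul_right _ i.isLt
      rw [mul_comm r p]; nlinarith
    obtain ⟨q, m, hq, hm, hqm⟩ : ∃ q m : ℕ, q < r ∧ m < p ∧ m + p * q = n :=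
      ⟨n / p, n % p, Nat.div_lt_of_lt_mul (by rwa [mul_comm]), Nat.mod_lt _ hp.out.pos,
        Nat.mod_add_div n p⟩
    refine ⟨(HeckeIdx.upper M ⟨q, hq⟩, HeckeIdx.upper M ⟨m, hm⟩), ?_, rfl, rfl⟩
    simp [kappa, prodMat, Matrix.mul_apply, Fin.sum_univ_two]
    have := congrArg (Nat.cast : ℕ → ZMod (r * p)) hqm
    rw [hn] at this
    push_cast at this
    linear_combination this
  · set i0 : Fin p := ⟨((i : ℕ) * (r : ZMod p)⁻¹ : ZMod p).val, ZMod.val_lt _⟩ with hi0
    refine ⟨(HeckeIdx.diag hM, HeckeIdx.upper M i0), ?_, rfl, rfl⟩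
    simp [kappa, prodMat, Matrix.mul_apply, Fin.sum_univ_two]
    have hd : (p : ℤ) ∣ (r : ℤ) * (i0 : ℕ) - (i : ℕ) := by
      rw [← ZMod.intCast_zmod_eq_zero_iff_dvd]
      have hu : (r : ZMod p) ≠ 0 := by
        intro h0
        rw [← Int.cast_natCast, ZMod.intCast_zmod_eq_zero_iff_dvd, Int.natCast_dvd_natCast] at h0
        exact hne ((Nat.prime_dvd_prime_iff_eq hp.out hr.out).1 h0)
      push_cast
      rw [hi0, ZMod.natCast_zmod_val, mul_comm, mul_assoc, inv_mul_cancel₀ hu, mul_one, sub_self]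
    obtain ⟨t, ht⟩ := hd
    have := congrArg (fun z : ℤ => ((((r : ℤ) * z : ℤ)) : ZMod (r * p))) ht
    push_cast at this
    have h0 : (r : ZMod (r * p)) * (p : ZMod (r * p)) = 0 := by
      rw [← Nat.cast_mul, ZMod.natCast_self]
    linear_combination this + (t : ZMod (r * p)) * h0
  · set j0 : Fin r := ⟨((p : ℕ) * (j : ℕ) : ZMod r).val, ZMod.val_lt _⟩ with hj0
    refine ⟨(HeckeIdx.upper M j0, HeckeIdx.diag hN), ?_, rfl, rfl⟩
    simp [kappa, prodMat, Matrix.mul_apply, Fin.sum_univ_two]
    have hd : (r : ℤ) ∣ ((j0 : ℕ) : ℤ) - (p : ℤ) * (j : ℕ) := by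
      rw [← ZMod.intCast_zmod_eq_zero_iff_dvd]
      push_cast
      rw [hj0, ZMod.natCast_zmod_val, sub_self]
    obtain ⟨t, ht⟩ := hd
    have := congrArg (fun z : ℤ => ((((p : ℤ) * z : ℤ)) : ZMod (r * p))) ht
    push_cast at this
    have h0 : (r : ZMod (r * p)) * (p : ZMod (r * p)) = 0 := by
      rw [← Nat.cast_mul, ZMod.natCast_self]
    linear_combination this + (t : ZMod (r * p)) * h0
  · refine ⟨(HeckeIdx.diag hM, HeckeIdx.diag hN), ?_, rfl, rfl⟩
    simp [kappa, prodMat, Matrix.mul_apply, Fin.sum_univ_two]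
    ring

end Product

variable {M : ℕ} {R : Type*} [CommRing R] (χ : (ZMod M)ˣ →* Rˣ)
variable {A : Type*} [AddCommGroup A] [Module R A]

theorem heckeWeight_congr {p : ℕ} [Fact p.Prime] (i i' : HeckeIdx M p)
    (h : i.1.isSome = i'.1.isSome) : heckeWeight χ i = heckeWeight χ i' := by
  revert h
  refine HeckeIdx.cases_upper_diag (fun j => ?_) (fun hM => ?_) i <;>
    refine HeckeIdx.cases_upper_diag (fun j' => ?_) (fun hM' => ?_) i' <;>
    simp [HeckeIdx.upper, HeckeIdx.diag, heckeWeight]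

/-- Twisted Hecke operators at two primes commute on `H¹`. -/
theorem h1T_comm (p r : ℕ) [hp : Fact p.Prime] [hr : Fact r.Prime] (x : H1 (epsOf χ) A) :
    h1T χ A p (h1T χ A r x) = h1T χ A r (h1T χ A p x) := by
  by_cases hne : p = r
  · subst hne; rfl
  induction x using Submodule.Quotient.induction_on with
  | _ c =>
    simp only [h1T_mk, derT]
    rw [CosetSystem.op_comp, CosetSystem.op_comp]
    set S := (heckeSystem χ p).comp (heckeSystem χ r)
    set S' := (heckeSystem χ r).comp (heckeSystem χ p)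
    have ex := fun y => exists_kappa_eq (M := M) hne y
    choose f hf hs1 hs2 using ex
    have finj : Function.Injective f := fun y y' h =>
      prodMat_kappa_injective (Ne.symm hne)
        (by rw [mul_comm p r]; rw [← hf y, h, hf y'])
    have fbij : Function.Bijective f :=
      (Fintype.bijective_iff_injective_and_card f).2
        ⟨finj, by rw [Fintype.card_prod, Fintype.card_prod, mul_comm]⟩
    have hu : ∀ y, ∃ t : ℤ, prodMat y = matOf (upperUni M t) * prodMat (f y) := fun y =>
      exists_upperUni_of_kappa_eq (prodMat_one_zero _) (prodMat_one_zero _)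
        (prodMat_zero_zero_pos _) (det_prodMat _) (by rw [det_prodMat, mul_comm]) (hf y)
    choose t ht using hu
    have key : S'.opH1 (A := A) = S.opH1 :=
      S.opH1_eq_of_reps S'
        (fun x y a b h => by
          have e := prodMat_kappa_injective hne (kappa_eq_of_coset (prodMat_one_zero x)
            (prodMat_one_zero y) (prodMat_zero_zero_pos x) (prodMat_zero_zero_pos y)
            (det_prodMat x) (h : matOf a * prodMat x = matOf b * prodMat y))
          subst e
          refine ⟨rfl, ?_⟩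
          have hd : (prodMat x).det ≠ 0 := by
            rw [det_prodMat]; exact_mod_cast mul_ne_zero hr.out.ne_zero hp.out.ne_zero
          have h0 : matOf a * prodMat x = matOf b * prodMat x := h
          have h' := congrArg (· * (prodMat x).adjugate) h0
          simp only [Matrix.mul_assoc, Matrix.mul_adjugate, Matrix.mul_smul, Matrix.mul_one] at h'
          exact Subtype.ext (Subtype.ext (smul_right_injective _ hd h')))
        (Equiv.ofBijective f fbij) (fun y => upperUni M (t y)) (fun y => ht y)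
        (fun y => by
          show heckeWeight χ y.2 * heckeWeight χ y.1 * (epsOf χ (upperUni M (t y)) : R) =
            heckeWeight χ (f y).2 * heckeWeight χ (f y).1
          rw [epsOf_upperUni, Units.val_one, mul_one, heckeWeight_congr χ (f y).2 y.1 (hs2 y),
            heckeWeight_congr χ (f y).1 y.2 (hs1 y), mul_comm])
    have := LinearMap.congr_fun key (Submodule.Quotient.mk c)
    rw [CosetSystem.opH1_mk, CosetSystem.opH1_mk] at this
    exact this.symm

end Fermat.Agent.TW.Mod
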