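/-
The degeneracy maps between levels `N` and `Nq` in the form needed by `OldNewData`
(owner: helper87).
-/
import Fermat.Agent.TW.Mod.HeckeComm
import Fermat.Agent.LR.Operators

set_option autoImplicit false

namespace Fermat.Agent.TW.Mod

open CongruenceSubgroup
open Fermat.Agent.HK (heckeHom)
open Fermat.Agent.LR (Hom1 res res₂ cor atkin)

variable {R : Type*} [CommRing R] {A : Type*} [AddCommGroup A] [Module R A]

/-- Hecke operators on `Hom(Γ₀(M), A)` commute. -/
theorem heckeHom_comm (M p r : ℕ) [Fact p.Prime] [Fact r.Prime] (φ : Hom1 M A) :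
    heckeHom M p R A (heckeHom M r R A φ) = heckeHom M r R A (heckeHom M p R A φ) := by
  classical
  let χ : (ZMod M)ˣ →* Rˣ := 1
  have h : ∀ (g : Gamma0 M) (a : A), (epsOf χ g : R) • a = a := fun g a => by
    show (((1 : Rˣ)) : R) • a = a
    simp
  have hw : ∀ (s : ℕ) (a : A), (chiPrime χ s : R) • a = a := fun s a => by
    unfold chiPrime
    split_ifs <;> simp [χ]
  obtain ⟨x, rfl⟩ := (H1.homEquiv (ε := epsOf χ) h).surjective φ
  rw [← homEquiv_h1T χ h (hw r), ← homEquiv_h1T χ h (hw p), ← homEquiv_h1T χ h (hw p),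
    ← homEquiv_h1T χ h (hw r), h1T_comm]

variable (N q : ℕ) [NeZero N] [hq : Fact q.Prime] (hqN : q.Coprime N)
include hqN

/-- `U_q ∘ res = res ∘ T_q - res₂`. -/
theorem heckeHom_q_res (φ : Hom1 N A) :
    heckeHom (N * q) q R A (res N q φ) = res N q (heckeHom N q R A φ) - res₂ N q φ := by
  haveI : NeZero q := ⟨hq.out.ne_zero⟩
  have h := LR.res_cor N q hqN (R := R) (res₂ N q φ)
  rw [LR.atkin_res₂ N q hqN, LR.cor_res₂ N q (hq.out.coprime_iff_not_dvd.1 hqN) (R := R)] at h
  rw [h, add_sub_cancel_left]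

/-- `U_q ∘ res₂ = q • res`. -/
theorem heckeHom_q_res₂ (φ : Hom1 N A) :
    heckeHom (N * q) q R A (res₂ N q φ) = (q : ℤ) • res N q φ := by
  haveI : NeZero q := ⟨hq.out.ne_zero⟩
  have h := LR.res_cor N q hqN (R := R) (res N q φ)
  rw [LR.atkin_res N q hqN, LR.cor_res N q hq.out hqN, map_zsmul, add_smul, one_smul,
    add_comm ((q : ℤ) • res N q φ)] at h
  exact (add_left_cancel h).symm

omit hqN hq in
/-- The two degeneracy maps together. -/
def degenMap : Hom1 N A × Hom1 N A →ₗ[R] Hom1 (N * q) A where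
  toFun v := res N q v.1 + res₂ N q v.2
  map_add' v v' := by
    rw [Prod.fst_add, Prod.snd_add, map_add, map_add]
    abel
  map_smul' c v := by
    refine AddMonoidHom.ext fun g => ?_
    show c • res N q v.1 g + c • res₂ N q v.2 g = c • (res N q v.1 g + res₂ N q v.2 g)
    rw [smul_add]

omit hqN hq [NeZero N] in
theorem degenMap_apply (v : Hom1 N A × Hom1 N A) :
    degenMap (R := R) N q v = res N q v.1 + res₂ N q v.2 := rfl

omit hqN in
/-- `T_ℓ` commutes with the degeneracy maps. -/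
theorem heckeHom_degenMap (ℓ : ℕ) [Fact ℓ.Prime] (hℓ : ℓ.Coprime q)
    (v : Hom1 N A × Hom1 N A) :
    heckeHom (N * q) ℓ R A (degenMap (R := R) N q v) =
      degenMap (R := R) N q (heckeHom N ℓ R A v.1, heckeHom N ℓ R A v.2) := by
  haveI : NeZero q := ⟨hq.out.ne_zero⟩
  rw [degenMap_apply, degenMap_apply, map_add, LR.heckeHom_res N q hℓ, LR.heckeHom_res₂ N q hℓ]

/-- `U_q` on the image of the degeneracy maps. -/
theorem heckeHom_q_degenMap (v : Hom1 N A × Hom1 N A) :
    heckeHom (N * q) q R A (degenMap (R := R) N q v) =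
      degenMap (R := R) N q (heckeHom N q R A v.1 + (q : ℤ) • v.2, -v.1) := by
  rw [degenMap_apply, degenMap_apply, map_add, heckeHom_q_res N q hqN,
    heckeHom_q_res₂ N q hqN, map_add, map_neg, map_zsmul]
  abel

/-- All identities needed for `OldNewData`. -/
theorem degenMap_identities :
    (∀ a : Hom1 N A, haveI : NeZero q := ⟨hq.out.ne_zero⟩
      cor N q (degenMap (R := R) N q (a, 0)) = ((q : ℤ) + 1) • a) ∧
    (∀ b : Hom1 N A, haveI : NeZero q := ⟨hq.out.ne_zero⟩
      cor N q (degenMap (R := R) N q (0, b)) = heckeHom N q R A b) ∧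
    (∀ a : Hom1 N A, atkin N q hqN (degenMap (R := R) N q (a, 0)) = degenMap (R := R) N q (0, a)) ∧
    (∀ b : Hom1 N A, atkin N q hqN (degenMap (R := R) N q (0, b)) = degenMap (R := R) N q (b, 0)) ∧
    (∀ x : Hom1 (N * q) A, haveI : NeZero q := ⟨hq.out.ne_zero⟩
      degenMap (R := R) N q (cor N q x, 0) =
        x + heckeHom (N * q) q R A (atkin N q hqN x)) ∧
    (∀ x : Hom1 (N * q) A, atkin N q hqN (atkin N q hqN x) = x) := by
  haveI : NeZero q := ⟨hq.out.ne_zero⟩
  refine ⟨fun a => ?_, fun b => ?_, fun a => ?_, fun b => ?_, fun x => ?_, fun x => ?_⟩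
  · simp [degenMap_apply, LR.cor_res N q hq.out hqN]
  · simp [degenMap_apply, LR.cor_res₂ N q (hq.out.coprime_iff_not_dvd.1 hqN) (R := R)]
  · simp [degenMap_apply, LR.atkin_res N q hqN]
  · simp [degenMap_apply, LR.atkin_res₂ N q hqN]
  · simp [degenMap_apply, LR.res_cor N q hqN (R := R)]
  · exact LR.atkin_atkin N q hqN x

end Fermat.Agent.TW.Mod
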