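/-
At a Taylor-Wiles prime `q` the `U_q ≡ α` part of level `Nq` is the `T_q ≡ α + β` part of level
`N`: abstract linear algebra (owner: helper87).
-/
import Mathlib.Algebra.Module.Prod
import Mathlib.Algebra.Module.LinearMap.Basic
import Mathlib.Tactic

set_option autoImplicit false

namespace Fermat.Agent.TW.Mod

variable {S0 S : Type*} [CommRing S0] [CommRing S]
variable {H0 H : Type*} [AddCommGroup H0] [Module S0 H0] [AddCommGroup H] [Module S H]
variable [Module S (H0 × H0)]

/-- The data of the two degeneracy maps at a prime `q` not dividing the level. -/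
structure OldNewData (q : ℤ) (T : S0) (U : S) (i : H0 × H0 →ₗ[S] H) (cor : H →+ H0)
    (w : H →+ H) : Prop where
  smul_U : ∀ v : H0 × H0, U • v = (T • v.1 + q • v.2, -v.1)
  cor_fst : ∀ a : H0, cor (i (a, 0)) = (q + 1) • a
  cor_snd : ∀ b : H0, cor (i (0, b)) = T • b
  w_fst : ∀ a : H0, w (i (a, 0)) = i (0, a)
  w_snd : ∀ b : H0, w (i (0, b)) = i (b, 0)
  fst_cor : ∀ x : H, i (cor x, 0) = x + U • w x
  w_w : ∀ x : H, w (w x) = x

namespace OldNewData

variable {q : ℤ} {T : S0} {U : S} {i : H0 × H0 →ₗ[S] H} {cor : H →+ H0} {w : H →+ H}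
variable (D : OldNewData q T U i cor w)
include D

/-- Outside `U² = 1` everything is old. -/
theorem sq_sub_one_smul_mem_range (x : H) : (U * U - 1) • x ∈ LinearMap.range i := by
  refine ⟨U • (cor (w x), (0 : H0)) - (cor x, 0), ?_⟩
  rw [map_sub, map_smul, D.fst_cor, D.fst_cor, D.w_w, smul_add, sub_smul, mul_smul, one_smul]
  abel

/-- The determinant of `(cor, cor ∘ w) ∘ i` kills the kernel of `i`. -/
theorem det_smul_eq_zero {v : H0 × H0} (hv : i v = 0) :
    ((U - 1) * (U - (q : S)) * (U + 1) * (U + (q : S))) • v = 0 := by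
  obtain ⟨a, b⟩ := v
  have hsplit : i (a, b) = i (a, 0) + i (0, b) := by rw [← map_add]; simp
  have h1 : (q + 1) • a + T • b = 0 := by
    have := congrArg cor hv
    rwa [hsplit, map_add, map_zero, D.cor_fst, D.cor_snd] at this
  have h2 : T • a + (q + 1) • b = 0 := by
    have := congrArg (fun z => cor (w z)) hv
    simp only [hsplit, map_add, map_zero, D.w_fst, D.w_snd, D.cor_fst, D.cor_snd] at this
    exact this
  have e : ((q : S) + 1) • ((a, b) : H0 × H0) = -((T • b, T • a) : H0 × H0) := by
    rw [← Int.cast_one, ← Int.cast_add, Int.cast_smul_eq_zsmul]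
    refine Prod.ext ?_ ?_
    · simpa using eq_neg_of_add_eq_zero_left h1
    · simpa using eq_neg_of_add_eq_zero_right h2
  have f' : ((q : S) + 1) • ((T • b, T • a) : H0 × H0) = -((T • (T • a), T • (T • b)) : H0 × H0) := by
    rw [← Int.cast_one, ← Int.cast_add, Int.cast_smul_eq_zsmul]
    refine Prod.ext ?_ ?_
    · simp [← smul_comm T (q + 1), eq_neg_of_add_eq_zero_right h2, smul_neg]
    · simp [← smul_comm T (q + 1), eq_neg_of_add_eq_zero_left h1, smul_neg]
  have e2 : (((q : S) + 1) * ((q : S) + 1)) • ((a, b) : H0 × H0) =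
      ((T • (T • a), T • (T • b)) : H0 × H0) := by
    rw [mul_smul, e, smul_neg, f', neg_neg]
  have hUT : ∀ a b : H0, (U * U + (q : S)) • ((a, b) : H0 × H0) =
      U • ((T • a, T • b) : H0 × H0) := by
    intro a b
    rw [add_smul, mul_smul, D.smul_U, D.smul_U, D.smul_U, Int.cast_smul_eq_zsmul]
    refine Prod.ext ?_ ?_ <;> simp [smul_add, smul_comm T q]
  have hsq : ((U * U + (q : S)) * (U * U + (q : S))) • ((a, b) : H0 × H0) =
      U • U • ((T • (T • a), T • (T • b)) : H0 × H0) := by
    rw [mul_smul, hUT a b, smul_comm (U * U + (q : S)) U, hUT]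
  have key : (U - 1) * (U - (q : S)) * (U + 1) * (U + (q : S)) =
      (U * U + (q : S)) * (U * U + (q : S)) - (U * U) * (((q : S) + 1) * ((q : S) + 1)) := by ring
  rw [key, sub_smul, hsq, mul_smul (U * U), e2, mul_smul, sub_self]

variable {e : S} (he : e * e = e)
  (hU : ∃ v, v * (U * U - 1) * e = e)
  (hdet : ∃ v, v * ((U - 1) * (U - (q : S)) * (U + 1) * (U + (q : S))) * e = e)

include he hU hdet in
/-- The degeneracy maps are an isomorphism on the parts cut by `e`. -/
theorem bijOn_eigenpart :
    Set.BijOn i {v : H0 × H0 | e • v = v} {x : H | e • x = x} := by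
  refine ⟨fun v hv => ?_, fun v hv v' hv' h => ?_, fun x hx => ?_⟩
  · show e • i v = i v
    rw [← map_smul, hv]
  · obtain ⟨c, hc⟩ := hdet
    rw [← sub_eq_zero]
    have h0 : i (v - v') = 0 := by rw [map_sub, h, sub_self]
    have := D.det_smul_eq_zero h0
    have he' : e • (v - v') = v - v' := by rw [smul_sub, show e • v = v from hv, show e • v' = v' from hv']
    rw [← he', ← hc, mul_assoc, mul_comm _ e, ← mul_assoc, mul_smul, this, smul_zero]
  · obtain ⟨c, hc⟩ := hU
    obtain ⟨v, hv⟩ := D.sq_sub_one_smul_mem_range x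
    refine ⟨(c * e) • v, ?_, ?_⟩
    · show e • ((c * e) • v) = (c * e) • v
      rw [← mul_smul, mul_left_comm, he]
    · rw [map_smul, hv, ← mul_smul, mul_right_comm, hc, show e • x = x from hx]

omit he in
/-- Second coordinate: the part cut by `e` inside the two copies of level `N` is one copy. -/
theorem bijOn_snd {e0 x y z : S0} (hact : ∀ v : H0 × H0,
      e • v = (x • v.1 + y • (T • v.1 + q • v.2), x • v.2 - y • v.1))
    (hx : e0 * x = x) (hy : e0 * y = y) (hz : z * y = e0) (he : e * e = e) :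
    Set.BijOn Prod.snd {v : H0 × H0 | e • v = v} {b : H0 | e0 • b = b} := by
  have hsnd : ∀ v : H0 × H0, e • v = v → e0 • v.2 = v.2 ∧ e0 • v.1 = v.1 := by
    intro v hv
    constructor
    · conv_rhs => rw [← hv, hact]
      conv_lhs => rw [← hv, hact]
      simp [smul_sub, ← mul_smul, hx, hy]
    · conv_rhs => rw [← hv, hact]
      conv_lhs => rw [← hv, hact]
      simp [smul_add, ← mul_smul, hx, hy, ← mul_assoc]
  refine ⟨fun v hv => (hsnd v hv).1, fun v hv v' hv' h => ?_, fun b hb => ?_⟩
  · rw [← sub_eq_zero]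
    set d := v - v' with hd
    have hd' : e • d = d := by rw [hd, smul_sub, show e • v = v from hv, show e • v' = v' from hv']
    have h2 : d.2 = 0 := by
      rw [hd]
      show v.2 - v'.2 = 0
      rw [sub_eq_zero]; exact h
    have h1 := congrArg Prod.snd hd'
    rw [hact, h2] at h1
    simp only [smul_zero, zero_sub, neg_eq_zero] at h1
    have : d.1 = 0 := by rw [← (hsnd d hd').2, ← hz, mul_smul, h1, smul_zero]
    exact Prod.ext this h2
  · refine ⟨e • ((-(z • b), 0) : H0 × H0), ?_, ?_⟩
    · show e • e • _ = e • _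
      rw [← mul_smul, he]
    · rw [hact]
      show x • (0 : H0) - y • (-(z • b)) = b
      rw [smul_zero, zero_sub, smul_neg, neg_neg, ← mul_smul, mul_comm, hz]
      exact hb

end OldNewData

end Fermat.Agent.TW.Mod
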