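/-
Level raising at a Taylor-Wiles prime, linear algebra: the part of `H` (level `Nq`) where the
residual system has `U ↦ α` is the part of `H0` (level `N`) where it has `T ↦ α + 1/α`
(owner: helper87).
-/
import Fermat.Agent.TW.Mod.LocPart
import Fermat.Agent.TW.Mod.OldNew

set_option autoImplicit false

noncomputable section

namespace Fermat.Agent.TW.Mod

open IsLocalRing

variable {𝒪 : Type} [CommRing 𝒪] {ι : Type*}
variable {H0 H : Type} [AddCommGroup H0] [Module 𝒪 H0] [AddCommGroup H] [Module 𝒪 H]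

section Old

variable (F0 : ι → Module.End 𝒪 H0) (i0 : ι) (c : ℤ)

/-- `U` on pairs. -/
def oldU : Module.End 𝒪 (H0 × H0) :=
  ((F0 i0).comp (LinearMap.fst 𝒪 H0 H0) + c • LinearMap.snd 𝒪 H0 H0).prod
    (-LinearMap.fst 𝒪 H0 H0)

theorem oldU_apply (v : H0 × H0) : oldU F0 i0 c v = (F0 i0 v.1 + c • v.2, -v.1) := rfl

open scoped Classical in
/-- The operators on pairs matching those of the higher level. -/
def oldFam (i : ι) : Module.End 𝒪 (H0 × H0) :=
  if i = i0 then oldU F0 i0 c else (F0 i).prodMap (F0 i)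

theorem oldFam_self : oldFam F0 i0 c i0 = oldU F0 i0 c := if_pos rfl

theorem oldFam_of_ne {i : ι} (h : i ≠ i0) : oldFam F0 i0 c i = (F0 i).prodMap (F0 i) := if_neg h

/-- `a = x + y U` on pairs. -/
def IsRepr (a : Module.End 𝒪 (H0 × H0)) (x y : Module.End 𝒪 H0) : Prop :=
  ∀ v : H0 × H0, a v = (x v.1 + y (F0 i0 v.1 + c • v.2), x v.2 - y v.1)

variable {F0 i0 c}

theorem commute_diag_oldU {a : Module.End 𝒪 H0} (ha : Commute a (F0 i0)) :
    Commute (a.prodMap a) (oldU F0 i0 c) := by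
  refine LinearMap.ext fun v => ?_
  simp only [Module.End.mul_apply, oldU_apply, LinearMap.prodMap_apply, map_add, map_zsmul, map_neg]
  exact Prod.ext (congrArg (· + _) (LinearMap.congr_fun ha v.1)) rfl

theorem commute_diag_oldFam {a : Module.End 𝒪 H0} (ha : ∀ i, Commute a (F0 i)) (i : ι) :
    Commute (a.prodMap a) (oldFam F0 i0 c i) := by
  by_cases hi : i = i0
  · rw [hi, oldFam_self]
    exact commute_diag_oldU (ha i0)
  · rw [oldFam_of_ne _ _ _ hi]
    exact LinearMap.ext fun v => Prod.ext (LinearMap.congr_fun (ha i) v.1)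
      (LinearMap.congr_fun (ha i) v.2)

theorem oldFam_comm (hF : ∀ i j, Commute (F0 i) (F0 j)) (i j : ι) :
    Commute (oldFam F0 i0 c i) (oldFam F0 i0 c j) := by
  by_cases hi : i = i0
  · by_cases hj : j = i0
    · rw [hi, hj]
    · rw [oldFam_of_ne _ _ _ hj]
      exact (commute_diag_oldFam (fun k => hF j k) i).symm
  · rw [oldFam_of_ne _ _ _ hi]
    exact commute_diag_oldFam (fun k => hF i k) j

theorem IsRepr.unique {a : Module.End 𝒪 (H0 × H0)} {x y x' y' : Module.End 𝒪 H0}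
    (h : IsRepr F0 i0 c a x y) (h' : IsRepr F0 i0 c a x' y') : x = x' ∧ y = y' := by
  refine ⟨LinearMap.ext fun b => ?_, LinearMap.ext fun b => ?_⟩
  · simpa using congrArg Prod.snd ((h (0, b)).symm.trans (h' (0, b)))
  · simpa using congrArg Prod.snd ((h (b, 0)).symm.trans (h' (b, 0)))

theorem IsRepr.add {a a' : Module.End 𝒪 (H0 × H0)} {x y x' y' : Module.End 𝒪 H0}
    (h : IsRepr F0 i0 c a x y) (h' : IsRepr F0 i0 c a' x' y') :
    IsRepr F0 i0 c (a + a') (x + x') (y + y') := fun v => by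
  rw [LinearMap.add_apply, h v, h' v]
  refine Prod.ext ?_ ?_ <;> simp only [Prod.fst_add, Prod.snd_add, LinearMap.add_apply] <;> abel

theorem IsRepr.mul {a a' : Module.End 𝒪 (H0 × H0)} {x y x' y' : Module.End 𝒪 H0}
    (h : IsRepr F0 i0 c a x y) (h' : IsRepr F0 i0 c a' x' y') (hx : Commute x' (F0 i0))
    (hy : Commute y' (F0 i0)) :
    IsRepr F0 i0 c (a * a') (x * x' - c • (y * y')) (x * y' + y * x' + y * y' * F0 i0) := fun v => by
  rw [Module.End.mul_apply, h' v, h]
  have cx : ∀ z, F0 i0 (x' z) = x' (F0 i0 z) := fun z => (LinearMap.congr_fun hx z).symm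
  have cy : ∀ z, F0 i0 (y' z) = y' (F0 i0 z) := fun z => (LinearMap.congr_fun hy z).symm
  refine Prod.ext ?_ ?_ <;>
    simp only [LinearMap.sub_apply, LinearMap.add_apply, Module.End.mul_apply,
      LinearMap.smul_apply, map_add, map_sub, map_zsmul, cx, cy, smul_add, smul_sub] <;>
    abel

variable [IsLocalRing 𝒪] {lam : ι → ResidueField 𝒪} (hF : ∀ i j, Commute (F0 i) (F0 j))
include hF

theorem exists_repr (a : famAlg 𝒪 (oldFam F0 i0 c)) :
    ∃ x y : famAlg 𝒪 F0, IsRepr F0 i0 c (a : Module.End 𝒪 (H0 × H0)) x y := by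
  obtain ⟨a, ha⟩ := a
  show ∃ x y : famAlg 𝒪 F0, IsRepr F0 i0 c a x y
  induction ha using Algebra.adjoin_induction with
  | mem z hz =>
    obtain ⟨i, rfl⟩ := hz
    by_cases hi : i = i0
    · exact ⟨0, 1, fun v => by rw [hi, oldFam_self, oldU_apply]; simp⟩
    · exact ⟨famGen 𝒪 F0 i, 0, fun v => by rw [oldFam_of_ne _ _ _ hi]; simp [famGen]⟩
  | algebraMap r =>
    exact ⟨algebraMap 𝒪 _ r, 0, fun v => by simp [Module.algebraMap_end_apply, Prod.ext_iff]⟩
  | add z w _ _ hz hw =>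
    obtain ⟨x, y, h⟩ := hz
    obtain ⟨x', y', h'⟩ := hw
    exact ⟨x + x', y + y', h.add h'⟩
  | mul z w _ _ hz hw =>
    obtain ⟨x, y, h⟩ := hz
    obtain ⟨x', y', h'⟩ := hw
    exact ⟨x * x' - c • (y * y'), x * y' + y * x' + y * y' * famGen 𝒪 F0 i0,
      h.mul h' (famAlg_commute hF x'.2 (famGen 𝒪 F0 i0).2)
        (famAlg_commute hF y'.2 (famGen 𝒪 F0 i0).2)⟩

/-- A system of `H0` gives one on pairs, for each root `α` of `X² - lam(i0) X + 1`. -/
theorem exists_oldChar [DecidableEq ι] (hc1 : (c : ResidueField 𝒪) = 1) (h : Occurs 𝒪 F0 lam)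
    {α : ResidueField 𝒪} (hroot : α ^ 2 - lam i0 * α + 1 = 0) :
    ∃ φ : famAlg 𝒪 (oldFam F0 i0 c) →ₐ[𝒪] ResidueField 𝒪,
      (∀ i, φ (famGen 𝒪 _ i) = Function.update lam i0 α i) ∧
      ∀ (a : famAlg 𝒪 (oldFam F0 i0 c)) (x y : famAlg 𝒪 F0), IsRepr F0 i0 c (a : Module.End 𝒪 (H0 × H0)) x y →
        φ a = h.char x + α * h.char y := by
  choose X Y hXY using exists_repr (i0 := i0) (c := c) hF
  have key : ∀ (a : famAlg 𝒪 (oldFam F0 i0 c)) (x y : famAlg 𝒪 F0), IsRepr F0 i0 c (a : Module.End 𝒪 (H0 × H0)) x y →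
      h.char (X a) + α * h.char (Y a) = h.char x + α * h.char y := by
    intro a x y hxy
    obtain ⟨e1, e2⟩ := (hXY a).unique hxy
    rw [Subtype.ext e1, Subtype.ext e2]
  refine ⟨{ toFun := fun a => h.char (X a) + α * h.char (Y a), map_one' := ?_, map_mul' := ?_,
            map_zero' := ?_, map_add' := ?_, commutes' := ?_ }, fun i => ?_, key⟩
  · rw [key 1 1 0 (fun v => by simp), map_one, map_zero, mul_zero, add_zero]
  · intro a b
    rw [key (a * b) (X a * X b - c • (Y a * Y b))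
      (X a * Y b + Y a * X b + Y a * Y b * famGen 𝒪 F0 i0)
      ((hXY a).mul (hXY b) (famAlg_commute hF (X b).2 (famGen 𝒪 F0 i0).2)
        (famAlg_commute hF (Y b).2 (famGen 𝒪 F0 i0).2))]
    simp only [map_sub, map_add, map_mul, h.char_gen, zsmul_eq_mul, map_intCast, hc1, one_mul]
    linear_combination (-(h.char (Y a) * h.char (Y b))) * hroot
  · rw [key 0 0 0 (fun v => by simp [Prod.ext_iff]), map_zero, mul_zero, add_zero]
  · intro a b
    rw [key (a + b) (X a + X b) (Y a + Y b) ((hXY a).add (hXY b)), map_add, map_add]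
    ring
  · intro r
    show h.char (X (algebraMap 𝒪 _ r)) + α * h.char (Y (algebraMap 𝒪 _ r)) = _
    rw [key _ (algebraMap 𝒪 _ r) 0 (fun v => by simp [Module.algebraMap_end_apply, Prod.ext_iff]),
      AlgHom.commutes, map_zero, mul_zero, add_zero]
  · show h.char (X (famGen 𝒪 _ i)) + α * h.char (Y (famGen 𝒪 _ i)) = _
    by_cases hi : i = i0
    · rw [key _ 0 1 (fun v => by
        show oldFam F0 i0 c i v = _
        rw [hi, oldFam_self, oldU_apply]; simp), map_zero, map_one, mul_one, zero_add, hi,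
        Function.update_self]
    · rw [key _ (famGen 𝒪 F0 i) 0 (fun v => by
        show oldFam F0 i0 c i v = _
        rw [oldFam_of_ne _ _ _ hi]; simp [famGen]), h.char_gen, map_zero, mul_zero, add_zero,
        Function.update_of_ne hi]

variable [IsNoetherianRing 𝒪] [IsAdicComplete (maximalIdeal 𝒪) 𝒪]

/-- On the localised pairs, diagonal operators are in the algebra generated by `U`. -/
theorem exists_diag_mul_idem [DecidableEq ι] (hc1 : (c : ResidueField 𝒪) = 1) (h : Occurs 𝒪 F0 lam)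
    {α : ResidueField 𝒪} (hα : α ≠ 0) (hroot : α ^ 2 - lam i0 * α + 1 = 0)
    [Module.Finite 𝒪 (Module.End 𝒪 (H0 × H0))]
    (h2 : Occurs 𝒪 (oldFam F0 i0 c) (Function.update lam i0 α)) (a : famAlg 𝒪 F0) :
    ∃ b : famAlg 𝒪 (oldFam F0 i0 c), h2.char b = h.char a ∧
      (a : Module.End 𝒪 H0).prodMap (a : Module.End 𝒪 H0) * h2.idem (oldFam_comm hF) =
        (b : Module.End 𝒪 (H0 × H0)) * h2.idem (oldFam_comm hF) := by
  obtain ⟨a, ha⟩ := a
  show ∃ b, h2.char b = h.char ⟨a, ha⟩ ∧ a.prodMap a * _ = _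
  set e := h2.idem (oldFam_comm hF) with he
  induction ha using Algebra.adjoin_induction with
  | mem z hz =>
    obtain ⟨i, rfl⟩ := hz
    by_cases hi : i = i0
    · subst hi
      set U := famGen 𝒪 (oldFam F0 i c) i with hU
      have hUα : h2.char U = α := by rw [hU, h2.char_gen, Function.update_self]
      obtain ⟨v, hvm, hv⟩ := h2.exists_inv (oldFam_comm hF) U.2
        (by rw [Subtype.coe_eta, hUα]; exact hα)
      have hval : h2.char ⟨v, hvm⟩ * α = 1 := by
        have := congrArg h2.char (show (⟨v, hvm⟩ : famAlg 𝒪 (oldFam F0 i c)) * U *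
          ⟨e, h2.idem_mem (oldFam_comm hF)⟩ = ⟨e, h2.idem_mem (oldFam_comm hF)⟩ from Subtype.ext hv)
        rwa [map_mul, map_mul, hUα, h2.char_idem, mul_one] at this
      refine ⟨U + (c : famAlg 𝒪 (oldFam F0 i c)) * ⟨v, hvm⟩, ?_, ?_⟩
      · rw [map_add, map_mul, map_intCast, hUα,
          show (⟨F0 i, _⟩ : famAlg 𝒪 F0) = famGen 𝒪 F0 i from rfl, h.char_gen, hc1, one_mul]
        refine mul_left_cancel₀ hα ?_
        linear_combination hroot + hval
      · have hD : (F0 i).prodMap (F0 i) * oldU F0 i c = oldU F0 i c * oldU F0 i c + c • 1 := by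
          refine LinearMap.ext fun x => ?_
          simp only [Module.End.mul_apply, LinearMap.add_apply, oldU_apply, LinearMap.prodMap_apply,
            LinearMap.smul_apply, Module.End.one_apply, map_add, map_zsmul, map_neg]
          refine Prod.ext ?_ ?_ <;> simp <;> abel
        have hU' : (U : Module.End 𝒪 (H0 × H0)) = oldU F0 i c := oldFam_self _ _ _
        rw [AddMemClass.coe_add, MulMemClass.coe_mul, SubringClass.coe_intCast, ← zsmul_eq_mul]
        rw [hU'] at hv ⊢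
        have hcomm : Commute v (oldU F0 i c) :=
          hU' ▸ famAlg_commute (oldFam_comm hF) hvm U.2
        rw [← he] at hv
        calc _ = (F0 i).prodMap (F0 i) * (v * oldU F0 i c * e) := by rw [hv]
          _ = (oldU F0 i c * oldU F0 i c + c • 1) * (v * e) := by
            rw [← hD, hcomm.eq]; simp only [mul_assoc]
          _ = oldU F0 i c * (v * oldU F0 i c * e) + c • (v * e) := by
            rw [add_mul, smul_mul_assoc, one_mul, hcomm.eq]; simp only [mul_assoc]
          _ = (oldU F0 i c + c • v) * e := by rw [hv, add_mul, smul_mul_assoc]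
    · refine ⟨famGen 𝒪 _ i, ?_, ?_⟩
      · rw [h2.char_gen, Function.update_of_ne hi]
        exact (h.char_gen i).symm
      · show _ = oldFam F0 i0 c i * e
        rw [oldFam_of_ne _ _ _ hi]
  | algebraMap r =>
    refine ⟨algebraMap 𝒪 _ r, ?_, ?_⟩
    · rw [AlgHom.commutes]
      exact (h.char.commutes r).symm
    · congr 1
  | add z w hz' hw' hz hw =>
    obtain ⟨b, hb, hb'⟩ := hz
    obtain ⟨d, hd, hd'⟩ := hw
    refine ⟨b + d, ?_, ?_⟩
    · rw [map_add, hb, hd, ← map_add]; rfl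
    · rw [AddMemClass.coe_add, add_mul, ← hb', ← hd', ← add_mul]
      congr 1
  | mul z w hz' hw' hz hw =>
    obtain ⟨b, hb, hb'⟩ := hz
    obtain ⟨d, hd, hd'⟩ := hw
    refine ⟨b * d, ?_, ?_⟩
    · rw [map_mul, hb, hd, ← map_mul]; rfl
    · rw [MulMemClass.coe_mul]
      calc (z * w).prodMap (z * w) * e = z.prodMap z * (w.prodMap w * e) := by
            rw [← mul_assoc]; congr 1
        _ = z.prodMap z * (e * d) := by rw [hd', (h2.commute_idem (oldFam_comm hF) d.2).eq]
        _ = b * d * e := by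
            rw [← mul_assoc, hb', mul_assoc, ← (h2.commute_idem (oldFam_comm hF) d.2).eq, mul_assoc]

end Old

section Main

omit [CommRing 𝒪] in
theorem mem_range_iff_of_idem {R : Type*} [CommRing R] {M : Type*} [AddCommGroup M] [Module R M]
    {e : Module.End R M} (he : e * e = e) {x : M} : x ∈ LinearMap.range e ↔ e x = x :=
  ⟨by rintro ⟨y, rfl⟩; exact LinearMap.congr_fun he y, fun h => ⟨x, h⟩⟩

variable [IsLocalRing 𝒪] [IsNoetherianRing 𝒪] [IsAdicComplete (maximalIdeal 𝒪) 𝒪]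
variable {F0 : ι → Module.End 𝒪 H0} {F : ι → Module.End 𝒪 H} {i0 : ι} {c : ℤ}
variable {D : H0 × H0 →ₗ[𝒪] H} {cr : H →+ H0} {w : H →+ H}

/-- The identities between the two levels. -/
structure RaiseData (F0 : ι → Module.End 𝒪 H0) (F : ι → Module.End 𝒪 H) (i0 : ι) (c : ℤ)
    (D : H0 × H0 →ₗ[𝒪] H) (cr : H →+ H0) (w : H →+ H) : Prop where
  intertwine : ∀ i v, D (oldFam F0 i0 c i v) = F i (D v)
  cor_fst : ∀ a, cr (D (a, 0)) = (c + 1) • a
  cor_snd : ∀ b, cr (D (0, b)) = F0 i0 b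
  w_fst : ∀ a, w (D (a, 0)) = D (0, a)
  w_snd : ∀ b, w (D (0, b)) = D (b, 0)
  fst_cor : ∀ x, D (cr x, 0) = x + F i0 (w x)
  w_w : ∀ x, w (w x) = x

/-- Level raising at a Taylor-Wiles prime. -/
theorem RaiseData.exists_equiv [DecidableEq ι] (data : RaiseData F0 F i0 c D cr w)
    [Module.Finite 𝒪 H0] [Module.Finite 𝒪 H]
    [Module.Finite 𝒪 (Module.End 𝒪 H0)] [Module.Finite 𝒪 (Module.End 𝒪 H)]
    (hF0 : ∀ i j, Commute (F0 i) (F0 j)) (hF : ∀ i j, Commute (F i) (F j))
    (hc1 : (c : ResidueField 𝒪) = 1) {lam : ι → ResidueField 𝒪} (h : Occurs 𝒪 F0 lam)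
    {α : ResidueField 𝒪} (hroot : α ^ 2 - lam i0 * α + 1 = 0) (hα : α ^ 2 ≠ 1) :
    ∃ h' : Occurs 𝒪 F (Function.update lam i0 α),
    ∃ Φ : ↥(LinearMap.range (h'.idem hF)) ≃ₗ[𝒪] ↥(LinearMap.range (h.idem hF0)),
      ∀ i, i ≠ i0 → ∀ x y : ↥(LinearMap.range (h'.idem hF)), (y : H) = F i (x : H) →
        (Φ y : H0) = F0 i (Φ x : H0) := by
  have hfin2 : Module.Finite 𝒪 (Module.End 𝒪 (H0 × H0)) := finite_end_of_finite _
  have hα0 : α ≠ 0 := fun h0 => by rw [h0] at hroot; simp at hroot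
  set β := lam i0 - α with hβ
  have hαβ : α * β = 1 := by rw [hβ]; linear_combination -hroot
  have hne : α ≠ β := fun e => hα (by rw [sq]; nth_rewrite 2 [e]; exact hαβ)
  have hrootβ : β ^ 2 - lam i0 * β + 1 = 0 := by
    rw [hβ]; linear_combination hroot
  obtain ⟨φα, hgα, hreprα⟩ := exists_oldChar hF0 hc1 h hroot
  obtain ⟨φβ, hgβ, hreprβ⟩ := exists_oldChar hF0 hc1 h hrootβ
  set lam' := Function.update lam i0 α with hlam'
  have h2 : Occurs 𝒪 (oldFam F0 i0 c) lam' := ⟨φα, hgα⟩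
  have hcharα : h2.char = φα := h2.char_eq hgα
  set e2 := h2.idem (oldFam_comm hF0) with he2
  set e0 := h.idem hF0 with he0
  -- the pair family
  set P : ι → Module.End 𝒪 (H0 × H0) × Module.End 𝒪 H :=
    fun i => (oldFam F0 i0 c i, F i) with hPdef
  have hPc : ∀ i j, Commute (P i) (P j) := commute_pair (oldFam_comm hF0) hF
  have hP : Occurs 𝒪 P lam' := h2.of_map (AlgHom.fst 𝒪 _ _) fun _ => rfl
  set eP := hP.idem hPc with heP
  have hePm : eP ∈ famAlg 𝒪 P := hP.idem_mem hPc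
  have heP1 : eP.1 = e2 := hP.map_idem hPc (AlgHom.fst 𝒪 _ _) (fun _ => rfl) h2 (oldFam_comm hF0)
  let _ : CommRing (famAlg 𝒪 P) :=
    { (inferInstance : Ring (famAlg 𝒪 P)) with
      mul_comm := fun a b => Subtype.ext (famAlg_commute hPc a.2 b.2) }
  let _ : Module (famAlg 𝒪 P) (H0 × H0) :=
    Module.compHom _ ((AlgHom.fst 𝒪 _ _).comp (famAlg 𝒪 P).val).toRingHom
  let _ : Module (famAlg 𝒪 P) H :=
    Module.compHom _ ((AlgHom.snd 𝒪 _ _).comp (famAlg 𝒪 P).val).toRingHom
  let _ : CommRing (famAlg 𝒪 F0) :=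
    { (inferInstance : Ring (famAlg 𝒪 F0)) with
      mul_comm := fun a b => Subtype.ext (famAlg_commute hF0 a.2 b.2) }
  let iS : H0 × H0 →ₗ[famAlg 𝒪 P] H :=
    { toFun := D, map_add' := map_add D,
      map_smul' := fun a v => intertwine_famAlg data.intertwine a v }
  set U : famAlg 𝒪 P := famGen 𝒪 P i0 with hU
  have hUα : hP.char U = α := by rw [hU, hP.char_gen, hlam', Function.update_self]
  have dat : OldNewData (S0 := famAlg 𝒪 F0) c (famGen 𝒪 F0 i0) U iS cr w := by
    refine ⟨fun v => ?_, data.cor_fst, data.cor_snd, data.w_fst, data.w_snd, data.fst_cor,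
      data.w_w⟩
    show oldFam F0 i0 c i0 v = _
    rw [oldFam_self]
    rfl
  set E : famAlg 𝒪 P := ⟨eP, hePm⟩ with hE
  have hEE : E * E = E := Subtype.ext (hP.idem_mul_idem hPc)
  have hinv : ∀ a : famAlg 𝒪 P, hP.char a ≠ 0 → ∃ v, v * a * E = E := fun a ha => by
    obtain ⟨v, hvm, hv⟩ := hP.exists_inv hPc a.2 ha
    exact ⟨⟨v, hvm⟩, Subtype.ext hv⟩
  have hα1 : α ^ 2 - 1 ≠ 0 := sub_ne_zero.2 hα
  have hbij := dat.bijOn_eigenpart hEE
    (hinv _ (by rw [map_sub, map_mul, hUα, map_one, ← sq]; exact hα1))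
    (hinv _ (by
      simp only [map_mul, map_sub, map_add, hUα, map_one, map_intCast, hc1]
      rw [show (α - 1) * (α - 1) * (α + 1) * (α + 1) = (α ^ 2 - 1) * (α ^ 2 - 1) by ring]
      exact mul_ne_zero hα1 hα1))
  have hsetE : ∀ v : H0 × H0, E • v = e2 v := fun v => by
    show eP.1 v = _
    rw [heP1]
  have hbij' : Set.BijOn D {v | e2 v = v} {x | eP.2 x = x} := by
    have : Set.BijOn D {v : H0 × H0 | E • v = v} {x | eP.2 x = x} := hbij
    simpa only [hsetE] using this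
  have hee2 : e2 * e2 = e2 := h2.idem_mul_idem _
  -- the system occurs at the higher level
  have h' : Occurs 𝒪 F lam' := by
    refine hP.map_of_ker (AlgHom.snd 𝒪 _ _) (fun _ => rfl) fun a ha => ?_
    have ha2 : (a : Module.End 𝒪 (H0 × H0) × Module.End 𝒪 H).2 = 0 := ha
    have hcom : (a : Module.End 𝒪 (H0 × H0) × Module.End 𝒪 H).1 * e2 =
        e2 * (a : Module.End 𝒪 (H0 × H0) × Module.End 𝒪 H).1 := by
      rw [← heP1]
      exact congrArg Prod.fst (hP.commute_idem hPc a.2).eq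
    have h0 : a * E = 0 := by
      refine Subtype.ext (Prod.ext (LinearMap.ext fun v => ?_) ?_)
      · show (a : Module.End 𝒪 (H0 × H0) × Module.End 𝒪 H).1 (eP.1 v) = 0
        rw [heP1]
        refine hbij'.injOn ?_ (show e2 (0 : H0 × H0) = 0 from map_zero e2) ?_
        · show e2 _ = _
          have hve : e2 (e2 v) = e2 v := LinearMap.congr_fun hee2 v
          conv_rhs => rw [← hve]
          exact (LinearMap.congr_fun hcom (e2 v)).symm
        · rw [map_zero, intertwine_famAlg data.intertwine, ha2]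
          rfl
      · show (a : Module.End 𝒪 (H0 × H0) × Module.End 𝒪 H).2 * eP.2 = 0
        rw [ha2, zero_mul]
    have := congrArg hP.char h0
    rwa [map_mul, map_zero, show hP.char E = 1 from hP.char_idem hPc, mul_one] at this
  refine ⟨h', ?_⟩
  have heP2 : eP.2 = h'.idem hF := hP.map_idem hPc (AlgHom.snd 𝒪 _ _) (fun _ => rfl) h' hF
  -- the decomposition `e2 = x + y U`
  obtain ⟨x, y, hxy⟩ := exists_repr hF0 ⟨e2, h2.idem_mem (oldFam_comm hF0)⟩
  have hval : h.char x + α * h.char y = 1 := by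
    rw [← hreprα _ x y hxy, ← hcharα]
    exact h2.char_idem (oldFam_comm hF0)
  have hval' : h.char x + β * h.char y = 0 := by
    rw [← hreprβ _ x y hxy]
    refine h2.apply_idem_of_ne (oldFam_comm hF0) fun e => hne ?_
    have := AlgHom.congr_fun e (famGen 𝒪 _ i0)
    rw [hgβ, hcharα, hgα, hlam', Function.update_self, Function.update_self] at this
    exact this.symm
  have hy0 : h.char y ≠ 0 := fun e => by
    rw [e, mul_zero] at hval hval'
    exact one_ne_zero (hval.symm.trans hval')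
  obtain ⟨z, hzm, hz⟩ := h.exists_inv hF0 y.2 hy0
  obtain ⟨b, hb, hb'⟩ := exists_diag_mul_idem hF0 hc1 h hα0 hroot h2 ⟨e0, h.idem_mem hF0⟩
  rw [h.char_idem] at hb
  rw [← he2] at hb'
  have hdiag : e0.prodMap e0 * e2 = e2 := by
    obtain ⟨u, hum, hu⟩ := h2.exists_inv (oldFam_comm hF0) b.2
      (by rw [Subtype.coe_eta, hb]; exact one_ne_zero)
    rw [← he2] at hu
    have hcu : Commute (e0.prodMap e0) u := by
      have := Algebra.adjoin_le_iff.2 (show Set.range (oldFam F0 i0 c) ⊆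
          (Subalgebra.centralizer 𝒪 {e0.prodMap e0} : Set _) from ?_) hum
      · exact (Subalgebra.mem_centralizer_iff 𝒪).1 this _ rfl
      · rintro _ ⟨i, rfl⟩ g rfl
        exact commute_diag_oldFam
          (fun k => famAlg_commute hF0 (h.idem_mem hF0) (famGen 𝒪 F0 k).2) i
    have hsq : e0.prodMap e0 * (e0.prodMap e0) = e0.prodMap e0 :=
      LinearMap.ext fun v => Prod.ext (LinearMap.congr_fun (h.idem_mul_idem _) v.1)
        (LinearMap.congr_fun (h.idem_mul_idem _) v.2)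
    calc e0.prodMap e0 * e2 = e0.prodMap e0 * (u * (e0.prodMap e0 * e2)) := by
          rw [hb', ← mul_assoc u, hu]
          exact hb'.symm
      _ = u * (e0.prodMap e0 * e2) := by
          rw [← mul_assoc, hcu.eq, mul_assoc, ← mul_assoc (e0.prodMap e0), hsq]
      _ = e2 := by rw [hb', ← mul_assoc, hu]
  obtain ⟨hx, hy⟩ : e0 * (x : Module.End 𝒪 H0) = x ∧ e0 * (y : Module.End 𝒪 H0) = y := by
    refine IsRepr.unique (F0 := F0) (i0 := i0) (c := c) (a := e2) (fun v => ?_) hxy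
    conv_lhs => rw [← hdiag, Module.End.mul_apply, hxy v]
    simp [map_sub]
  have hz' : z * (y : Module.End 𝒪 H0) = e0 := by
    rw [← hy, ← (h.commute_idem hF0 y.2).eq, ← mul_assoc, hz]
  have hsnd := dat.bijOn_snd (e := E) (e0 := ⟨e0, h.idem_mem hF0⟩) (x := x) (y := y)
    (z := ⟨z, hzm⟩) (fun v => (hsetE v).trans (hxy v)) (Subtype.ext hx) (Subtype.ext hy)
    (Subtype.ext hz') hEE
  have hsnd' : Set.BijOn Prod.snd {v : H0 × H0 | e2 v = v} {b | e0 b = b} := by
    have : Set.BijOn Prod.snd {v : H0 × H0 | E • v = v} {b | e0 b = b} := hsnd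
    simpa only [hsetE] using this
  -- the isomorphisms
  have hee0 : e0 * e0 = e0 := h.idem_mul_idem _
  have hee' : eP.2 * eP.2 = eP.2 := congrArg Prod.snd (hP.idem_mul_idem hPc)
  rw [← heP2]
  let f1 : LinearMap.range e2 →ₗ[𝒪] LinearMap.range eP.2 := D.restrict fun v hv =>
    (mem_range_iff_of_idem hee').2 (hbij'.mapsTo ((mem_range_iff_of_idem hee2).1 hv))
  let f2 : LinearMap.range e2 →ₗ[𝒪] LinearMap.range e0 :=
    (LinearMap.snd 𝒪 H0 H0).restrict fun v hv =>
      (mem_range_iff_of_idem hee0).2 (hsnd'.mapsTo ((mem_range_iff_of_idem hee2).1 hv))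
  have hf1 : Function.Bijective f1 := by
    refine ⟨fun a b hab => Subtype.ext (hbij'.injOn ((mem_range_iff_of_idem hee2).1 a.2)
      ((mem_range_iff_of_idem hee2).1 b.2) (congrArg Subtype.val hab)), fun b => ?_⟩
    obtain ⟨a, ha, hab⟩ := hbij'.surjOn ((mem_range_iff_of_idem hee').1 b.2)
    exact ⟨⟨a, (mem_range_iff_of_idem hee2).2 ha⟩, Subtype.ext hab⟩
  have hf2 : Function.Bijective f2 := by
    refine ⟨fun a b hab => Subtype.ext (hsnd'.injOn ((mem_range_iff_of_idem hee2).1 a.2)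
      ((mem_range_iff_of_idem hee2).1 b.2) (congrArg Subtype.val hab)), fun b => ?_⟩
    obtain ⟨a, ha, hab⟩ := hsnd'.surjOn ((mem_range_iff_of_idem hee0).1 b.2)
    exact ⟨⟨a, (mem_range_iff_of_idem hee2).2 ha⟩, Subtype.ext hab⟩
  refine ⟨(LinearEquiv.ofBijective f1 hf1).symm.trans (LinearEquiv.ofBijective f2 hf2),
    fun i hi u v huv => ?_⟩
  obtain ⟨a, rfl⟩ := hf1.2 u
  obtain ⟨d, rfl⟩ := hf1.2 v
  simp only [LinearEquiv.trans_apply, LinearEquiv.ofBijective_symm_apply_apply]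
  have ha2 := (mem_range_iff_of_idem hee2).1 a.2
  have had : (d : H0 × H0) = oldFam F0 i0 c i a := by
    refine hbij'.injOn ((mem_range_iff_of_idem hee2).1 d.2) ?_ ?_
    · show e2 _ = _
      conv_rhs => rw [← ha2]
      exact (LinearMap.congr_fun
        (h2.commute_idem (oldFam_comm hF0) (famGen 𝒪 _ i).2).eq (a : H0 × H0)).symm
    · rw [data.intertwine]
      exact huv
  show (d : H0 × H0).2 = _
  rw [had, oldFam_of_ne _ _ _ hi]
  rfl

end Main

end Fermat.Agent.TW.Mod
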