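/-
Raising the level by Taylor-Wiles primes: the part of level `N ∏ q` where the residual system has
`U_q ↦ α_q` is the part of level `N` where it has `T_q ↦ α_q + 1/α_q` (owner: helper87).
-/
import Fermat.Agent.TW.Mod.LevelRaiseAlg
import Fermat.Agent.TW.Mod.Degen

set_option autoImplicit false

noncomputable section

namespace Fermat.Agent.TW.Mod

open CongruenceSubgroup IsLocalRing
open Fermat.Agent.HK (heckeHom)
open Fermat.Agent.LR (Hom1 res res₂ cor atkin)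

/-- The primes outside `S`. -/
abbrev PrimeIdx (S : Set ℕ) : Type := {ℓ : ℕ // ℓ.Prime ∧ ℓ ∉ S}

instance PrimeIdx.fact {S : Set ℕ} (i : PrimeIdx S) : Fact i.1.Prime := ⟨i.2.1⟩

variable {𝒪 : Type} [CommRing 𝒪]

/-- The Hecke operators `T_ℓ`, `U_ℓ` (`ℓ ∉ S`) on `Hom(Γ₀(M), 𝒪)`. -/
def heckeFam (𝒪 : Type) [CommRing 𝒪] (M : ℕ) (S : Set ℕ) (i : PrimeIdx S) :
    Module.End 𝒪 (Hom1 M 𝒪) :=
  heckeHom M i.1 𝒪 𝒪

theorem heckeFam_comm (M : ℕ) (S : Set ℕ) (i j : PrimeIdx S) :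
    Commute (heckeFam 𝒪 M S i) (heckeFam 𝒪 M S j) :=
  LinearMap.ext fun φ => heckeHom_comm M i.1 j.1 φ

theorem neg_one_mem_Gamma0 (M : ℕ) : (-1 : Matrix.SpecialLinearGroup (Fin 2) ℤ) ∈ Gamma0 M := by
  simp [Gamma0_mem]

theorem admissible_one (M : ℕ) : Admissible (epsOf (1 : (ZMod M)ˣ →* 𝒪ˣ)) :=
  ⟨neg_one_mem_Gamma0 M, fun _ _ => rfl⟩

instance finite_hom1 [IsAddTorsionFree 𝒪] (M : ℕ) [NeZero M] : Module.Finite 𝒪 (Hom1 M 𝒪) := by
  have := (admissible_one (𝒪 := 𝒪) M).finite_der (A := 𝒪)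
  exact Module.Finite.equiv (Der.homEquiv (ε := epsOf (1 : (ZMod M)ˣ →* 𝒪ˣ)) (A := 𝒪)
    fun g a => one_smul 𝒪 a)

instance finite_end_hom1 [IsNoetherianRing 𝒪] [IsAddTorsionFree 𝒪] (M : ℕ) [NeZero M] :
    Module.Finite 𝒪 (Module.End 𝒪 (Hom1 M 𝒪)) :=
  finite_end_of_finite _

/-- The degeneracy data between levels `N` and `Nq`. -/
theorem raiseData_degen (N q : ℕ) [NeZero N] [hq : Fact q.Prime] (hqN : q.Coprime N) {S : Set ℕ}
    (hqS : q ∉ S) :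
    haveI : NeZero q := ⟨hq.out.ne_zero⟩
    RaiseData (heckeFam 𝒪 N S) (heckeFam 𝒪 (N * q) S) ⟨q, hq.out, hqS⟩ (q : ℤ)
      (degenMap (R := 𝒪) (A := 𝒪) N q) (cor N q).toAddMonoidHom
      (atkin N q hqN).toAddMonoidHom := by
  haveI : NeZero q := ⟨hq.out.ne_zero⟩
  obtain ⟨d1, d2, d3, d4, d5, d6⟩ := degenMap_identities (R := 𝒪) (A := 𝒪) N q hqN
  refine ⟨fun i v => ?_, d1, d2, d3, d4, d5, d6⟩
  by_cases hi : i = ⟨q, hq.out, hqS⟩
  · subst hi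
    rw [oldFam_self, oldU_apply]
    exact (heckeHom_q_degenMap N q hqN v).symm
  · rw [oldFam_of_ne _ _ _ hi]
    exact (heckeHom_degenMap N q i.1
      ((Nat.coprime_primes i.2.1 hq.out).2 fun h => hi (Subtype.ext h)) v).symm

variable [IsLocalRing 𝒪] [IsNoetherianRing 𝒪] [IsAdicComplete (maximalIdeal 𝒪) 𝒪]
  [IsAddTorsionFree 𝒪]

open scoped Classical in
/-- The residual system with `U_q ↦ α q` for `q ∈ Q`. -/
def raiseLam {S : Set ℕ} (Q : Finset ℕ) (α : ℕ → ResidueField 𝒪)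
    (lam : PrimeIdx S → ResidueField 𝒪) (i : PrimeIdx S) : ResidueField 𝒪 :=
  if i.1 ∈ Q then α i.1 else lam i

/-- Level raising at one Taylor-Wiles prime. -/
theorem exists_levelRaise {N q : ℕ} [NeZero N] [hq : Fact q.Prime] {M : ℕ} [NeZero M]
    (hM : M = N * q) (hqN : q.Coprime N) {S : Set ℕ} (hqS : q ∉ S)
    (hq1 : (q : ResidueField 𝒪) = 1) {lam : PrimeIdx S → ResidueField 𝒪}
    (h : Occurs 𝒪 (heckeFam 𝒪 N S) lam) {α : ResidueField 𝒪}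
    (hroot : α ^ 2 - lam ⟨q, hq.out, hqS⟩ * α + 1 = 0) (hα : α ^ 2 ≠ 1) :
    ∃ h' : Occurs 𝒪 (heckeFam 𝒪 M S) (Function.update lam ⟨q, hq.out, hqS⟩ α),
    ∃ Φ : ↥(LinearMap.range (h'.idem (heckeFam_comm M S))) ≃ₗ[𝒪]
        ↥(LinearMap.range (h.idem (heckeFam_comm N S))),
      ∀ i : PrimeIdx S, i.1 ≠ q → ∀ x y : ↥(LinearMap.range (h'.idem (heckeFam_comm M S))),
        (y : Hom1 M 𝒪) = heckeFam 𝒪 M S i (x : Hom1 M 𝒪) →
          (Φ y : Hom1 N 𝒪) = heckeFam 𝒪 N S i (Φ x : Hom1 N 𝒪) := by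
  subst hM
  obtain ⟨h', Φ, hΦ⟩ := (raiseData_degen N q hqN hqS).exists_equiv (heckeFam_comm N S)
    (heckeFam_comm _ S) (by rw [Int.cast_natCast, hq1]) h hroot hα
  exact ⟨h', Φ, fun i hi => hΦ i fun e => hi (congrArg Subtype.val e)⟩

open scoped Classical in
/-- Level raising at a set `Q` of Taylor-Wiles primes. -/
theorem exists_levelRaise_finset (N : ℕ) [NeZero N] (S : Set ℕ)
    {lam : PrimeIdx S → ResidueField 𝒪} (h : Occurs 𝒪 (heckeFam 𝒪 N S) lam)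
    (α : ℕ → ResidueField 𝒪) (Q : Finset ℕ)
    (hQ : ∀ q ∈ Q, ∃ (hp : q.Prime) (hS : q ∉ S), q.Coprime N ∧ (q : ResidueField 𝒪) = 1 ∧
      α q ^ 2 - lam ⟨q, hp, hS⟩ * α q + 1 = 0 ∧ α q ^ 2 ≠ 1)
    (M : ℕ) [NeZero M] (hM : M = N * ∏ q ∈ Q, q) :
    ∃ h' : Occurs 𝒪 (heckeFam 𝒪 M S) (raiseLam Q α lam),
    ∃ Φ : ↥(LinearMap.range (h'.idem (heckeFam_comm M S))) ≃ₗ[𝒪]
        ↥(LinearMap.range (h.idem (heckeFam_comm N S))),
      ∀ i : PrimeIdx S, i.1 ∉ Q → ∀ x y : ↥(LinearMap.range (h'.idem (heckeFam_comm M S))),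
        (y : Hom1 M 𝒪) = heckeFam 𝒪 M S i (x : Hom1 M 𝒪) →
          (Φ y : Hom1 N 𝒪) = heckeFam 𝒪 N S i (Φ x : Hom1 N 𝒪) := by
  induction Q using Finset.induction_on generalizing M with
  | empty =>
    rw [Finset.prod_empty, mul_one] at hM
    subst hM
    have hl : raiseLam (S := S) ∅ α lam = lam := funext fun i => if_neg (Finset.notMem_empty _)
    rw [hl]
    refine ⟨h, LinearEquiv.refl 𝒪 _, fun i _ x y hxy => hxy⟩
  | @insert q Q hqQ ih =>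
    obtain ⟨hp, hS, hqN, hq1, hroot, hα⟩ := hQ q (Finset.mem_insert_self q Q)
    haveI : Fact q.Prime := ⟨hp⟩
    have hQ' := fun r hr => hQ r (Finset.mem_insert_of_mem hr)
    have hne : N * ∏ r ∈ Q, r ≠ 0 :=
      mul_ne_zero (NeZero.ne N) (Finset.prod_ne_zero_iff.2 fun r hr => (hQ' r hr).1.ne_zero)
    haveI : NeZero (N * ∏ r ∈ Q, r) := ⟨hne⟩
    obtain ⟨h1, Φ1, hΦ1⟩ := ih hQ' (N * ∏ r ∈ Q, r) rfl
    have hcop : q.Coprime (N * ∏ r ∈ Q, r) := Nat.Coprime.mul_right hqN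
      (Nat.Coprime.prod_right fun r hr => (Nat.coprime_primes hp (hQ' r hr).1).2
        fun e => hqQ (e ▸ hr))
    have hroot' : α q ^ 2 - raiseLam Q α lam ⟨q, hp, hS⟩ * α q + 1 = 0 := by
      rwa [raiseLam, if_neg hqQ]
    obtain ⟨h2, Φ2, hΦ2⟩ := exists_levelRaise (M := M)
      (by rw [hM, Finset.prod_insert hqQ, mul_comm q, mul_assoc]) hcop hS hq1 h1 hroot' hα
    have hl : Function.update (raiseLam Q α lam) ⟨q, hp, hS⟩ (α q) =
        raiseLam (insert q Q) α lam := by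
      funext i
      by_cases hi : i = ⟨q, hp, hS⟩
      · subst hi
        simp [raiseLam]
      · have : i.1 ≠ q := fun e => hi (Subtype.ext e)
        simp [raiseLam, Function.update_of_ne hi, this]
    revert h2
    rw [hl]
    intro h2 Φ2 hΦ2
    refine ⟨h2, Φ2.trans Φ1, fun i hi x y hxy => ?_⟩
    rw [Finset.mem_insert, not_or] at hi
    exact hΦ1 i hi.2 _ _ (hΦ2 i hi.1 x y hxy)

end Fermat.Agent.TW.Mod
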