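/-
The localised part of a quotient `H` of a projective module `P` is projective as soon as an
operator which is invertible there factors through `P`; change of coefficients commutes with the
cut by an idempotent (owner: helper87).
-/
import Fermat.Agent.TW.Mod.Cocycle
import Mathlib.RingTheory.LocalRing.Module
import Mathlib.RingTheory.Finiteness.Projective
import Mathlib.Algebra.Module.Projective

set_option autoImplicit false

namespace Fermat.Agent.TW.Mod

section Abstract

variable {R : Type*} [CommRing R] {P H : Type*} [AddCommGroup P] [Module R P]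
  [AddCommGroup H] [Module R H]

variable (π : P →ₗ[R] H) (e : H →ₗ[R] H) (s : H →ₗ[R] P) (v : H →ₗ[R] H)

/-- `range e` is projective when `π ∘ s` is invertible on it. -/
theorem projective_range_of_section [Module.Projective R P] (he : e ∘ₗ e = e)
    (hv : e ∘ₗ v ∘ₗ π ∘ₗ s ∘ₗ e = e) : Module.Projective R (LinearMap.range e) :=
  Module.Projective.of_split (s ∘ₗ (LinearMap.range e).subtype)
    (e.rangeRestrict ∘ₗ v ∘ₗ π) (LinearMap.ext fun x => by
      obtain ⟨_, y, rfl⟩ := x
      exact Subtype.ext (LinearMap.congr_fun hv y) |>.trans rfl)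

theorem finite_range_of_surjective [Module.Finite R P] (hπ : Function.Surjective π) :
    Module.Finite R (LinearMap.range e) :=
  Module.Finite.of_surjective (e.rangeRestrict ∘ₗ π)
    (e.surjective_rangeRestrict.comp hπ)

/-- Over a local ring the localised part is free. -/
theorem free_range_of_section [IsLocalRing R] [Module.Projective R P] [Module.Finite R P]
    (hπ : Function.Surjective π) (he : e ∘ₗ e = e)
    (hv : e ∘ₗ v ∘ₗ π ∘ₗ s ∘ₗ e = e) : Module.Free R (LinearMap.range e) := by
  have := projective_range_of_section π e s v he hv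
  have := finite_range_of_surjective π e hπ
  have : Module.FinitePresentation R (LinearMap.range e) :=
    Module.finitePresentation_of_projective R _
  exact Module.free_of_flat_of_isLocalRing

variable {H' : Type*} [AddCommGroup H'] [Module R H'] (e' : H' →ₗ[R] H') (f : H →ₗ[R] H')

/-- The map induced on the parts cut out by compatible idempotents. -/
def rangeMap (hc : f ∘ₗ e = e' ∘ₗ f) : LinearMap.range e →ₗ[R] LinearMap.range e' :=
  f.restrict (p := LinearMap.range e) (q := LinearMap.range e') (by
    rintro _ ⟨y, rfl⟩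
    exact ⟨f y, (LinearMap.congr_fun hc y).symm⟩)

@[simp] theorem rangeMap_apply (hc : f ∘ₗ e = e' ∘ₗ f) (x : LinearMap.range e) :
    (rangeMap e e' f hc x : H') = f x := rfl

theorem rangeMap_surjective (hc : f ∘ₗ e = e' ∘ₗ f) (hf : Function.Surjective f) :
    Function.Surjective (rangeMap e e' f hc) := by
  rintro ⟨_, y, rfl⟩
  obtain ⟨x, rfl⟩ := hf y
  exact ⟨⟨e x, x, rfl⟩, Subtype.ext (LinearMap.congr_fun hc x)⟩

theorem ker_rangeMap (hc : f ∘ₗ e = e' ∘ₗ f) (he : e ∘ₗ e = e) (I : Ideal R)
    (hker : LinearMap.ker f = I • (⊤ : Submodule R H)) :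
    LinearMap.ker (rangeMap e e' f hc) = I • (⊤ : Submodule R (LinearMap.range e)) := by
  refine le_antisymm (fun x hx => ?_) (Submodule.smul_le.2 fun r hr x _ => ?_)
  · have hx' : (x : H) ∈ I • (⊤ : Submodule R H) := by
      rw [← hker, LinearMap.mem_ker]
      exact congrArg Subtype.val (LinearMap.mem_ker.1 hx)
    have hx'' : e.rangeRestrict x = x := by
      obtain ⟨_, y, rfl⟩ := x
      exact Subtype.ext (LinearMap.congr_fun he y)
    rw [← hx'']
    have := Submodule.mem_map_of_mem (f := e.rangeRestrict) hx'
    rw [Submodule.map_smul''] at this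
    exact Submodule.smul_mono le_rfl le_top this
  · rw [LinearMap.mem_ker]
    apply Subtype.ext
    have : r • (x : H) ∈ LinearMap.ker f := hker ▸ Submodule.smul_mem_smul hr Submodule.mem_top
    exact LinearMap.mem_ker.1 this

end Abstract

section H1

variable {G : Type*} [Group G] {R : Type*} [CommRing R] {ε : G →* Rˣ}
variable {A : Type*} [AddCommGroup A] [Module R A]

/-- An operator on derivations acting on coboundaries through a scalar `μ` gives a section
`H¹ → Der`. -/
def sectionOfLift (t : Der ε A →ₗ[R] Der ε A) (μ : R)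
    (ht : ∀ a, t (cobound ε A a) = cobound ε A (μ • a)) : H1 ε A →ₗ[R] Der ε A :=
  Submodule.liftQ _ (t - μ • LinearMap.id) (by
    rintro _ ⟨a, rfl⟩
    rw [LinearMap.mem_ker, LinearMap.sub_apply, LinearMap.smul_apply, LinearMap.id_apply, ht,
      map_smul, sub_self])

theorem mkQ_sectionOfLift (t : Der ε A →ₗ[R] Der ε A) (μ : R)
    (ht : ∀ a, t (cobound ε A a) = cobound ε A (μ • a)) (T : H1 ε A →ₗ[R] H1 ε A)
    (hT : ∀ c, T (Submodule.Quotient.mk c) = Submodule.Quotient.mk (t c)) :
    (LinearMap.range (cobound ε A)).mkQ ∘ₗ sectionOfLift t μ ht = T - μ • LinearMap.id := by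
  refine Submodule.linearMap_qext _ (LinearMap.ext fun c => ?_)
  simp [sectionOfLift, hT]

end H1

end Fermat.Agent.TW.Mod
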