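/-
The Taylor-Wiles module: over a local coefficient ring `R` with an augmentation killing the
character `χ`, the localised part of twisted `H¹` is free and its coinvariants are the localised
part of `Hom(Γ₀(M), 𝒪)` (owner: helper87).
-/
import Fermat.Agent.TW.Mod.LevelRaise
import Fermat.Agent.TW.Mod.Split

set_option autoImplicit false

noncomputable section

namespace Fermat.Agent.TW.Mod

open CongruenceSubgroup IsLocalRing
open Fermat.Agent.HK (heckeHom heckeHom_apply HeckeIdx heckeCoc)
open Fermat.Agent.LR (Hom1)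

variable {𝒪 : Type} [CommRing 𝒪] {R : Type} [CommRing R] [Algebra 𝒪 R]
variable {M : ℕ} (χ : (ZMod M)ˣ →* Rˣ)

/-- The Hecke operators on twisted `H¹`. -/
def twFam (S : Set ℕ) (i : PrimeIdx S) : Module.End R (H1 (epsOf χ) R) := h1T χ R i.1

theorem twFam_comm (S : Set ℕ) (i j : PrimeIdx S) : Commute (twFam χ S i) (twFam χ S j) :=
  LinearMap.ext fun x => h1T_comm χ i.1 j.1 x

section Aug

variable (aug : R →ₐ[𝒪] 𝒪)

/-- A derivation pushed along the augmentation. -/
def augDer (htriv : ∀ u, aug (χ u : R) = 1) (c : Der (epsOf χ) R) : Hom1 M 𝒪 where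
  toFun g := aug ((c : Gamma0 M → R) g.toMul)
  map_zero' := by rw [toMul_zero, Der.map_one, map_zero]
  map_add' g g' := by
    rw [toMul_add, Der.map_mul c, smul_eq_mul, map_add, map_mul, epsOf_apply, htriv, one_mul]

theorem augDer_apply (htriv : ∀ u, aug (χ u : R) = 1) (c : Der (epsOf χ) R) (g : Gamma0 M) :
    augDer χ aug htriv c (Additive.ofMul g) = aug ((c : Gamma0 M → R) g) := rfl

/-- Change of coefficients along the augmentation. -/
def augMap (htriv : ∀ u, aug (χ u : R) = 1) : H1 (epsOf χ) R →ₗ[𝒪] Hom1 M 𝒪 where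
  toFun x := Quotient.liftOn' x (augDer χ aug htriv) fun c d hcd => by
    rw [Submodule.quotientRel_def] at hcd
    obtain ⟨a, ha⟩ := hcd
    refine AddMonoidHom.ext fun g => ?_
    obtain ⟨g, rfl⟩ := Additive.ofMul.surjective g
    rw [augDer_apply, augDer_apply, ← sub_eq_zero, ← map_sub]
    have := congrFun (congrArg Subtype.val ha) g
    rw [cobound_apply] at this
    rw [show (c : Gamma0 M → R) g - (d : Gamma0 M → R) g = ((c - d : Der (epsOf χ) R) : Gamma0 M → R) g
      from rfl, ← this, smul_eq_mul, map_sub, map_mul, epsOf_apply, htriv, one_mul, sub_self]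
  map_add' x y := by
    induction x using Submodule.Quotient.induction_on with
    | _ c =>
      induction y using Submodule.Quotient.induction_on with
      | _ d =>
        refine AddMonoidHom.ext fun g => ?_
        obtain ⟨g, rfl⟩ := Additive.ofMul.surjective g
        exact map_add aug _ _
  map_smul' r x := by
    induction x using Submodule.Quotient.induction_on with
    | _ c =>
      refine AddMonoidHom.ext fun g => ?_
      obtain ⟨g, rfl⟩ := Additive.ofMul.surjective g
      exact map_smul aug r _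

theorem augMap_mk (htriv : ∀ u, aug (χ u : R) = 1) (c : Der (epsOf χ) R) :
    augMap χ aug htriv (Submodule.Quotient.mk c) = augDer χ aug htriv c := rfl

theorem augMap_smul (htriv : ∀ u, aug (χ u : R) = 1) (r : R) (x : H1 (epsOf χ) R) :
    augMap χ aug htriv (r • x) = aug r • augMap χ aug htriv x := by
  induction x using Submodule.Quotient.induction_on with
  | _ c =>
    refine AddMonoidHom.ext fun g => ?_
    obtain ⟨g, rfl⟩ := Additive.ofMul.surjective g
    exact map_mul aug r _

theorem augMap_twFam (htriv : ∀ u, aug (χ u : R) = 1) (S : Set ℕ) (i : PrimeIdx S)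
    (x : H1 (epsOf χ) R) :
    augMap χ aug htriv (twFam χ S i x) = heckeFam 𝒪 M S i (augMap χ aug htriv x) := by
  induction x using Submodule.Quotient.induction_on with
  | _ c =>
    refine AddMonoidHom.ext fun g => ?_
    obtain ⟨g, rfl⟩ := Additive.ofMul.surjective g
    rw [twFam, h1T_mk, augMap_mk, augMap_mk, augDer_apply]
    show _ = heckeHom M i.1 𝒪 𝒪 (augDer χ aug htriv c) (Additive.ofMul g)
    rw [heckeHom_apply]
    show aug (∑ j : HeckeIdx M i.1, heckeWeight χ j • (c : Gamma0 M → R) (heckeCoc g j)) = _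
    rw [map_sum]
    refine Finset.sum_congr rfl fun j _ => ?_
    rw [smul_eq_mul, map_mul, augDer_apply]
    induction j using HeckeIdx.cases_upper_diag with
    | h1 k => rw [heckeWeight_upper, map_one, one_mul]
    | h2 hM =>
      rw [heckeWeight_diag, chiPrime]
      split_ifs <;> simp [htriv]

/-- The kernel of the augmentation. -/
abbrev augKer : Ideal R := RingHom.ker aug

theorem isAddTorsionFree_quotient [IsAddTorsionFree 𝒪] :
    IsAddTorsionFree (R ⧸ augKer aug) :=
  Function.Injective.isAddTorsionFree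
    (Ideal.kerLiftAlg aug).toAddMonoidHom (Ideal.kerLiftAlg_injective aug)

variable {χ} (hadm : Admissible (epsOf χ)) (htriv : ∀ u, aug (χ u : R) = 1)
include hadm

theorem augMap_surjective [IsAddTorsionFree 𝒪] :
    Function.Surjective (augMap χ aug htriv) := by
  intro φ
  have := isAddTorsionFree_quotient (𝒪 := 𝒪) aug
  have hmk : ∀ r : R, Submodule.Quotient.mk r = (Ideal.Quotient.mk (augKer aug) r) := fun _ => rfl
  let d : Der (epsOf χ) (R ⧸ augKer aug) :=
    ⟨fun g => Ideal.Quotient.mk _ (algebraMap 𝒪 R (φ (Additive.ofMul g))), fun g h => by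
      show _ = _ + (epsOf χ g : R) • Ideal.Quotient.mk (augKer aug) _
      rw [← Ideal.Quotient.mkₐ_eq_mk R, ← map_smul, ← map_add, Ideal.Quotient.mkₐ_eq_mk,
        Ideal.Quotient.eq, RingHom.mem_ker]
      simp [htriv, epsOf_apply, ofMul_mul]⟩
  obtain ⟨c, hc⟩ := hadm.der_map_surjective (π := (augKer aug).mkQ) (Submodule.mkQ_surjective _) d
  refine ⟨Submodule.Quotient.mk c, AddMonoidHom.ext fun g => ?_⟩
  obtain ⟨g, rfl⟩ := Additive.ofMul.surjective g
  have h := congrFun (congrArg Subtype.val hc) g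
  rw [Der.map_apply, Submodule.mkQ_apply, hmk] at h
  change Ideal.Quotient.mk (augKer aug) _ = Ideal.Quotient.mk (augKer aug) _ at h
  rw [Ideal.Quotient.eq, RingHom.mem_ker, map_sub, sub_eq_zero] at h
  rw [augMap_mk, augDer_apply]
  exact h.trans (aug.commutes _)

theorem augMap_eq_zero_iff [NeZero M] [IsAddTorsionFree R] (x : H1 (epsOf χ) R) :
    augMap χ aug htriv x = 0 ↔ x ∈ augKer aug • (⊤ : Submodule R (H1 (epsOf χ) R)) := by
  constructor
  · intro hx
    induction x using Submodule.Quotient.induction_on with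
    | _ c =>
      have hc : c ∈ LinearMap.ker (Der.map (ε := epsOf χ) (augKer aug).mkQ) := by
        rw [LinearMap.mem_ker]
        refine Subtype.ext (funext fun g => ?_)
        show Submodule.Quotient.mk ((c : Gamma0 M → R) g) = 0
        rw [Submodule.Quotient.mk_eq_zero, RingHom.mem_ker]
        exact DFunLike.congr_fun hx (Additive.ofMul g)
      rw [hadm.ker_der_map, Submodule.ker_mkQ] at hc
      have := Submodule.mem_map_of_mem (f := (LinearMap.range (cobound (epsOf χ) R)).mkQ) hc
      rw [Submodule.map_smul''] at this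
      exact Submodule.smul_mono le_rfl le_top this
  · intro hx
    refine Submodule.smul_induction_on hx (fun r hr y _ => ?_) (fun y z hy hz => ?_)
    · rw [augMap_smul, show aug r = 0 from RingHom.mem_ker.1 hr]
      exact zero_smul 𝒪 _
    · rw [map_add, hy, hz, add_zero]

omit hadm

end Aug

section Part

variable [IsLocalRing 𝒪] [IsNoetherianRing 𝒪] [IsAdicComplete (maximalIdeal 𝒪) 𝒪]
  [IsAddTorsionFree 𝒪]
variable [IsLocalRing R] [Module.Finite 𝒪 R] [IsAddTorsionFree R] [NeZero M]
variable {χ} {aug : R →ₐ[𝒪] 𝒪} (hadm : Admissible (epsOf χ)) (htriv : ∀ u, aug (χ u : R) = 1)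
variable {S : Set ℕ} {lam : PrimeIdx S → ResidueField 𝒪}

omit [IsLocalRing 𝒪] [IsAdicComplete (maximalIdeal 𝒪) 𝒪] [IsAddTorsionFree 𝒪] [IsLocalRing R] in
include hadm in
theorem finite_end_h1 : Module.Finite 𝒪 (Module.End R (H1 (epsOf χ) R)) := by
  have := hadm.finite_der (A := R)
  have : Module.Finite 𝒪 (Der (epsOf χ) R) := Module.Finite.trans R _
  exact finite_end_restrict

omit [IsAdicComplete (maximalIdeal 𝒪) 𝒪] [IsLocalRing R] [Module.Finite 𝒪 R] [IsAddTorsionFree R]
  [IsNoetherianRing 𝒪] [NeZero M] in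
include hadm htriv in
/-- A system of level `M` occurs in twisted `H¹`. -/
theorem occurs_twFam (h : Occurs 𝒪 (heckeFam 𝒪 M S) lam) :
    Occurs 𝒪 (twFam χ S) lam :=
  Occurs.of_surjective (augMap_twFam χ aug htriv S) (augMap_surjective aug hadm htriv) h

variable (hM : Occurs 𝒪 (heckeFam 𝒪 M S) lam)

/-- The idempotent cutting out the Taylor-Wiles module. -/
def twIdem : Module.End R (H1 (epsOf χ) R) :=
  haveI := finite_end_h1 (𝒪 := 𝒪) hadm
  (occurs_twFam hadm htriv hM).idem (twFam_comm χ S)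

/-- The Taylor-Wiles module. -/
abbrev twPart : Submodule R (H1 (epsOf χ) R) := LinearMap.range (twIdem hadm htriv hM)

omit [IsLocalRing R] in
theorem twIdem_mul_self : twIdem hadm htriv hM * twIdem hadm htriv hM = twIdem hadm htriv hM :=
  haveI := finite_end_h1 (𝒪 := 𝒪) hadm
  (occurs_twFam hadm htriv hM).idem_mul_idem _

omit [IsLocalRing R] in
theorem twIdem_commute (i : PrimeIdx S) :
    Commute (twFam χ S i) (twIdem hadm htriv hM) :=
  haveI := finite_end_h1 (𝒪 := 𝒪) hadm
  (occurs_twFam hadm htriv hM).commute_idem _ (famGen 𝒪 _ i).2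

omit [IsLocalRing R] in
theorem augMap_twIdem (x : H1 (epsOf χ) R) :
    augMap χ aug htriv (twIdem hadm htriv hM x) =
      hM.idem (heckeFam_comm M S) (augMap χ aug htriv x) :=
  haveI := finite_end_h1 (𝒪 := 𝒪) hadm
  (occurs_twFam hadm htriv hM).intertwine_idem (augMap_twFam χ aug htriv S) (twFam_comm χ S)
    (heckeFam_comm M S) hM x

omit [IsLocalRing R] in
theorem twPart_stable (i : PrimeIdx S) {x : H1 (epsOf χ) R} (hx : x ∈ twPart hadm htriv hM) :
    twFam χ S i x ∈ twPart hadm htriv hM := by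
  obtain ⟨y, rfl⟩ := hx
  exact ⟨twFam χ S i y, (LinearMap.congr_fun (twIdem_commute hadm htriv hM i) y).symm⟩

/-- The Taylor-Wiles module is finite free. -/
theorem free_twPart (hne : ∃ i : PrimeIdx S, ¬ i.1 ∣ M ∧ lam i ≠ (i.1 : ResidueField 𝒪) + 1) :
    Module.Free R (twPart hadm htriv hM) ∧ Module.Finite R (twPart hadm htriv hM) := by
  have := finite_end_h1 (𝒪 := 𝒪) hadm
  have hder := hadm.finite_der (A := R)
  have := hadm.projective_der
  obtain ⟨i, hiM, hi⟩ := hne
  set h := occurs_twFam hadm htriv hM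
  set T := twFam χ S i with hT
  set e := twIdem hadm htriv hM with he
  obtain ⟨hTm, v, hvm, hv⟩ := h.exists_inv_sub_algebraMap (twFam_comm χ S) i ((i.1 : 𝒪) + 1)
    (by rw [map_add, map_natCast, map_one]; exact hi)
  have hr : (chiPrime χ i.1 : R) - 1 ∈ maximalIdeal R := by
    refine IsLocalRing.le_maximalIdeal (RingHom.ker_ne_top aug.toRingHom) ?_
    rw [RingHom.mem_ker]
    show aug _ = 0
    rw [chiPrime]
    split_ifs <;> simp [htriv]
  have het : Commute e (T - algebraMap 𝒪 _ ((i.1 : 𝒪) + 1)) :=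
    (h.commute_idem (twFam_comm χ S) hTm).symm
  have hev : Commute e v := (h.commute_idem (twFam_comm χ S) hvm).symm
  obtain ⟨v', hv'⟩ := exists_inv_sub_smul het hev (famAlg_commute (twFam_comm χ S) hvm hTm)
    (h.idem_mul_idem _) hv hr
  set μ : R := (heckeSystem χ i.1).degree with hμ
  let s := sectionOfLift (derT χ R i.1) μ fun a => derT_cobound χ a
  have hps : (LinearMap.range (cobound (epsOf χ) R)).mkQ ∘ₗ s =
      T - algebraMap 𝒪 _ ((i.1 : 𝒪) + 1) - ((chiPrime χ i.1 : R) - 1) • 1 := by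
    rw [mkQ_sectionOfLift (T := T) (hT := fun c => h1T_mk χ c), hμ,
      heckeSystem_degree_of_not_dvd χ hiM]
    refine LinearMap.ext fun x => ?_
    simp only [LinearMap.sub_apply, LinearMap.smul_apply, LinearMap.id_apply, Module.End.one_apply,
      Module.algebraMap_end_apply]
    rw [← algebraMap_smul R ((i.1 : 𝒪) + 1) x, map_add, map_natCast, map_one, sub_sub,
      ← add_smul]
    congr 2
    ring
  refine ⟨free_range_of_section _ e s v' (Submodule.mkQ_surjective _) (h.idem_mul_idem _) ?_,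
    finite_range_of_surjective _ e (Submodule.mkQ_surjective _)⟩
  rw [← LinearMap.comp_assoc e s, ← LinearMap.comp_assoc _ _ v', hps]
  exact hv'

/-- Coinvariants of the Taylor-Wiles module. -/
def twPartMap : twPart hadm htriv hM →ₗ[𝒪] LinearMap.range (hM.idem (heckeFam_comm M S)) where
  toFun x := ⟨augMap χ aug htriv x, by
    obtain ⟨y, hy⟩ := x.2
    rw [← hy, augMap_twIdem]
    exact ⟨_, rfl⟩⟩
  map_add' x y := Subtype.ext (map_add (augMap χ aug htriv) _ _)
  map_smul' r x := Subtype.ext (map_smul (augMap χ aug htriv) r (x : H1 (epsOf χ) R))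

omit [IsLocalRing R] in
@[simp] theorem coe_twPartMap (x : twPart hadm htriv hM) :
    (twPartMap hadm htriv hM x : Hom1 M 𝒪) = augMap χ aug htriv x := rfl

omit [IsLocalRing R] in
theorem twPartMap_smul (r : R) (x : twPart hadm htriv hM) :
    twPartMap hadm htriv hM (r • x) = aug r • twPartMap hadm htriv hM x :=
  Subtype.ext (augMap_smul χ aug htriv r x)

omit [IsLocalRing R] in
theorem twPartMap_surjective : Function.Surjective (twPartMap hadm htriv hM) := by
  rintro ⟨_, y, rfl⟩
  obtain ⟨x, rfl⟩ := augMap_surjective aug hadm htriv y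
  exact ⟨⟨twIdem hadm htriv hM x, x, rfl⟩, Subtype.ext (augMap_twIdem hadm htriv hM x)⟩

omit [IsLocalRing R] in
theorem twPartMap_eq_zero_iff (x : twPart hadm htriv hM) :
    twPartMap hadm htriv hM x = 0 ↔
      x ∈ augKer aug • (⊤ : Submodule R (twPart hadm htriv hM)) := by
  constructor
  · intro hx
    have hx' : (x : H1 (epsOf χ) R) ∈ augKer aug • (⊤ : Submodule R (H1 (epsOf χ) R)) :=
      (augMap_eq_zero_iff aug hadm htriv _).1 (congrArg Subtype.val hx)
    have := Submodule.mem_map_of_mem (f := (twIdem hadm htriv hM).rangeRestrict) hx'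
    rw [Submodule.map_smul''] at this
    have he : (twIdem hadm htriv hM).rangeRestrict (x : H1 (epsOf χ) R) = x :=
      Subtype.ext ((mem_range_iff_of_idem (twIdem_mul_self hadm htriv hM)).1 x.2)
    rw [he] at this
    exact Submodule.smul_mono le_rfl le_top this
  · intro hx
    refine Submodule.smul_induction_on hx (fun r hr y _ => ?_) (fun y z hy hz => ?_)
    · rw [twPartMap_smul, show aug r = 0 from RingHom.mem_ker.1 hr]
      exact zero_smul 𝒪 _
    · rw [map_add, hy, hz, add_zero]

omit [IsLocalRing R] in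
theorem twPartMap_twFam (i : PrimeIdx S) (x : twPart hadm htriv hM) :
    (twPartMap hadm htriv hM ⟨twFam χ S i x, twPart_stable hadm htriv hM i x.2⟩ : Hom1 M 𝒪) =
      heckeFam 𝒪 M S i (twPartMap hadm htriv hM x : Hom1 M 𝒪) :=
  augMap_twFam χ aug htriv S i x

end Part

set_option maxHeartbeats 400000 in
/-- The Taylor-Wiles module at a set `Q` of auxiliary primes: free over `R`, with coinvariants the
part of level `N` of the residual system. -/
theorem exists_freeModule_levelN [IsLocalRing 𝒪] [IsNoetherianRing 𝒪]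
    [IsAdicComplete (maximalIdeal 𝒪) 𝒪] [IsAddTorsionFree 𝒪]
    [IsLocalRing R] [Module.Finite 𝒪 R] [IsAddTorsionFree R]
    (N : ℕ) [NeZero N] [NeZero M] (Q : Finset ℕ) (hMQ : M = N * ∏ q ∈ Q, q)
    {χ : (ZMod M)ˣ →* Rˣ} {aug : R →ₐ[𝒪] 𝒪} (hadm : Admissible (epsOf χ))
    (htriv : ∀ u, aug (χ u : R) = 1) (S : Set ℕ) {lam : PrimeIdx S → ResidueField 𝒪}
    (h : Occurs 𝒪 (heckeFam 𝒪 N S) lam) (α : ℕ → ResidueField 𝒪)
    (hQ : ∀ q ∈ Q, ∃ (hp : q.Prime) (hS : q ∉ S), q.Coprime N ∧ (q : ResidueField 𝒪) = 1 ∧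
      α q ^ 2 - lam ⟨q, hp, hS⟩ * α q + 1 = 0 ∧ α q ^ 2 ≠ 1)
    (hne : ∃ i : PrimeIdx S, ¬ i.1 ∣ M ∧ lam i ≠ (i.1 : ResidueField 𝒪) + 1) :
    ∃ hM : Occurs 𝒪 (heckeFam 𝒪 M S) (raiseLam Q α lam),
      Module.Free R (twPart hadm htriv hM) ∧ Module.Finite R (twPart hadm htriv hM) ∧
      ∃ π : twPart hadm htriv hM →ₗ[𝒪] LinearMap.range (h.idem (heckeFam_comm N S)),
        Function.Surjective π ∧
        (∀ x, π x = 0 ↔ x ∈ augKer aug • (⊤ : Submodule R (twPart hadm htriv hM))) ∧
        (∀ (r : R) x, π (r • x) = aug r • π x) ∧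
        ∀ i : PrimeIdx S, i.1 ∉ Q → ∀ x,
          (π ⟨twFam χ S i x.1, twPart_stable hadm htriv hM i x.2⟩ : Hom1 N 𝒪) =
            heckeFam 𝒪 N S i (π x : Hom1 N 𝒪) := by
  obtain ⟨hM, Φ, hΦ⟩ := exists_levelRaise_finset N S h α Q hQ M hMQ
  obtain ⟨i, hiM, hi⟩ := hne
  have hiQ : i.1 ∉ Q := fun hq => hiM (hMQ ▸ (Finset.dvd_prod_of_mem _ hq).mul_left N)
  obtain ⟨h1, h2⟩ := free_twPart hadm htriv hM
    ⟨i, hiM, by rwa [raiseLam, if_neg hiQ]⟩
  refine ⟨hM, h1, h2, Φ.toLinearMap ∘ₗ twPartMap hadm htriv hM,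
    Φ.surjective.comp (twPartMap_surjective hadm htriv hM), fun x => ?_, fun r x => ?_,
    fun j hj x => ?_⟩
  · exact Φ.map_eq_zero_iff.trans (twPartMap_eq_zero_iff hadm htriv hM x)
  · rw [LinearMap.comp_apply, twPartMap_smul, map_smul]
    rfl
  · have hj' := hΦ j hj (twPartMap hadm htriv hM x)
      (twPartMap hadm htriv hM ⟨twFam χ S j x.1, twPart_stable hadm htriv hM j x.2⟩)
      (twPartMap_twFam hadm htriv hM j x)
    exact hj'

end Fermat.Agent.TW.Mod
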