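/-
Coset systems between two levels with untwisted target: maps from twisted derivations to
homomorphisms (owner: helper87).
-/
import Fermat.Agent.TW.Mod.CosetSystem

set_option autoImplicit false

namespace Fermat.Agent.TW.Mod

open scoped MatrixGroups

variable {Γ Γ' : Subgroup SL(2, ℤ)} {R : Type*} [CommRing R]

/-- A finite family of matrices permuted by right multiplication by `Γ'` up to left
multiplication by `Γ`, with weights absorbing `ε`. -/
structure TwSystem (ε : Γ →* Rˣ) (Γ' : Subgroup SL(2, ℤ)) (ι : Type*) where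
  mat : ι → Matrix (Fin 2) (Fin 2) ℤ
  weight : ι → R
  next : Γ' → Equiv.Perm ι
  coc : Γ' → ι → Γ
  next_mul : ∀ g h i, next (g * h) i = next h (next g i)
  coc_mul : ∀ g h i, coc (g * h) i = coc g i * coc h (next g i)
  rel : ∀ g i, matOf (coc g i) * mat (next g i) = mat i * matOf g
  weight_rel : ∀ g i, weight i * (ε (coc g i) : R) = weight (next g i)

variable {ε : Γ →* Rˣ} {A : Type*} [AddCommGroup A] [Module R A]

namespace TwSystem

variable {ι : Type*} [Fintype ι] (S : TwSystem ε Γ' ι)

/-- `g ↦ ∑ᵢ wᵢ c(γᵢ)`. -/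
def op : Der ε A →ₗ[R] (Additive Γ' →+ A) where
  toFun c :=
    { toFun := fun g => ∑ i, S.weight i • (c : Γ → A) (S.coc g.toMul i)
      map_zero' := by
        have h : ∀ i, S.coc 1 i = 1 ∧ S.next 1 i = i := by
          intro i
          have hn : S.next 1 i = i := by
            apply (S.next 1).injective
            rw [← S.next_mul, one_mul]
          refine ⟨?_, hn⟩
          have := S.coc_mul 1 1 i
          rw [one_mul, hn] at this
          simpa using this
        simp [fun i => (h i).1, Der.map_one]
      map_add' := fun g g' => by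
        rw [toMul_add]
        simp only [S.coc_mul, Der.map_mul c, smul_add, smul_smul, S.weight_rel,
          Finset.sum_add_distrib]
        congr 1
        exact Fintype.sum_equiv (S.next g.toMul) _ _ fun i => rfl }
  map_add' c d := AddMonoidHom.ext fun g => by
    show ∑ i, S.weight i • ((c : Γ → A) (S.coc g.toMul i) + (d : Γ → A) (S.coc g.toMul i)) =
      (∑ i, S.weight i • (c : Γ → A) (S.coc g.toMul i)) +
        ∑ i, S.weight i • (d : Γ → A) (S.coc g.toMul i)
    simp [smul_add, Finset.sum_add_distrib]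
  map_smul' r c := AddMonoidHom.ext fun g => by
    show ∑ i, S.weight i • (r • (c : Γ → A) (S.coc g.toMul i)) =
      r • ∑ i, S.weight i • (c : Γ → A) (S.coc g.toMul i)
    simp [Finset.smul_sum, smul_comm r]

theorem op_apply (c : Der ε A) (g : Γ') :
    S.op c (Additive.ofMul g) = ∑ i, S.weight i • (c : Γ → A) (S.coc g i) := rfl

theorem op_cobound (a : A) : S.op (cobound ε A a) = 0 := by
  refine AddMonoidHom.ext fun g => ?_
  obtain ⟨g, rfl⟩ := Additive.ofMul.surjective g
  rw [op_apply]
  simp only [cobound_apply, smul_sub, smul_smul, S.weight_rel, Finset.sum_sub_distrib]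
  rw [Equiv.sum_comp (S.next g) fun i => S.weight i • a, sub_self, AddMonoidHom.zero_apply]

/-- Precompose with a coset system at the source. -/
def pre {κ : Type*} (S' : CosetSystem ε κ) : TwSystem ε Γ' (κ × ι) where
  mat x := S'.mat x.1 * S.mat x.2
  weight x := S.weight x.2 * S'.weight x.1
  next g :=
    { toFun := fun x => (S'.next (S.coc g x.2) x.1, S.next g x.2)
      invFun := fun y =>
        ((S'.next (S.coc g ((S.next g).symm y.2))).symm y.1, (S.next g).symm y.2)
      left_inv := fun x => by simp
      right_inv := fun y => by simp }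
  coc g x := S'.coc (S.coc g x.2) x.1
  next_mul g h x := by
    show ((S'.next (S.coc (g * h) x.2) x.1, S.next (g * h) x.2) : κ × ι) = _
    rw [S.coc_mul, S'.next_mul, S.next_mul]
    rfl
  coc_mul g h x := by
    show S'.coc (S.coc (g * h) x.2) x.1 = _
    rw [S.coc_mul, S'.coc_mul]
    rfl
  rel g x := by
    show matOf (S'.coc (S.coc g x.2) x.1) *
      (S'.mat (S'.next (S.coc g x.2) x.1) * S.mat (S.next g x.2)) = S'.mat x.1 * S.mat x.2 * matOf g
    rw [← mul_assoc, S'.rel, mul_assoc, S.rel, mul_assoc]
  weight_rel g x := by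
    show S.weight x.2 * S'.weight x.1 * (ε (S'.coc (S.coc g x.2) x.1) : R) =
      S.weight (S.next g x.2) * S'.weight (S'.next (S.coc g x.2) x.1)
    rw [mul_assoc, S'.weight_rel, ← mul_assoc, S.weight_rel]

theorem op_pre {κ : Type*} [Fintype κ] (S' : CosetSystem ε κ) (c : Der ε A) :
    S.op (S'.op c) = (S.pre S').op c := by
  refine AddMonoidHom.ext fun g => ?_
  obtain ⟨g, rfl⟩ := Additive.ofMul.surjective g
  simp only [op_apply, CosetSystem.op_apply, Finset.smul_sum, smul_smul, pre]
  rw [Fintype.sum_prod_type_right]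

/-- Postcompose with an unweighted family at the target. -/
def post {κ : Type*} (m : κ → Matrix (Fin 2) (Fin 2) ℤ) (nx : Γ' → Equiv.Perm κ)
    (cc : Γ' → κ → Γ') (hnx : ∀ g h i, nx (g * h) i = nx h (nx g i))
    (hcc : ∀ g h i, cc (g * h) i = cc g i * cc h (nx g i))
    (hrel : ∀ g i, matOf (cc g i) * m (nx g i) = m i * matOf g) : TwSystem ε Γ' (ι × κ) where
  mat x := S.mat x.1 * m x.2
  weight x := S.weight x.1
  next g :=
    { toFun := fun x => (S.next (cc g x.2) x.1, nx g x.2)
      invFun := fun y => ((S.next (cc g ((nx g).symm y.2))).symm y.1, (nx g).symm y.2)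
      left_inv := fun x => by simp
      right_inv := fun y => by simp }
  coc g x := S.coc (cc g x.2) x.1
  next_mul g h x := by
    show ((S.next (cc (g * h) x.2) x.1, nx (g * h) x.2) : ι × κ) = _
    rw [hcc, S.next_mul, hnx]
    rfl
  coc_mul g h x := by
    show S.coc (cc (g * h) x.2) x.1 = _
    rw [hcc, S.coc_mul]
    rfl
  rel g x := by
    show matOf (S.coc (cc g x.2) x.1) * (S.mat (S.next (cc g x.2) x.1) * m (nx g x.2)) =
      S.mat x.1 * m x.2 * matOf g
    rw [← mul_assoc, S.rel, mul_assoc, hrel, mul_assoc]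
  weight_rel g x := S.weight_rel _ _

/-- Two systems representing the same cosets, with weights differing by a factor `r`. -/
theorem op_eq_smul_of_reps {ι' : Type*} [Fintype ι'] (S' : TwSystem ε Γ' ι')
    (hcancel : ∀ (i j : ι) (a b : Γ), matOf a * S.mat i = matOf b * S.mat j → i = j ∧ a = b)
    (π : ι' ≃ ι) (u : ι' → Γ) (hmat : ∀ i, S'.mat i = matOf (u i) * S.mat (π i)) (r : R)
    (hw : ∀ i, S'.weight i * (ε (u i) : R) * r = S.weight (π i)) (c : Der ε A) :
    r • S'.op c = S.op c := by
  refine AddMonoidHom.ext fun g => ?_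
  obtain ⟨g, rfl⟩ := Additive.ofMul.surjective g
  rw [AddMonoidHom.smul_apply, op_apply, op_apply]
  have key : ∀ i, S'.coc g i * u (S'.next g i) = u i * S.coc g (π i) := fun i =>
    (hcancel (π (S'.next g i)) (S.next g (π i))
      (S'.coc g i * u (S'.next g i)) (u i * S.coc g (π i)) (by
        rw [matOf_mul, matOf_mul, mul_assoc, ← hmat, S'.rel, hmat, mul_assoc, mul_assoc, S.rel])).2
  have hc : ∀ i, r • (S'.weight i • (c : Γ → A) (S'.coc g i)) =
      (r * S'.weight i) • (c : Γ → A) (u i) + S.weight (π i) • (c : Γ → A) (S.coc g (π i)) -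
        (r * S'.weight (S'.next g i)) • (c : Γ → A) (u (S'.next g i)) := by
    intro i
    have h := congrArg (fun x => (r * S'.weight i) • (c : Γ → A) x) (key i)
    simp only [Der.map_mul c, smul_add, smul_smul] at h
    rw [mul_assoc, S'.weight_rel, mul_comm r (S'.weight i), mul_assoc (S'.weight i),
      mul_comm r (ε (u i) : R), ← mul_assoc, hw, mul_comm (S'.weight i) r, ← smul_smul] at h
    exact eq_sub_of_add_eq h
  rw [Finset.smul_sum, Finset.sum_congr rfl fun i _ => hc i, Finset.sum_sub_distrib,
    Finset.sum_add_distrib, π.sum_comp fun i => S.weight i • (c : Γ → A) (S.coc g i),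
    Equiv.sum_comp (S'.next g) fun i => (r * S'.weight i) • (c : Γ → A) (u i)]
  abel

end TwSystem

end Fermat.Agent.TW.Mod
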