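/-
The twist `c ↦ ∑ᵤ η(u) c|[[q,u],[0,q]]` from derivations of `Γ₀(Nq)` twisted by `η²` to
homomorphisms of `Γ₀(Nq²)` (owner: helper87).
-/
import Fermat.Agent.TW.Mod.TwSystem
import Fermat.Agent.TW.Mod.Hecke

set_option autoImplicit false

namespace Fermat.Agent.TW.Mod

open CongruenceSubgroup Fermat.Agent.HK
open scoped MatrixGroups

variable {N q : ℕ} {R : Type*} [CommRing R]

variable (N) in
/-- The character `d ↦ η(d mod q)²` on `(ℤ/Nqℤ)ˣ`. -/
def sqTwistChar (η : (ZMod q)ˣ →* Rˣ) : (ZMod (N * q))ˣ →* Rˣ :=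
  (η.comp (ZMod.unitsMap (dvd_mul_left q N))) ^ 2

theorem sqTwistChar_apply (η : (ZMod q)ˣ →* Rˣ) (u : (ZMod (N * q))ˣ) :
    sqTwistChar N η u = η (ZMod.unitsMap (dvd_mul_left q N) u) ^ 2 := rfl

/-- `[[q, u], [0, q]]`. -/
def twistMat (u : (ZMod q)ˣ) : Matrix (Fin 2) (Fin 2) ℤ :=
  !![(q : ℤ), ((u : ZMod q).val : ℤ); 0, (q : ℤ)]

section Def

variable [hq : Fact q.Prime]

/-- The unit `d mod q` of an element of `Γ₀(Nqq)`. -/
def dUnit (g : Gamma0 (N * q * q)) : (ZMod q)ˣ :=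
  ZMod.unitsMap (dvd_mul_left q (N * q)) ((Gamma0Map (N * q * q)).toHomUnits g)

theorem coe_dUnit (g : Gamma0 (N * q * q)) :
    ((dUnit g : (ZMod q)ˣ) : ZMod q) = ((matOf g 1 1 : ℤ) : ZMod q) := by
  show ZMod.castHom (dvd_mul_left q (N * q)) (ZMod q) (((matOf g 1 1 : ℤ) : ZMod (N * q * q))) = _
  rw [map_intCast]

theorem dUnit_mul (g h : Gamma0 (N * q * q)) : dUnit (g * h) = dUnit g * dUnit h := by
  simp [dUnit]

theorem matOf_dvd (g : Gamma0 (N * q * q)) : ∃ k : ℤ, matOf g 1 0 = (N : ℤ) * q * q * k := by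
  obtain ⟨k, hk⟩ := (ZMod.intCast_zmod_eq_zero_iff_dvd _ _).1 (Gamma0_mem.mp g.2)
  exact ⟨k, by simpa [matOf] using hk⟩

/-- The permutation `u ↦ u d²`. -/
def twistNext (g : Gamma0 (N * q * q)) : Equiv.Perm (ZMod q)ˣ :=
  Equiv.mulRight (dUnit g ^ 2)

theorem exists_twistCoc (g : Gamma0 (N * q * q)) (u : (ZMod q)ˣ) :
    ∃ γ : Gamma0 (N * q), matOf γ * twistMat (twistNext g u) = twistMat u * matOf g := by
  obtain ⟨k, hk⟩ := matOf_dvd g
  have hdet : (matOf g).det = 1 := (g : SL(2, ℤ)).det_coe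
  rw [Matrix.det_fin_two, hk] at hdet
  set a := matOf g 0 0
  set b := matOf g 0 1
  set d := matOf g 1 1
  set x : ℤ := ((u : ZMod q).val : ℤ)
  set x' : ℤ := (((twistNext g u : (ZMod q)ˣ) : ZMod q).val : ℤ)
  have had : ((a : ℤ) : ZMod q) * ((d : ℤ) : ZMod q) = 1 := by
    have := congrArg (fun z : ℤ => (z : ZMod q)) hdet
    push_cast at this
    rw [ZMod.natCast_self] at this
    simpa using this
  obtain ⟨m, hm⟩ : (q : ℤ) ∣ x * d - x' * a := by
    rw [← ZMod.intCast_zmod_eq_zero_iff_dvd]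
    haveI : NeZero q := ⟨hq.out.ne_zero⟩
    push_cast
    simp only [x, x', Int.cast_natCast, ZMod.natCast_zmod_val]
    show (u : ZMod q) * _ - ((u * dUnit g ^ 2 : (ZMod q)ˣ) : ZMod q) * _ = 0
    rw [Units.val_mul, Units.val_pow_eq_pow_val, coe_dUnit]
    linear_combination (-(u : ZMod q) * ((d : ℤ) : ZMod q)) * had
  let X : Matrix (Fin 2) (Fin 2) ℤ :=
    !![a + x * N * q * k, b + m - x * x' * N * k; (N : ℤ) * q * q * k, d - x' * N * q * k]
  have hX : X.det = 1 := by
    rw [Matrix.det_fin_two_of]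
    linear_combination hdet + ((N : ℤ) * q * k) * hm
  refine ⟨⟨⟨X, hX⟩, Gamma0_mem.mpr ?_⟩, ?_⟩
  · show (((N : ℤ) * q * q * k : ℤ) : ZMod (N * q)) = 0
    rw [ZMod.intCast_zmod_eq_zero_iff_dvd]
    exact ⟨(q : ℤ) * k, by push_cast; ring⟩
  · show X * twistMat (twistNext g u) = twistMat u * matOf g
    ext i j
    fin_cases i <;> fin_cases j <;>
      simp [X, twistMat, Matrix.mul_apply, Fin.sum_univ_two, hk, a, b, d, x, x'] at hm ⊢ <;>
      first
        | ring1
        | linear_combination -hm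

theorem twistMat_cancel {a b : Gamma0 (N * q)} {u : (ZMod q)ˣ}
    (h : matOf a * twistMat u = matOf b * twistMat u) : a = b := by
  have hd : (twistMat u).det ≠ 0 := by
    rw [twistMat, Matrix.det_fin_two_of, mul_zero, sub_zero]
    exact mul_ne_zero (by exact_mod_cast hq.out.ne_zero) (by exact_mod_cast hq.out.ne_zero)
  have h' := congrArg (· * (twistMat u).adjugate) h
  simp only [Matrix.mul_assoc, Matrix.mul_adjugate, Matrix.mul_smul, Matrix.mul_one] at h'
  exact Subtype.ext (Subtype.ext (smul_right_injective _ hd h'))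

/-- `γ_u` in `t_u g = γ_u t_{u'}`. -/
noncomputable def twistCoc (g : Gamma0 (N * q * q)) (u : (ZMod q)ˣ) : Gamma0 (N * q) :=
  (exists_twistCoc g u).choose

theorem twistCoc_rel (g : Gamma0 (N * q * q)) (u : (ZMod q)ˣ) :
    matOf (twistCoc g u) * twistMat (twistNext g u) = twistMat u * matOf g :=
  (exists_twistCoc g u).choose_spec

theorem twistNext_mul (g h : Gamma0 (N * q * q)) (u : (ZMod q)ˣ) :
    twistNext (g * h) u = twistNext h (twistNext g u) := by
  simp [twistNext, dUnit_mul, mul_pow, mul_assoc]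

theorem twistCoc_mul (g h : Gamma0 (N * q * q)) (u : (ZMod q)ˣ) :
    twistCoc (g * h) u = twistCoc g u * twistCoc h (twistNext g u) := by
  refine twistMat_cancel (u := twistNext (g * h) u) ?_
  rw [twistCoc_rel, matOf_mul, matOf_mul, twistNext_mul, Matrix.mul_assoc, twistCoc_rel,
    ← Matrix.mul_assoc, ← Matrix.mul_assoc, twistCoc_rel]

theorem twistCoc_dUnit (g : Gamma0 (N * q * q)) (u : (ZMod q)ˣ) :
    ZMod.unitsMap (dvd_mul_left q N) ((Gamma0Map (N * q)).toHomUnits (twistCoc g u)) = dUnit g := by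
  refine Units.ext ?_
  have hl : ((ZMod.unitsMap (dvd_mul_left q N) ((Gamma0Map (N * q)).toHomUnits (twistCoc g u)) :
      (ZMod q)ˣ) : ZMod q) = ((matOf (twistCoc g u) 1 1 : ℤ) : ZMod q) := by
    show ZMod.castHom (dvd_mul_left q N) (ZMod q) ((matOf (twistCoc g u) 1 1 : ℤ) : ZMod (N * q)) = _
    rw [map_intCast]
  rw [hl, coe_dUnit]
  obtain ⟨k, hk⟩ := matOf_dvd g
  have e10 := congrFun (congrFun (twistCoc_rel g u) 1) 0
  have e11 := congrFun (congrFun (twistCoc_rel g u) 1) 1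
  simp [twistMat, Matrix.mul_apply, Fin.sum_univ_two, hk, -ZMod.natCast_val] at e10 e11
  have hq0 : (q : ℤ) ≠ 0 := by exact_mod_cast hq.out.ne_zero
  set x' : ℤ := (((twistNext g u : (ZMod q)ˣ) : ZMod q).val : ℤ)
  set G := matOf (twistCoc g u)
  have h1 : G 1 0 = (N : ℤ) * q * q * k := mul_right_cancel₀ hq0 (by linear_combination e10)
  have h2 : G 1 1 = matOf g 1 1 - x' * N * q * k :=
    mul_right_cancel₀ hq0 (by rw [h1] at e11; linear_combination e11)
  rw [h2]
  push_cast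
  simp

variable (η : (ZMod q)ˣ →* Rˣ)

variable (N) in
/-- The coset system of the twist by `η`. -/
noncomputable def twistSystem :
    TwSystem (epsOf (sqTwistChar N η)) (Gamma0 (N * q * q)) (ZMod q)ˣ where
  mat := twistMat
  weight u := (η u : R)
  next := twistNext
  coc := twistCoc
  next_mul := twistNext_mul
  coc_mul := twistCoc_mul
  rel := twistCoc_rel
  weight_rel g u := by
    rw [epsOf_apply, sqTwistChar_apply, twistCoc_dUnit, ← Units.val_mul]
    congr 1
    simp [twistNext, map_mul, map_pow]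

variable (N) (A : Type*) [AddCommGroup A] [Module R A]

/-- The twist map. -/
noncomputable def twistHom :
    Der (epsOf (sqTwistChar N η)) A →ₗ[R] (Additive (Gamma0 (N * q * q)) →+ A) :=
  (twistSystem N η).op

/-- The twist map on `H¹`. -/
noncomputable def twistH1 :
    H1 (epsOf (sqTwistChar N η)) A →ₗ[R] (Additive (Gamma0 (N * q * q)) →+ A) :=
  Submodule.liftQ _ (twistHom N η A) (by
    rintro _ ⟨a, rfl⟩
    exact (twistSystem N η).op_cobound a)

@[simp] theorem twistH1_mk (c : Der (epsOf (sqTwistChar N η)) A) :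
    twistH1 N η A (Submodule.Quotient.mk c) = twistHom N η A c := rfl

end Def

end Fermat.Agent.TW.Mod
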