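/-
The twist by the trivial character modulo `p` and its kernel on non-Eisenstein eigen vectors
(owner: helper87).
-/
import Fermat.Agent.TW.Mod.Twist
import Fermat.Agent.TW.Mod.Degen
import Fermat.Agent.CongMod.Glue

set_option autoImplicit false

noncomputable section

namespace Fermat.Agent.TW.Mod

open CongruenceSubgroup
open Fermat.Agent.HK (heckeHom heckeHom_apply HeckeIdx heckeMat heckeCoc heckeNext
  heckeNext_heckeCoc_eq)
open Fermat.Agent.LR (Hom1 res res₂ atkin inclGamma0 deltaGamma0)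
open scoped MatrixGroups

variable {N q : ℕ} [hq : Fact q.Prime]

section Identity

variable {R : Type*} [CommRing R] {A : Type*} [AddCommGroup A] [Module R A]

/-- The index of `[[1, x], [0, q]]`. -/
def upIdx (M : ℕ) (x : ZMod q) : HeckeIdx M q :=
  haveI : NeZero q := ⟨hq.out.ne_zero⟩
  HeckeIdx.upper M ⟨x.val, x.val_lt⟩

theorem heckeCoc_delta_unit (g : Gamma0 (N * q * q)) (u : (ZMod q)ˣ) :
    heckeCoc (deltaGamma0 (N * q) q g) (upIdx (N * q) (u : ZMod q)) = twistCoc g u := by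
  haveI : NeZero q := ⟨hq.out.ne_zero⟩
  refine (heckeNext_heckeCoc_eq
    (i' := upIdx (N * q) ((twistNext g u : (ZMod q)ˣ) : ZMod q)) ?_).2
  refine CongMod.mul_left_cancel_diag hq.out.ne_zero ?_
  show matOf (twistCoc g u) * heckeMat (upIdx (N * q) ((twistNext g u : (ZMod q)ˣ) : ZMod q)) *
      LR.diagMat q = heckeMat (upIdx (N * q) (u : ZMod q)) *
      matOf (deltaGamma0 (N * q) q g) * LR.diagMat q
  have hmat : ∀ v : (ZMod q)ˣ,
      heckeMat (upIdx (N * q) (v : ZMod q)) * LR.diagMat q = twistMat v := fun v => by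
    ext i j
    fin_cases i <;> fin_cases j <;>
      simp [upIdx, LR.diagMat, twistMat, Matrix.mul_apply, Fin.sum_univ_two]
  have hδ : matOf (deltaGamma0 (N * q) q g) * LR.diagMat q = LR.diagMat q * matOf g :=
    CongMod.matOf_deltaGamma0 g
  rw [Matrix.mul_assoc, hmat, Matrix.mul_assoc, hδ, ← Matrix.mul_assoc, hmat]
  exact twistCoc_rel g u

theorem heckeCoc_delta_zero (g : Gamma0 (N * q * q)) :
    heckeCoc (deltaGamma0 (N * q) q g) (upIdx (N * q) (0 : ZMod q)) = inclGamma0 (N * q) q g := by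
  haveI : NeZero q := ⟨hq.out.ne_zero⟩
  refine (heckeNext_heckeCoc_eq (i' := upIdx (N * q) (0 : ZMod q)) ?_).2
  have hc := LR.lowerLeft_eq_mul (N * q) q g
  ext i j
  fin_cases i <;> fin_cases j <;>
    simp [upIdx, deltaGamma0, LR.deltaSL, inclGamma0, Subgroup.coe_inclusion, Matrix.mul_apply,
      Fin.sum_univ_two] <;>
    first
      | ring1
      | linear_combination hc

/-- With trivial weights the twist is `res₂ U_q - res`. -/
theorem sum_twistCoc_eq (φ : Hom1 (N * q) A) (g : Gamma0 (N * q * q)) :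
    ∑ u : (ZMod q)ˣ, φ (Additive.ofMul (twistCoc g u)) =
      res₂ (N * q) q (heckeHom (N * q) q R A φ) (Additive.ofMul g) -
        res (N * q) q φ (Additive.ofMul g) := by
  classical
  haveI : NeZero q := ⟨hq.out.ne_zero⟩
  have hs : ∀ i : HeckeIdx (N * q) q, i.1.isSome := fun i => i.2 (dvd_mul_left q N)
  let e : ZMod q ≃ HeckeIdx (N * q) q :=
    { toFun := fun x => upIdx (N * q) x
      invFun := fun i => ((i.1.get (hs i) : Fin q) : ℕ)
      left_inv := fun x => by simp [upIdx, HeckeIdx.upper]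
      right_inv := fun i => by
        obtain ⟨_ | j, hi⟩ := i
        · simpa using hi (dvd_mul_left q N)
        · exact Subtype.ext (congrArg some (Fin.ext (ZMod.val_cast_of_lt j.isLt))) }
  rw [LR.res₂_apply, LR.res_apply, heckeHom_apply, ← e.sum_comp,
    ← Finset.add_sum_erase _ _ (Finset.mem_univ (0 : ZMod q)),
    show e 0 = upIdx (N * q) (0 : ZMod q) from rfl, heckeCoc_delta_zero, add_sub_cancel_left]
  refine Finset.sum_bij' (fun u _ => (u : ZMod q))
    (fun x hx => Units.mk0 x (Finset.ne_of_mem_erase hx)) (fun u _ => by simp) (fun x _ => by simp)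
    (fun u _ => Units.ext rfl) (fun x _ => rfl) fun u _ => ?_
  show φ _ = φ (Additive.ofMul (heckeCoc _ (upIdx (N * q) (u : ZMod q))))
  rw [heckeCoc_delta_unit]

end Identity

section Eisenstein

/-- `d mod q` as a homomorphism. -/
def dModHom (N q : ℕ) : Gamma0 (N * q) →* (ZMod q)ˣ :=
  (ZMod.unitsMap (dvd_mul_left q N)).comp (Gamma0Map (N * q)).toHomUnits

theorem coe_dModHom (g : Gamma0 (N * q)) :
    ((dModHom N q g : (ZMod q)ˣ) : ZMod q) = ((matOf g 1 1 : ℤ) : ZMod q) := by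
  show ZMod.castHom (dvd_mul_left q N) (ZMod q) ((matOf g 1 1 : ℤ) : ZMod (N * q)) = _
  rw [map_intCast]

variable {k : Type*} [Field k] {ℓ : ℕ} [hl : Fact ℓ.Prime]

/-- A homomorphism depending only on `d mod q` is Eisenstein. -/
theorem heckeHom_of_dMod (hℓ : ¬ ℓ ∣ N * q) (ψ : Hom1 (N * q) k)
    (hψ : ∀ m : Gamma0 (N * q), ((matOf m 1 1 : ℤ) : ZMod q) = 1 → ψ (Additive.ofMul m) = 0) :
    heckeHom (N * q) ℓ k k ψ = ((ℓ : k) + 1) • ψ := by
  classical
  refine AddMonoidHom.ext fun g => ?_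
  obtain ⟨g, rfl⟩ := Additive.ofMul.surjective g
  rw [heckeHom_apply, AddMonoidHom.smul_apply, smul_eq_mul]
  have hker : ∀ a b, dModHom N q a = dModHom N q b →
      ψ (Additive.ofMul a) = ψ (Additive.ofMul b) := by
    intro a b hab
    have h1 : ((matOf (a * b⁻¹) 1 1 : ℤ) : ZMod q) = 1 := by
      rw [← coe_dModHom, map_mul, map_inv, hab, mul_inv_cancel, Units.val_one]
    have := hψ _ h1
    rw [ofMul_mul, ofMul_inv, map_add, map_neg, ← sub_eq_add_neg, sub_eq_zero] at this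
    exact this
  have key : ∀ s : Finset (HeckeIdx (N * q) ℓ), ∃ h : Gamma0 (N * q),
      ψ (Additive.ofMul h) = ∑ i ∈ s, ψ (Additive.ofMul (heckeCoc g i)) ∧
        dModHom N q h = ∏ i ∈ s, dModHom N q (heckeCoc g i) := by
    intro s
    induction s using Finset.induction_on with
    | empty => exact ⟨1, by simp, by simp⟩
    | @insert i s his ih =>
      obtain ⟨h, h1, h2⟩ := ih
      refine ⟨heckeCoc g i * h, ?_, ?_⟩
      · rw [Finset.sum_insert his, ofMul_mul, map_add, h1]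
      · rw [Finset.prod_insert his, map_mul, h2]
  obtain ⟨h, h1, h2⟩ := key Finset.univ
  rw [← h1]
  let χ : (ZMod (N * q))ˣ →* (ZMod q)ˣ := ZMod.unitsMap (dvd_mul_left q N)
  have hw : ∀ i : HeckeIdx (N * q) ℓ, IsUnit (heckeWeight χ i) := fun i => by
    refine HeckeIdx.cases_upper_diag (fun j => ?_) (fun hM => ?_) i
    · rw [heckeWeight_upper]; exact isUnit_one
    · rw [heckeWeight_diag]; exact Units.isUnit _
  have hd : ∀ γ : Gamma0 (N * q), ((dModHom N q γ : (ZMod q)ˣ) : ZMod q) =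
      ((epsOf χ γ : (ZMod q)ˣ) : ZMod q) := fun γ => rfl
  have hprod : dModHom N q h = dModHom N q g ^ (ℓ + 1) := by
    refine Units.ext ?_
    have hrel := Finset.prod_congr (s₁ := Finset.univ) rfl
      fun (i : HeckeIdx (N * q) ℓ) (_ : i ∈ Finset.univ) => heckeWeight_rel χ g i
    rw [Finset.prod_mul_distrib, Finset.prod_mul_distrib,
      show ∏ x, heckeWeight χ (heckeNext g x) = ∏ x : HeckeIdx (N * q) ℓ, heckeWeight χ x from
        Equiv.prod_comp (Fermat.Agent.HK.heckePerm g) (heckeWeight χ), Finset.prod_const,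
      Finset.card_univ, mul_comm] at hrel
    have hcard : Fintype.card (HeckeIdx (N * q) ℓ) = ℓ + 1 := by
      rw [Fintype.card_congr (Equiv.subtypeUnivEquiv fun _ h => absurd h hℓ : HeckeIdx (N * q) ℓ ≃ _),
        Fintype.card_option, Fintype.card_fin]
    have hu : IsUnit (∏ i : HeckeIdx (N * q) ℓ, heckeWeight χ i) := IsUnit.prod_univ_iff.2 hw
    rw [h2, Units.coe_prod, Units.val_pow_eq_pow_val, ← hcard]
    simp only [hd]
    exact hu.mul_right_cancel hrel
  rw [hker h (g ^ (ℓ + 1)) (by rw [map_pow, hprod]), ofMul_pow, map_nsmul, nsmul_eq_mul]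
  push_cast
  rfl

end Eisenstein

section Kernel

variable [NeZero N] {k : Type*} [Field k] {p : ℕ} [hp : Fact p.Prime]

/-- A Hecke eigen vector killed by the trivial twist comes from level `N`, with `res = α res₂`. -/
theorem exists_res₂_of_twist_eq_zero (hp2 : p ≠ 2) (hpq : p ≠ q) (hqN : q.Coprime N)
    (hk : ∀ a : k, p • a = 0) (hq1 : (q : k) = 1) (φ : Hom1 (N * q) k)
    (htw : ∀ g, ∑ u : (ZMod q)ˣ, φ (Additive.ofMul (twistCoc g u)) = 0)
    {ℓ : ℕ} [hl : Fact ℓ.Prime] (hℓ : ¬ ℓ ∣ N * q) {c : k} (hT : heckeHom (N * q) ℓ k k φ = c • φ)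
    (hc : c ≠ (ℓ : k) + 1) {α : k} (hU : heckeHom (N * q) q k k φ = α • φ) :
    ∃ w : Hom1 N k, φ = res₂ N q w ∧ res N q w = α • res₂ N q w := by
  haveI : NeZero q := ⟨hq.out.ne_zero⟩
  have hres₂ : ∀ (x : k) (w : Hom1 N k), res₂ N q (x • w) = x • res₂ N q w := fun x w => rfl
  have hrel : res (N * q) q (-φ) + res₂ (N * q) q (heckeHom (N * q) q k k φ) = 0 := by
    refine AddMonoidHom.ext fun g => ?_
    obtain ⟨g, rfl⟩ := Additive.ofMul.surjective g
    rw [AddMonoidHom.add_apply, map_neg, AddMonoidHom.neg_apply, neg_add_eq_sub,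
      ← sum_twistCoc_eq (R := k), htw g]
    rfl
  obtain ⟨w, -, hw⟩ := CongMod.exists_glue hp2 hpq ((hq.out.coprime_iff_not_dvd).1 hqN) hk _ _ hrel
  have hψ : ∀ m : Gamma0 (N * q), ((matOf m 1 1 : ℤ) : ZMod q) = 1 →
      (φ - res₂ N q w) (Additive.ofMul m) = 0 := fun m hm => by
    have := (hw m hm).1
    rw [AddMonoidHom.add_apply, AddMonoidHom.neg_apply] at this
    rw [AddMonoidHom.sub_apply, ← neg_eq_zero, neg_sub, sub_eq_add_neg, add_comm]
    exact this
  have hE := heckeHom_of_dMod hℓ (φ - res₂ N q w) hψ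
  have hℓq : ℓ.Coprime q := hl.out.coprime_iff_not_dvd.2 fun h => hℓ (h.mul_left N)
  rw [map_sub, hT, LR.heckeHom_res₂ N q hℓq, smul_sub, sub_eq_sub_iff_add_eq_add,
    ← hres₂] at hE
  have hc' : c - ((ℓ : k) + 1) ≠ 0 := sub_ne_zero.2 hc
  set w1 := (c - ((ℓ : k) + 1))⁻¹ • (heckeHom N ℓ k k w - ((ℓ : k) + 1) • w)
  have hφ : φ = res₂ N q w1 := by
    rw [hres₂, map_sub, ← inv_smul_smul₀ hc' φ]
    congr 1
    rw [sub_smul, eq_sub_iff_add_eq]
    rw [sub_add_eq_add_sub, hE]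
    abel
  refine ⟨w1, hφ, ?_⟩
  have h := heckeHom_q_res₂ (R := k) N q hqN w1
  rw [← hφ, hU, hφ] at h
  rw [h]
  refine AddMonoidHom.ext fun g => ?_
  rw [AddMonoidHom.smul_apply, zsmul_eq_mul, Int.cast_natCast, hq1, one_mul]

/-- An eigen vector with `α² ≠ 1` killed by the trivial twist vanishes. -/
theorem eq_zero_of_twist_eq_zero (hp2 : p ≠ 2) (hpq : p ≠ q) (hqN : q.Coprime N)
    (hk : ∀ a : k, p • a = 0) (hq1 : (q : k) = 1) (φ : Hom1 (N * q) k)
    (htw : ∀ g, ∑ u : (ZMod q)ˣ, φ (Additive.ofMul (twistCoc g u)) = 0)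
    {ℓ : ℕ} [hl : Fact ℓ.Prime] (hℓ : ¬ ℓ ∣ N * q) {c : k} (hT : heckeHom (N * q) ℓ k k φ = c • φ)
    (hc : c ≠ (ℓ : k) + 1) {α : k} (hU : heckeHom (N * q) q k k φ = α • φ) (hα : α ^ 2 ≠ 1) :
    φ = 0 := by
  obtain ⟨w, hφ, hw⟩ := exists_res₂_of_twist_eq_zero hp2 hpq hqN hk hq1 φ htw hℓ hT hc hU
  have hatk : ∀ x : Hom1 (N * q) k, atkin N q hqN (α • x) = α • atkin N q hqN x := fun _ => rfl
  have h := congrArg (atkin N q hqN) hw
  rw [LR.atkin_res N q hqN, hatk, LR.atkin_res₂ N q hqN, hw, smul_smul, ← sq] at h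
  have h0 : (α ^ 2 - 1) • res₂ N q w = 0 := by rw [sub_smul, one_smul, ← h, sub_self]
  rw [hφ]
  exact (smul_eq_zero.1 h0).resolve_left (sub_ne_zero.2 hα)

end Kernel

end Fermat.Agent.TW.Mod
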