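/-
Reduction of twisted `H¹` along a ring map killing the character (owner: helper87).
-/
import Fermat.Agent.TW.Mod.Hecke
import Fermat.Agent.LR.Degeneracy

set_option autoImplicit false

noncomputable section

namespace Fermat.Agent.TW.Mod

open CongruenceSubgroup
open Fermat.Agent.HK (heckeHom heckeHom_apply HeckeIdx heckeCoc)
open Fermat.Agent.LR (Hom1)

variable {M : ℕ} {R : Type*} [CommRing R] (χ : (ZMod M)ˣ →* Rˣ)
variable {k : Type*} [CommRing k] (f : R →+* k) (hf : ∀ u, f (χ u : R) = 1)

/-- A derivation pushed along `f`. -/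
def redDer (c : Der (epsOf χ) R) : Hom1 M k where
  toFun g := f ((c : Gamma0 M → R) g.toMul)
  map_zero' := by rw [toMul_zero, Der.map_one, map_zero]
  map_add' g g' := by
    rw [toMul_add, Der.map_mul c, smul_eq_mul, map_add, map_mul, epsOf_apply, hf, one_mul]

/-- Reduction of classes along `f`. -/
def redMap : H1 (epsOf χ) R →+ Hom1 M k where
  toFun x := Quotient.liftOn' x (redDer χ f hf) fun c d hcd => by
    rw [Submodule.quotientRel_def] at hcd
    obtain ⟨a, ha⟩ := hcd
    refine AddMonoidHom.ext fun g => ?_
    obtain ⟨g, rfl⟩ := Additive.ofMul.surjective g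
    show f ((c : Gamma0 M → R) g) = f ((d : Gamma0 M → R) g)
    rw [← sub_eq_zero, ← map_sub]
    have := congrFun (congrArg Subtype.val ha) g
    rw [cobound_apply] at this
    rw [show (c : Gamma0 M → R) g - (d : Gamma0 M → R) g =
        ((c - d : Der (epsOf χ) R) : Gamma0 M → R) g from rfl, ← this, smul_eq_mul, map_sub,
      map_mul, epsOf_apply, hf, one_mul, sub_self]
  map_zero' := by
    refine AddMonoidHom.ext fun g => ?_
    exact map_zero f
  map_add' x y := by
    induction x using Submodule.Quotient.induction_on with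
    | _ c =>
      induction y using Submodule.Quotient.induction_on with
      | _ d =>
        refine AddMonoidHom.ext fun g => ?_
        exact map_add f _ _

theorem redMap_mk (c : Der (epsOf χ) R) (g : Gamma0 M) :
    redMap χ f hf (Submodule.Quotient.mk c) (Additive.ofMul g) = f ((c : Gamma0 M → R) g) := rfl

theorem redMap_smul (r : R) (x : H1 (epsOf χ) R) :
    redMap χ f hf (r • x) = f r • redMap χ f hf x := by
  induction x using Submodule.Quotient.induction_on with
  | _ c =>
    refine AddMonoidHom.ext fun g => ?_
    obtain ⟨g, rfl⟩ := Additive.ofMul.surjective g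
    exact map_mul f r _

theorem redMap_h1T (ℓ : ℕ) [Fact ℓ.Prime] (x : H1 (epsOf χ) R) :
    redMap χ f hf (h1T χ R ℓ x) = heckeHom M ℓ k k (redMap χ f hf x) := by
  induction x using Submodule.Quotient.induction_on with
  | _ c =>
    refine AddMonoidHom.ext fun g => ?_
    obtain ⟨g, rfl⟩ := Additive.ofMul.surjective g
    rw [h1T_mk, redMap_mk, heckeHom_apply]
    show f (∑ j : HeckeIdx M ℓ, heckeWeight χ j • (c : Gamma0 M → R) (heckeCoc g j)) = _
    rw [map_sum]
    refine Finset.sum_congr rfl fun j _ => ?_
    rw [smul_eq_mul, map_mul, redMap_mk]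
    induction j using HeckeIdx.cases_upper_diag with
    | h1 i => rw [heckeWeight_upper, map_one, one_mul]
    | h2 hM =>
      rw [heckeWeight_diag, chiPrime]
      split_ifs <;> simp [hf]

end Fermat.Agent.TW.Mod
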