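/-
Coset systems between two levels with characters on both sides: maps between twisted derivations
(owner: helper87).
-/
import Fermat.Agent.TW.Mod.CosetSystem

set_option autoImplicit false

namespace Fermat.Agent.TW.Mod

open scoped MatrixGroups

variable {Γ Γ' : Subgroup SL(2, ℤ)} {R : Type*} [CommRing R]

/-- A finite family of matrices permuted by right multiplication by `Γ'` up to left
multiplication by `Γ`, with weights carrying `ε` to `ε'`. -/
structure PairSystem (ε : Γ →* Rˣ) (ε' : Γ' →* Rˣ) (ι : Type*) where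
  mat : ι → Matrix (Fin 2) (Fin 2) ℤ
  weight : ι → R
  next : Γ' → Equiv.Perm ι
  coc : Γ' → ι → Γ
  next_mul : ∀ g h i, next (g * h) i = next h (next g i)
  coc_mul : ∀ g h i, coc (g * h) i = coc g i * coc h (next g i)
  rel : ∀ g i, matOf (coc g i) * mat (next g i) = mat i * matOf g
  weight_rel : ∀ g i, weight i * (ε (coc g i) : R) = (ε' g : R) * weight (next g i)

variable {ε : Γ →* Rˣ} {ε' : Γ' →* Rˣ} {A B : Type*} [AddCommGroup A] [Module R A]
  [AddCommGroup B] [Module R B]

namespace PairSystem

variable {ι : Type*} [Fintype ι] (S : PairSystem ε ε' ι)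

/-- `c ↦ (g ↦ ∑ᵢ wᵢ c(γᵢ))`. -/
def op : Der ε A →ₗ[R] Der ε' A where
  toFun c := ⟨fun g => ∑ i, S.weight i • (c : Γ → A) (S.coc g i), fun g h => by
    show ∑ i, S.weight i • (c : Γ → A) (S.coc (g * h) i) = _
    simp only [S.coc_mul, Der.map_mul c, smul_add, smul_smul, S.weight_rel,
      Finset.sum_add_distrib, Finset.smul_sum]
    congr 1
    exact Fintype.sum_equiv (S.next g) _ _ fun i => rfl⟩
  map_add' c d := Subtype.ext (funext fun g => by
    show ∑ i, S.weight i • ((c : Γ → A) (S.coc g i) + (d : Γ → A) (S.coc g i)) =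
      (∑ i, S.weight i • (c : Γ → A) (S.coc g i)) + ∑ i, S.weight i • (d : Γ → A) (S.coc g i)
    simp [smul_add, Finset.sum_add_distrib])
  map_smul' r c := Subtype.ext (funext fun g => by
    show ∑ i, S.weight i • (r • (c : Γ → A) (S.coc g i)) =
      r • ∑ i, S.weight i • (c : Γ → A) (S.coc g i)
    simp [Finset.smul_sum, smul_comm r])

theorem op_apply (c : Der ε A) (g : Γ') :
    ((S.op c : Der ε' A) : Γ' → A) g = ∑ i, S.weight i • (c : Γ → A) (S.coc g i) := rfl

/-- The degree. -/
def degree : R := ∑ i, S.weight i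

theorem op_cobound (a : A) : S.op (cobound ε A a) = cobound ε' A (S.degree • a) := by
  ext g
  rw [op_apply, cobound_apply]
  simp only [cobound_apply, smul_sub, smul_smul, S.weight_rel, Finset.sum_sub_distrib,
    degree, ← Finset.sum_smul]
  rw [← Finset.mul_sum, Equiv.sum_comp (S.next g) S.weight, mul_comm]

theorem op_natural (f : A →ₗ[R] B) (c : Der ε A) : Der.map f (S.op c) = S.op (Der.map f c) := by
  ext g
  simp [op_apply]

/-- The map on `H¹`. -/
def opH1 : H1 ε A →ₗ[R] H1 ε' A :=
  Submodule.mapQ _ _ S.op (by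
    rintro _ ⟨a, rfl⟩
    exact ⟨S.degree • a, (S.op_cobound a).symm⟩)

@[simp] theorem opH1_mk (c : Der ε A) :
    S.opH1 (A := A) (Submodule.Quotient.mk c) = Submodule.Quotient.mk (S.op c) := rfl

theorem opH1_natural (f : A →ₗ[R] B) (x : H1 ε A) :
    H1.map f (S.opH1 (A := A) x) = S.opH1 (A := B) (H1.map f x) := by
  induction x using Submodule.Quotient.induction_on with
  | _ c => simp [op_natural]

/-- Precompose with a coset system at the source. -/
def pre {κ : Type*} (S' : CosetSystem ε κ) : PairSystem ε ε' (κ × ι) where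
  mat x := S'.mat x.1 * S.mat x.2
  weight x := S.weight x.2 * S'.weight x.1
  next g :=
    { toFun := fun x => (S'.next (S.coc g x.2) x.1, S.next g x.2)
      invFun := fun y =>
        ((S'.next (S.coc g ((S.next g).symm y.2))).symm y.1, (S.next g).symm y.2)
      left_inv := fun x => by simp
      right_inv := fun y => by simp }
  coc g x := S'.coc (S.coc g x.2) x.1
  next_mul g h x := by
    show ((S'.next (S.coc (g * h) x.2) x.1, S.next (g * h) x.2) : κ × ι) = _
    rw [S.coc_mul, S'.next_mul, S.next_mul]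
    rfl
  coc_mul g h x := by
    show S'.coc (S.coc (g * h) x.2) x.1 = _
    rw [S.coc_mul, S'.coc_mul]
    rfl
  rel g x := by
    show matOf (S'.coc (S.coc g x.2) x.1) *
      (S'.mat (S'.next (S.coc g x.2) x.1) * S.mat (S.next g x.2)) = S'.mat x.1 * S.mat x.2 * matOf g
    rw [← mul_assoc, S'.rel, mul_assoc, S.rel, mul_assoc]
  weight_rel g x := by
    show S.weight x.2 * S'.weight x.1 * (ε (S'.coc (S.coc g x.2) x.1) : R) =
      (ε' g : R) * (S.weight (S.next g x.2) * S'.weight (S'.next (S.coc g x.2) x.1))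
    rw [mul_assoc, S'.weight_rel, ← mul_assoc, S.weight_rel, mul_assoc]

theorem op_pre {κ : Type*} [Fintype κ] (S' : CosetSystem ε κ) (c : Der ε A) :
    S.op (S'.op c) = (S.pre S').op c := by
  ext g
  simp only [op_apply, CosetSystem.op_apply, Finset.smul_sum, smul_smul, pre]
  rw [Fintype.sum_prod_type_right]

/-- Postcompose with a coset system at the target. -/
def post {κ : Type*} (S' : CosetSystem ε' κ) : PairSystem ε ε' (ι × κ) where
  mat x := S.mat x.1 * S'.mat x.2
  weight x := S'.weight x.2 * S.weight x.1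
  next g :=
    { toFun := fun x => (S.next (S'.coc g x.2) x.1, S'.next g x.2)
      invFun := fun y => ((S.next (S'.coc g ((S'.next g).symm y.2))).symm y.1, (S'.next g).symm y.2)
      left_inv := fun x => by simp
      right_inv := fun y => by simp }
  coc g x := S.coc (S'.coc g x.2) x.1
  next_mul g h x := by
    show ((S.next (S'.coc (g * h) x.2) x.1, S'.next (g * h) x.2) : ι × κ) = _
    rw [S'.coc_mul, S.next_mul, S'.next_mul]
    rfl
  coc_mul g h x := by
    show S.coc (S'.coc (g * h) x.2) x.1 = _
    rw [S'.coc_mul, S.coc_mul]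
    rfl
  rel g x := by
    show matOf (S.coc (S'.coc g x.2) x.1) * (S.mat (S.next (S'.coc g x.2) x.1) *
      S'.mat (S'.next g x.2)) = S.mat x.1 * S'.mat x.2 * matOf g
    rw [← mul_assoc, S.rel, mul_assoc, S'.rel, mul_assoc]
  weight_rel g x := by
    show S'.weight x.2 * S.weight x.1 * (ε (S.coc (S'.coc g x.2) x.1) : R) =
      (ε' g : R) * (S'.weight (S'.next g x.2) * S.weight (S.next (S'.coc g x.2) x.1))
    rw [mul_assoc, S.weight_rel, ← mul_assoc, S'.weight_rel, mul_assoc]

theorem op_post {κ : Type*} [Fintype κ] (S' : CosetSystem ε' κ) (c : Der ε A) :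
    S'.op (S.op c) = (S.post S').op c := by
  ext g
  simp only [op_apply, CosetSystem.op_apply, Finset.smul_sum, smul_smul, post]
  rw [Fintype.sum_prod_type_right]

/-- Two systems representing the same cosets, with weights differing by a factor `r`. -/
theorem opH1_eq_smul_of_reps {ι' : Type*} [Fintype ι'] (S' : PairSystem ε ε' ι')
    (hcancel : ∀ (i j : ι) (a b : Γ), matOf a * S.mat i = matOf b * S.mat j → i = j ∧ a = b)
    (π : ι' ≃ ι) (u : ι' → Γ) (hmat : ∀ i, S'.mat i = matOf (u i) * S.mat (π i)) (r : R)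
    (hw : ∀ i, S'.weight i * (ε (u i) : R) * r = S.weight (π i)) (x : H1 ε A) :
    r • S'.opH1 (A := A) x = S.opH1 (A := A) x := by
  induction x using Submodule.Quotient.induction_on with
  | _ c =>
    rw [opH1_mk, opH1_mk, ← Submodule.Quotient.mk_smul, Submodule.Quotient.eq]
    refine ⟨-∑ i, (r * S'.weight i) • (c : Γ → A) (u i), ?_⟩
    ext g
    have key : ∀ i, S'.coc g i * u (S'.next g i) = u i * S.coc g (π i) := fun i =>
      (hcancel (π (S'.next g i)) (S.next g (π i))
        (S'.coc g i * u (S'.next g i)) (u i * S.coc g (π i)) (by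
          rw [matOf_mul, matOf_mul, mul_assoc, ← hmat, S'.rel, hmat, mul_assoc, mul_assoc,
            S.rel])).2
    have hc : ∀ i, r • (S'.weight i • (c : Γ → A) (S'.coc g i)) =
        (r * S'.weight i) • (c : Γ → A) (u i) + S.weight (π i) • (c : Γ → A) (S.coc g (π i)) -
          ((ε' g : R) * (r * S'.weight (S'.next g i))) • (c : Γ → A) (u (S'.next g i)) := by
      intro i
      have h := congrArg (fun y => (r * S'.weight i) • (c : Γ → A) y) (key i)
      simp only [Der.map_mul c, smul_add, smul_smul] at h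
      rw [mul_assoc r, S'.weight_rel, mul_assoc r (S'.weight i), mul_comm r (S'.weight i * _), hw]
        at h
      rw [smul_smul, mul_left_comm (ε' g : R) r]
      exact eq_sub_of_add_eq h
    rw [cobound_apply]
    show _ = r • ((S'.op c : Der ε' A) : Γ' → A) g - ((S.op c : Der ε' A) : Γ' → A) g
    rw [op_apply, op_apply, Finset.smul_sum, Finset.sum_congr rfl fun i _ => hc i,
      Finset.sum_sub_distrib, Finset.sum_add_distrib,
      π.sum_comp fun i => S.weight i • (c : Γ → A) (S.coc g i),
      Equiv.sum_comp (S'.next g) fun i => ((ε' g : R) * (r * S'.weight i)) • (c : Γ → A) (u i)]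
    simp only [smul_neg, mul_smul (ε' g : R), ← Finset.smul_sum]
    abel

end PairSystem

end Fermat.Agent.TW.Mod
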