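/-
The twist intertwines `T_ℓ` with `η(ℓ)⁻¹ T_ℓ` (owner: helper87).
-/
import Fermat.Agent.TW.Mod.Twist
import Fermat.Agent.TW.Mod.HeckeComm

set_option autoImplicit false

namespace Fermat.Agent.TW.Mod

open CongruenceSubgroup Fermat.Agent.HK
open scoped MatrixGroups

variable {N q ℓ : ℕ} [hq : Fact q.Prime] [hl : Fact ℓ.Prime] (hℓq : ℓ ≠ q)
include hℓq

theorem coprime_of_ne : ℓ.Coprime q := (Nat.coprime_primes hl.out hq.out).2 hℓq

theorem dvd_mul_q_iff : ℓ ∣ N * q * q ↔ ℓ ∣ N * q :=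
  ⟨fun h => (coprime_of_ne hℓq).dvd_of_dvd_mul_right h, fun h => h.mul_right q⟩

/-- `ℓ` as a unit mod `q`. -/
def primeUnit : (ZMod q)ˣ := ZMod.unitOfCoprime ℓ (coprime_of_ne hℓq)

/-- The shift of indices when `α_j` moves past `t_u`. -/
noncomputable def twistShift (u' : (ZMod q)ˣ) : ZMod ℓ :=
  -(((u' : ZMod q).val : ℕ) : ZMod ℓ) * (q : ZMod ℓ)⁻¹

/-- Matching of the representatives `t_u α_i` and `α_i' t_u'`. -/
noncomputable def twistHeckeEquiv :
    (ZMod q)ˣ × HeckeIdx (N * q * q) ℓ ≃ HeckeIdx (N * q) ℓ × (ZMod q)ˣ :=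
  haveI : NeZero ℓ := ⟨hl.out.ne_zero⟩
  { toFun := fun x =>
      match x.2 with
      | ⟨some j, _⟩ =>
        (HeckeIdx.upper (N * q)
          ⟨(((j : ℕ) : ZMod ℓ) + twistShift (x.1 * primeUnit hℓq)).val, ZMod.val_lt _⟩,
          x.1 * primeUnit hℓq)
      | ⟨none, h⟩ => (⟨none, fun h' => h ((dvd_mul_q_iff hℓq).2 h')⟩, x.1 * (primeUnit hℓq)⁻¹)
    invFun := fun y =>
      match y.1 with
      | ⟨some j, _⟩ =>
        (y.2 * (primeUnit hℓq)⁻¹, HeckeIdx.upper (N * q * q)
          ⟨(((j : ℕ) : ZMod ℓ) - twistShift y.2).val, ZMod.val_lt _⟩)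
      | ⟨none, h⟩ => (y.2 * primeUnit hℓq, ⟨none, fun h' => h ((dvd_mul_q_iff hℓq).1 h')⟩)
    left_inv := by
      rintro ⟨u, ⟨_ | j, h⟩⟩
      · simp
      · simp only [HeckeIdx.upper, inv_mul_cancel_right, mul_inv_cancel_right, ZMod.natCast_zmod_val,
          add_sub_cancel_right]
        exact Prod.ext rfl (Subtype.ext (congrArg some (Fin.ext (ZMod.val_cast_of_lt j.isLt))))
    right_inv := by
      rintro ⟨⟨_ | j, h⟩, u⟩
      · simp
      · simp only [HeckeIdx.upper, inv_mul_cancel_right, mul_inv_cancel_right, ZMod.natCast_zmod_val,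
          sub_add_cancel]
        exact Prod.ext (Subtype.ext (congrArg some (Fin.ext (ZMod.val_cast_of_lt j.isLt)))) rfl }

theorem exists_twistHecke_uni (x : (ZMod q)ˣ × HeckeIdx (N * q * q) ℓ) :
    ∃ t : ℤ, twistMat x.1 * heckeMat x.2 = matOf (upperUni (N * q) t) *
      (heckeMat (twistHeckeEquiv hℓq x).1 * twistMat (twistHeckeEquiv hℓq x).2) := by
  haveI : NeZero ℓ := ⟨hl.out.ne_zero⟩
  haveI : NeZero q := ⟨hq.out.ne_zero⟩
  have hcop : IsCoprime (q : ℤ) (ℓ : ℤ) :=
    Int.isCoprime_iff_nat_coprime.2 (by simpa using (coprime_of_ne hℓq).symm)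
  have hqℓ : (q : ZMod ℓ) ≠ 0 := by
    intro h0
    rw [← Int.cast_natCast, ZMod.intCast_zmod_eq_zero_iff_dvd, Int.natCast_dvd_natCast] at h0
    exact hℓq ((Nat.prime_dvd_prime_iff_eq hl.out hq.out).1 h0)
  obtain ⟨u, i⟩ := x
  refine HeckeIdx.cases_upper_diag (fun j => ?_) (fun h => ?_) i
  · set u' := u * primeUnit hℓq
    set j' : ZMod ℓ := ((j : ℕ) : ZMod ℓ) + twistShift u'
    have h1 : (q : ℤ) ∣ (q : ℤ) * j + ((u : ZMod q).val : ℤ) * ℓ - ((u' : ZMod q).val : ℤ) -
        (j'.val : ℤ) * q := by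
      rw [← ZMod.intCast_zmod_eq_zero_iff_dvd]
      push_cast
      simp only [ZMod.natCast_self, zero_mul, mul_zero, sub_zero, zero_add, ZMod.natCast_zmod_val]
      simp [u', primeUnit]
    have h2 : (ℓ : ℤ) ∣ (q : ℤ) * j + ((u : ZMod q).val : ℤ) * ℓ - ((u' : ZMod q).val : ℤ) -
        (j'.val : ℤ) * q := by
      rw [← ZMod.intCast_zmod_eq_zero_iff_dvd]
      push_cast
      simp only [ZMod.natCast_self, mul_zero, add_zero, ZMod.natCast_zmod_val, j', twistShift]
      rw [add_mul, mul_assoc, inv_mul_cancel₀ hqℓ, mul_one]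
      ring
    obtain ⟨m, hm⟩ := hcop.mul_dvd h1 h2
    refine ⟨m, ?_⟩
    show twistMat u * heckeMat (HeckeIdx.upper (N * q * q) j) = _ *
      (heckeMat (HeckeIdx.upper (N * q) ⟨j'.val, ZMod.val_lt _⟩) * twistMat u')
    ext a b
    fin_cases a <;> fin_cases b <;>
      simp [twistMat, Matrix.mul_apply, Fin.sum_univ_two, -ZMod.natCast_val] <;>
      first
        | ring1
        | linear_combination hm
        | linear_combination -hm
  · set u' := u * (primeUnit hℓq)⁻¹
    have h1 : (q : ℤ) ∣ ((u : ZMod q).val : ℤ) - (ℓ : ℤ) * ((u' : ZMod q).val : ℤ) := by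
      rw [← ZMod.intCast_zmod_eq_zero_iff_dvd]
      push_cast
      simp only [ZMod.natCast_zmod_val]
      have : (ℓ : ZMod q) = ((primeUnit hℓq : (ZMod q)ˣ) : ZMod q) := by simp [primeUnit]
      rw [this, ← Units.val_mul]
      simp [u', mul_left_comm]
    obtain ⟨m, hm⟩ := h1
    refine ⟨m, ?_⟩
    show twistMat u * heckeMat (HeckeIdx.diag h) = _ *
      (heckeMat (HeckeIdx.diag fun h' => h ((dvd_mul_q_iff hℓq).2 h')) * twistMat u')
    ext a b
    fin_cases a <;> fin_cases b <;>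
      simp [twistMat, Matrix.mul_apply, Fin.sum_univ_two, -ZMod.natCast_val] <;>
      first
        | ring1
        | linear_combination hm

theorem twistHecke_cancel (x y : HeckeIdx (N * q) ℓ × (ZMod q)ˣ) (a b : Gamma0 (N * q))
    (h : matOf a * (heckeMat x.1 * twistMat x.2) = matOf b * (heckeMat y.1 * twistMat y.2)) :
    x = y ∧ a = b := by
  haveI : NeZero q := ⟨hq.out.ne_zero⟩
  have hq0 : (0 : ℤ) < q := by exact_mod_cast hq.out.pos
  have hl0 : (0 : ℤ) < ℓ := by exact_mod_cast hl.out.pos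
  have hq1 : (1 : ℤ) < ℓ := by exact_mod_cast hl.out.one_lt
  have low : ∀ z : HeckeIdx (N * q) ℓ × (ZMod q)ˣ, (heckeMat z.1 * twistMat z.2) 1 0 = 0 := fun z => by
    simp [twistMat, Matrix.mul_apply, Fin.sum_univ_two, heckeMat_one_zero]
  have pos : ∀ z : HeckeIdx (N * q) ℓ × (ZMod q)ˣ, 0 < (heckeMat z.1 * twistMat z.2) 0 0 := fun z => by
    obtain ⟨i, u⟩ := z
    refine HeckeIdx.cases_upper_diag (fun j => ?_) (fun h => ?_) i <;>
      simp [twistMat, Matrix.mul_apply, Fin.sum_univ_two] <;>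
      first
        | exact hq.out.pos
        | exact_mod_cast hq.out.pos
        | exact ⟨hl.out.pos, hq.out.pos⟩
        | positivity
  have hdet : ∀ z : HeckeIdx (N * q) ℓ × (ZMod q)ˣ,
      (heckeMat z.1 * twistMat z.2).det = ((q * q * ℓ : ℕ) : ℤ) := fun z => by
    rw [Matrix.det_mul, det_heckeMat, twistMat, Matrix.det_fin_two_of]
    push_cast
    ring
  have hk := kappa_eq_of_coset (low x) (low y) (pos x) (pos y) (hdet x) h
  have hxy : x = y := by
    obtain ⟨i, u⟩ := x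
    obtain ⟨i', u'⟩ := y
    simp only [kappa, Prod.mk.injEq] at hk
    obtain ⟨ha, hb⟩ := hk
    have hb' := (ZMod.intCast_eq_intCast_iff_dvd_sub _ _ _).1 hb
    revert ha hb'
    refine HeckeIdx.cases_upper_diag (fun j => ?_) (fun hM => ?_) i <;>
      refine HeckeIdx.cases_upper_diag (fun j' => ?_) (fun hM' => ?_) i' <;>
      intro ha hb' <;>
      simp [twistMat, Matrix.mul_apply, Fin.sum_univ_two, -ZMod.natCast_val] at ha hb'
    · have e : (q : ℤ) * ((((u' : ZMod q).val : ℤ) + j' * q) - (((u : ZMod q).val : ℤ) + j * q)) =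
          (q : ℤ) * (((u' : ZMod q).val : ℤ) + j' * q) -
            (q : ℤ) * (((u : ZMod q).val : ℤ) + j * q) := by ring
      rw [← e, show ((q : ℤ) * q * ℓ) = (q : ℤ) * ((q : ℤ) * ℓ) by ring,
        mul_dvd_mul_iff_left hq0.ne'] at hb'
      obtain ⟨t, ht⟩ := hb'
      have := ZMod.val_lt (u : ZMod q); have := ZMod.val_lt (u' : ZMod q)
      have := j.isLt; have := j'.isLt
      have e1 : ((j : ℤ) * q) + q ≤ (ℓ : ℤ) * q := by nlinarith
      have e2 : ((j' : ℤ) * q) + q ≤ (ℓ : ℤ) * q := by nlinarith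
      have : t = 0 := by
        have h1 : -((q : ℤ) * ℓ) < (q : ℤ) * ℓ * t := by nlinarith
        have h2 : (q : ℤ) * ℓ * t < (q : ℤ) * ℓ := by nlinarith
        have : 0 < (q : ℤ) * ℓ := by positivity
        nlinarith
      rw [this, mul_zero] at ht
      have hj : (j : ℤ) = j' := by
        rcases lt_trichotomy (j : ℤ) j' with c | c | c
        · nlinarith
        · exact c
        · nlinarith
      have hu : ((u : ZMod q).val : ℤ) = ((u' : ZMod q).val : ℤ) := by rw [hj] at ht; linarith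
      exact Prod.ext (congrArg (HeckeIdx.upper (N * q)) (Fin.ext (by exact_mod_cast hj)))
        (Units.ext (ZMod.val_injective q (by exact_mod_cast hu)))
    · nlinarith
    · nlinarith
    · have e : (ℓ : ℤ) * q * ((ℓ : ℤ) * (((u' : ZMod q).val : ℤ) - ((u : ZMod q).val : ℤ))) =
          (ℓ : ℤ) * q * ((ℓ : ℤ) * ((u' : ZMod q).val : ℤ)) -
            (ℓ : ℤ) * q * ((ℓ : ℤ) * ((u : ZMod q).val : ℤ)) := by ring
      rw [← e, show ((q : ℤ) * q * ℓ) = (ℓ : ℤ) * q * (q : ℤ) by ring,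
        mul_dvd_mul_iff_left (by positivity)] at hb'
      have hcop : IsCoprime (q : ℤ) (ℓ : ℤ) :=
        Int.isCoprime_iff_nat_coprime.2 (by simpa using (coprime_of_ne hℓq).symm)
      obtain ⟨t, ht⟩ := hcop.dvd_of_dvd_mul_left hb'
      have := ZMod.val_lt (u : ZMod q); have := ZMod.val_lt (u' : ZMod q)
      have : t = 0 := by nlinarith
      rw [this, mul_zero] at ht
      exact Prod.ext rfl (Units.ext (ZMod.val_injective q
        (by exact_mod_cast (show ((u : ZMod q).val : ℤ) = ((u' : ZMod q).val : ℤ) by linarith))))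
  subst hxy
  refine ⟨rfl, ?_⟩
  have hd : (heckeMat x.1 * twistMat x.2).det ≠ 0 := by
    rw [hdet]
    exact_mod_cast mul_ne_zero (mul_ne_zero hq.out.ne_zero hq.out.ne_zero) hl.out.ne_zero
  have h' := congrArg (· * (heckeMat x.1 * twistMat x.2).adjugate) h
  simp only [Matrix.mul_assoc] at h'
  rw [← Matrix.mul_assoc (heckeMat x.1), Matrix.mul_adjugate, Matrix.mul_smul, Matrix.mul_smul,
    Matrix.mul_one, Matrix.mul_one] at h'
  exact Subtype.ext (Subtype.ext (smul_right_injective _ hd h'))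

variable {R : Type*} [CommRing R] (η : (ZMod q)ˣ →* Rˣ) {A : Type*} [AddCommGroup A] [Module R A]

/-- `η(ℓ) T_ℓ ∘ tw = tw ∘ T_ℓ`. -/
theorem twistHom_derT (c : Der (epsOf (sqTwistChar N η)) A) :
    (η (primeUnit hℓq) : R) • heckeHom (N * q * q) ℓ R A (twistHom N η A c) =
      twistHom N η A (derT (sqTwistChar N η) A ℓ c) := by
  classical
  haveI : NeZero q := ⟨hq.out.ne_zero⟩
  let S' := (twistSystem N η).post (heckeMat (N := N * q * q) (p := ℓ)) heckePerm heckeCoc
    (fun g h i => heckeNext_mul g h i) (fun g h i => heckeCoc_mul g h i)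
    (fun g i => heckeCoc_mul_heckeMat g i)
  let S := (twistSystem N η).pre (heckeSystem (sqTwistChar N η) ℓ)
  have hpost : heckeHom (N * q * q) ℓ R A (twistHom N η A c) = S'.op c := by
    refine AddMonoidHom.ext fun g => ?_
    obtain ⟨g, rfl⟩ := Additive.ofMul.surjective g
    rw [heckeHom_apply, TwSystem.op_apply]
    simp only [twistHom, TwSystem.op_apply]
    rw [Fintype.sum_prod_type_right]
    rfl
  rw [hpost, derT, twistHom, TwSystem.op_pre]
  choose t ht using exists_twistHecke_uni (N := N) hℓq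
  refine S.op_eq_smul_of_reps S' (fun x y a b h => twistHecke_cancel hℓq x y a b h)
    (twistHeckeEquiv hℓq) (fun x => upperUni (N * q) (t x)) (fun x => ht x) _ (fun x => ?_) c
  rw [epsOf_upperUni, Units.val_one, mul_one]
  obtain ⟨u, i⟩ := x
  refine HeckeIdx.cases_upper_diag (fun j => ?_) (fun h => ?_) i
  · show (η u : R) * (η (primeUnit hℓq) : R) = (η (u * primeUnit hℓq) : R) * 1
    rw [map_mul, Units.val_mul, mul_one]
  · show (η u : R) * (η (primeUnit hℓq) : R) =
      (η (u * (primeUnit hℓq)⁻¹) : R) * (chiPrime (sqTwistChar N η) ℓ : R)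
    have hc : ℓ.Coprime (N * q) :=
      hl.out.coprime_iff_not_dvd.2 fun h' => h ((dvd_mul_q_iff hℓq).2 h')
    have hu : ZMod.unitsMap (dvd_mul_left q N) (ZMod.unitOfCoprime ℓ hc) = primeUnit hℓq :=
      Units.ext (by simp [primeUnit, ZMod.unitsMap, ZMod.castHom_apply])
    rw [chiPrime, dif_pos hc, sqTwistChar_apply, hu, ← Units.val_mul, ← Units.val_mul]
    congr 1
    rw [map_mul, map_inv, pow_two]
    group

/-- The intertwining on `H¹`. -/
theorem twistH1_h1T (x : H1 (epsOf (sqTwistChar N η)) A) :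
    (η (primeUnit hℓq) : R) • heckeHom (N * q * q) ℓ R A (twistH1 N η A x) =
      twistH1 N η A (h1T (sqTwistChar N η) A ℓ x) := by
  induction x using Submodule.Quotient.induction_on with
  | _ c =>
    rw [h1T_mk, twistH1_mk, twistH1_mk]
    exact twistHom_derT hℓq η c

end Fermat.Agent.TW.Mod
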