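/-
The twist at one prime in the presence of a further character `χ₀` of level `N`:
`H¹(Γ₀(Nq), χ₀ η²) → H¹(Γ₀(Nq²), χ₀)`, intertwining `η(ℓ) T_ℓ` with `T_ℓ` (owner: helper87).
-/
import Fermat.Agent.TW.Mod.PairSystem
import Fermat.Agent.TW.Mod.TwistHecke

set_option autoImplicit false

namespace Fermat.Agent.TW.Mod

open CongruenceSubgroup Fermat.Agent.HK
open scoped MatrixGroups

variable {N q : ℕ} {R : Type*} [CommRing R]

/-- A character of level `N` seen at a multiple level. -/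
def liftChar (χ₀ : (ZMod N)ˣ →* Rˣ) {M : ℕ} (h : N ∣ M) : (ZMod M)ˣ →* Rˣ :=
  χ₀.comp (ZMod.unitsMap h)

/-- `χ₀ η²` at level `Nq`. -/
def srcChar (χ₀ : (ZMod N)ˣ →* Rˣ) (η : (ZMod q)ˣ →* Rˣ) : (ZMod (N * q))ˣ →* Rˣ :=
  liftChar χ₀ (dvd_mul_right N q) * sqTwistChar N η

/-- `χ₀` at level `Nq²`. -/
def tgtChar (χ₀ : (ZMod N)ˣ →* Rˣ) (q : ℕ) : (ZMod (N * q * q))ˣ →* Rˣ :=
  liftChar χ₀ ((dvd_mul_right N q).mul_right q)

section Def

variable [hq : Fact q.Prime] (χ₀ : (ZMod N)ˣ →* Rˣ) (η : (ZMod q)ˣ →* Rˣ)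

theorem twistCoc_unitsMap (g : Gamma0 (N * q * q)) (u : (ZMod q)ˣ) :
    ZMod.unitsMap (dvd_mul_right N q) ((Gamma0Map (N * q)).toHomUnits (twistCoc g u)) =
      ZMod.unitsMap ((dvd_mul_right N q).mul_right q)
        ((Gamma0Map (N * q * q)).toHomUnits g) := by
  refine Units.ext ?_
  show ZMod.castHom (dvd_mul_right N q) (ZMod N) ((matOf (twistCoc g u) 1 1 : ℤ) : ZMod (N * q)) =
    ZMod.castHom ((dvd_mul_right N q).mul_right q) (ZMod N) ((matOf g 1 1 : ℤ) : ZMod (N * q * q))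
  rw [map_intCast, map_intCast]
  obtain ⟨k, hk⟩ := matOf_dvd g
  have e10 := congrFun (congrFun (twistCoc_rel g u) 1) 0
  have e11 := congrFun (congrFun (twistCoc_rel g u) 1) 1
  simp [twistMat, Matrix.mul_apply, Fin.sum_univ_two, hk, -ZMod.natCast_val] at e10 e11
  have hq0 : (q : ℤ) ≠ 0 := by exact_mod_cast hq.out.ne_zero
  set x' : ℤ := (((twistNext g u : (ZMod q)ˣ) : ZMod q).val : ℤ)
  set G := matOf (twistCoc g u)
  have h1 : G 1 0 = (N : ℤ) * q * q * k := mul_right_cancel₀ hq0 (by linear_combination e10)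
  have h2 : G 1 1 = matOf g 1 1 - x' * N * q * k :=
    mul_right_cancel₀ hq0 (by rw [h1] at e11; linear_combination e11)
  rw [h2]
  push_cast
  simp

/-- The coset system of the twist. -/
noncomputable def genTwistSystem :
    PairSystem (epsOf (srcChar χ₀ η)) (epsOf (tgtChar χ₀ q)) (ZMod q)ˣ where
  mat := twistMat
  weight u := (η u : R)
  next := twistNext
  coc := twistCoc
  next_mul := twistNext_mul
  coc_mul := twistCoc_mul
  rel := twistCoc_rel
  weight_rel g u := by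
    rw [epsOf_apply, epsOf_apply, srcChar, tgtChar, MonoidHom.mul_apply, sqTwistChar_apply,
      twistCoc_dUnit, liftChar, liftChar, MonoidHom.comp_apply, MonoidHom.comp_apply,
      twistCoc_unitsMap, ← Units.val_mul, ← Units.val_mul]
    congr 1
    simp [twistNext, map_mul, map_pow, mul_left_comm]

variable (A : Type*) [AddCommGroup A] [Module R A]

/-- The twist on `H¹`. -/
noncomputable def genTwistH1 :
    H1 (epsOf (srcChar χ₀ η)) A →ₗ[R] H1 (epsOf (tgtChar χ₀ q)) A :=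
  (genTwistSystem χ₀ η).opH1

end Def

section Hecke

variable {ℓ : ℕ} [hq : Fact q.Prime] [hl : Fact ℓ.Prime] (hℓq : ℓ ≠ q)
variable (χ₀ : (ZMod N)ˣ →* Rˣ) (η : (ZMod q)ˣ →* Rˣ) {A : Type*} [AddCommGroup A] [Module R A]
include hℓq

/-- `η(ℓ) T_ℓ ∘ tw = tw ∘ T_ℓ`. -/
theorem genTwistH1_h1T (x : H1 (epsOf (srcChar χ₀ η)) A) :
    (η (primeUnit hℓq) : R) • h1T (tgtChar χ₀ q) A ℓ (genTwistH1 χ₀ η A x) =
      genTwistH1 χ₀ η A (h1T (srcChar χ₀ η) A ℓ x) := by
  classical
  haveI : NeZero q := ⟨hq.out.ne_zero⟩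
  let T := genTwistSystem χ₀ η
  let S' := T.post (heckeSystem (tgtChar χ₀ q) ℓ)
  let S := T.pre (heckeSystem (srcChar χ₀ η) ℓ)
  induction x using Submodule.Quotient.induction_on with
  | _ c =>
    have h1 : h1T (tgtChar χ₀ q) A ℓ (genTwistH1 χ₀ η A (Submodule.Quotient.mk c)) =
        (S'.opH1 (A := A)) (Submodule.Quotient.mk c) :=
      congrArg Submodule.Quotient.mk (T.op_post (heckeSystem (tgtChar χ₀ q) ℓ) c)
    have h2 : genTwistH1 χ₀ η A (h1T (srcChar χ₀ η) A ℓ (Submodule.Quotient.mk c)) =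
        (S.opH1 (A := A)) (Submodule.Quotient.mk c) :=
      congrArg Submodule.Quotient.mk (T.op_pre (heckeSystem (srcChar χ₀ η) ℓ) c)
    rw [h1, h2]
    choose t ht using exists_twistHecke_uni (N := N) hℓq
    refine S.opH1_eq_smul_of_reps S' (fun x y a b h => twistHecke_cancel hℓq x y a b h)
      (twistHeckeEquiv hℓq) (fun x => upperUni (N * q) (t x)) (fun x => ht x) _ (fun x => ?_) _
    rw [epsOf_upperUni, Units.val_one, mul_one]
    obtain ⟨u, i⟩ := x
    refine HeckeIdx.cases_upper_diag (fun j => ?_) (fun h => ?_) i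
    · show 1 * (η u : R) * (η (primeUnit hℓq) : R) = (η (u * primeUnit hℓq) : R) * 1
      rw [map_mul, Units.val_mul, mul_one, one_mul]
    · show (chiPrime (tgtChar χ₀ q) ℓ : R) * (η u : R) * (η (primeUnit hℓq) : R) =
        (η (u * (primeUnit hℓq)⁻¹) : R) * (chiPrime (srcChar χ₀ η) ℓ : R)
      have hc : ℓ.Coprime (N * q) :=
        hl.out.coprime_iff_not_dvd.2 fun h' => h ((dvd_mul_q_iff hℓq).2 h')
      have hc' : ℓ.Coprime (N * q * q) := hl.out.coprime_iff_not_dvd.2 h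
      have hu : ZMod.unitsMap (dvd_mul_left q N) (ZMod.unitOfCoprime ℓ hc) = primeUnit hℓq :=
        Units.ext (by simp [primeUnit, ZMod.unitsMap, ZMod.castHom_apply])
      have hN : ZMod.unitsMap (dvd_mul_right N q) (ZMod.unitOfCoprime ℓ hc) =
          ZMod.unitsMap ((dvd_mul_right N q).mul_right q) (ZMod.unitOfCoprime ℓ hc') :=
        Units.ext (by simp [ZMod.unitsMap, ZMod.castHom_apply])
      rw [chiPrime, dif_pos hc', chiPrime, dif_pos hc, srcChar, tgtChar, MonoidHom.mul_apply,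
        sqTwistChar_apply, hu, liftChar, liftChar, MonoidHom.comp_apply, MonoidHom.comp_apply, hN,
        ← Units.val_mul, ← Units.val_mul, ← Units.val_mul]
      congr 1
      rw [map_mul η, map_inv η, pow_two]
      generalize χ₀ _ = z
      simp [mul_comm, mul_left_comm, mul_assoc]

end Hecke

end Fermat.Agent.TW.Mod
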