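/-
Twisting at several primes and its injectivity modulo the maximal ideal on non-Eisenstein
`U_q ↦ α_q` eigen vectors, `α_q² ≠ 1` (owner: helper87).
-/
import Fermat.Agent.TW.Mod.TwistGen
import Fermat.Agent.TW.Mod.RedMap
import Fermat.Agent.TW.Mod.DegenTwist

set_option autoImplicit false

noncomputable section

namespace Fermat.Agent.TW.Mod

open CongruenceSubgroup
open Fermat.Agent.HK (heckeHom)
open Fermat.Agent.LR (Hom1)

variable {R : Type*} [CommRing R]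

/-- A character of level `N` seen at level `M` (trivial unless `N ∣ M`). -/
def dPart {N : ℕ} (ψ : (ZMod N)ˣ →* Rˣ) (M : ℕ) : (ZMod M)ˣ →* Rˣ :=
  if h : N ∣ M then liftChar ψ h else 1

theorem dPart_of_dvd {N : ℕ} (ψ : (ZMod N)ˣ →* Rˣ) {M : ℕ} (h : N ∣ M) :
    dPart ψ M = liftChar ψ h := dif_pos h

theorem dPart_comp {N : ℕ} (ψ : (ZMod N)ˣ →* Rˣ) {M M' : ℕ} (h : N ∣ M) (h' : M ∣ M') :
    dPart ψ M' = (dPart ψ M).comp (ZMod.unitsMap h') := by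
  rw [dPart_of_dvd ψ (h.trans h'), dPart_of_dvd ψ h, liftChar, liftChar, MonoidHom.comp_assoc,
    ZMod.unitsMap_comp]

/-- `ψ ∏_{q ∈ Q} η_q²` at level `M`. -/
def chiTot {N : ℕ} (ψ : (ZMod N)ˣ →* Rˣ) (η : ∀ q : ℕ, (ZMod q)ˣ →* Rˣ) (M : ℕ) (Q : Finset ℕ) :
    (ZMod M)ˣ →* Rˣ :=
  dPart ψ M * ∏ q ∈ Q, dPart (η q ^ 2) M

/-- The value at `ℓ` of `η_q`. -/
def etaAt (η : ∀ q : ℕ, (ZMod q)ˣ →* Rˣ) (q ℓ : ℕ) : Rˣ :=
  if h : ℓ.Coprime q then η q (ZMod.unitOfCoprime ℓ h) else 1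

variable {N : ℕ} (ψ : (ZMod N)ˣ →* Rˣ) (η : ∀ q : ℕ, (ZMod q)ˣ →* Rˣ)

theorem chiTot_empty (M : ℕ) : chiTot ψ η M ∅ = dPart ψ M := by
  rw [chiTot, Finset.prod_empty, mul_one]

theorem liftChar_chiTot {M M' : ℕ} {Q : Finset ℕ} (hN : N ∣ M) (hQ : ∀ r ∈ Q, r ∣ M)
    (h : M ∣ M') : liftChar (chiTot ψ η M Q) h = chiTot ψ η M' Q := by
  refine MonoidHom.ext fun u => ?_
  simp only [liftChar, chiTot, MonoidHom.comp_apply, MonoidHom.mul_apply,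
    MonoidHom.finsetProd_apply]
  rw [dPart_comp ψ hN h]
  refine congrArg₂ (· * ·) rfl (Finset.prod_congr rfl fun r hr => ?_)
  rw [dPart_comp (η r ^ 2) (hQ r hr) h]
  rfl

theorem chiTot_insert {q N' : ℕ} {Q : Finset ℕ} (hqQ : q ∉ Q) (hN : N ∣ N')
    (hQ : ∀ r ∈ Q, r ∣ N') :
    chiTot ψ η (N' * q) (insert q Q) = srcChar (chiTot ψ η N' Q) (η q) := by
  rw [srcChar, liftChar_chiTot ψ η hN hQ, sqTwistChar, chiTot, chiTot, Finset.prod_insert hqQ,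
    dPart_of_dvd (η q ^ 2) (dvd_mul_left q N'), liftChar,
    show ((η q) ^ 2).comp (ZMod.unitsMap (dvd_mul_left q N')) =
      ((η q).comp (ZMod.unitsMap (dvd_mul_left q N'))) ^ 2 from MonoidHom.ext fun _ => rfl,
    ]
  exact (congrArg _ (mul_comm _ _)).trans (mul_assoc _ _ _).symm

theorem chiTot_tgt {q N' : ℕ} {Q : Finset ℕ} (hN : N ∣ N') (hQ : ∀ r ∈ Q, r ∣ N') :
    tgtChar (chiTot ψ η N' Q) q = chiTot (liftChar ψ ((dvd_mul_right N q).mul_right q)) η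
      (N' * q * q) Q := by
  rw [tgtChar, liftChar_chiTot ψ η hN hQ, chiTot, chiTot]
  refine congrArg₂ (· * ·) ?_ rfl
  have hd : N * q * q ∣ N' * q * q := mul_dvd_mul_right (mul_dvd_mul_right hN q) q
  rw [dPart_of_dvd ψ (hN.trans ((dvd_mul_right N' q).mul_right q)), dPart_of_dvd _ hd, liftChar,
    liftChar, liftChar, MonoidHom.comp_assoc, ZMod.unitsMap_comp]

theorem f_dPart {k : Type*} [CommRing k] (f : R →+* k) {N : ℕ} (ψ : (ZMod N)ˣ →* Rˣ)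
    (h : ∀ u, f (ψ u : R) = 1) (M : ℕ) (u : (ZMod M)ˣ) : f (dPart ψ M u : R) = 1 := by
  rw [dPart]
  split_ifs with h'
  · exact h _
  · simp

theorem f_chiTot {k : Type*} [CommRing k] (f : R →+* k) (hψ : ∀ u, f (ψ u : R) = 1)
    (hη : ∀ q u, f (η q u : R) = 1) (M : ℕ) (Q : Finset ℕ) (u : (ZMod M)ˣ) :
    f (chiTot ψ η M Q u : R) = 1 := by
  rw [chiTot, MonoidHom.mul_apply, MonoidHom.finsetProd_apply, Units.val_mul, map_mul,
    f_dPart f ψ hψ, Units.coe_prod, map_prod, one_mul]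
  exact Finset.prod_eq_one fun q _ => f_dPart f _ (fun v => by simp [hη]) M u

theorem redMap_genTwistH1 {N' q : ℕ} [hq : Fact q.Prime] (χ₀ : (ZMod N')ˣ →* Rˣ)
    (η₁ : (ZMod q)ˣ →* Rˣ) {k : Type*} [CommRing k] (f : R →+* k) (h1 : ∀ u, f (η₁ u : R) = 1)
    (hs : ∀ u, f (srcChar χ₀ η₁ u : R) = 1) (ht : ∀ u, f (tgtChar χ₀ q u : R) = 1)
    (x : H1 (epsOf (srcChar χ₀ η₁)) R) (g : Gamma0 (N' * q * q)) :
    redMap (tgtChar χ₀ q) f ht (genTwistH1 χ₀ η₁ R x) (Additive.ofMul g) =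
      ∑ u : (ZMod q)ˣ, redMap (srcChar χ₀ η₁) f hs x (Additive.ofMul (twistCoc g u)) := by
  induction x using Submodule.Quotient.induction_on with
  | _ c =>
    rw [show genTwistH1 χ₀ η₁ R (Submodule.Quotient.mk c) =
      Submodule.Quotient.mk ((genTwistSystem χ₀ η₁).op c) from rfl, redMap_mk,
      PairSystem.op_apply, map_sum]
    refine Finset.sum_congr rfl fun u _ => ?_
    rw [redMap_mk, smul_eq_mul, map_mul]
    show f (η₁ u : R) * _ = _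
    rw [h1, one_mul]
    rfl

/-- Non-Eisenstein eigen vectors with `U_q ↦ α_q` for `q ∈ Q`. -/
def IsTwEigen {k : Type*} [Field k] {M : ℕ} (Q : Finset ℕ) (ℓ : ℕ) (c : k) (α : ℕ → k)
    (φ : Hom1 M k) : Prop :=
  (∀ [Fact ℓ.Prime], heckeHom M ℓ k k φ = c • φ) ∧
    ∀ q ∈ Q, ∀ [Fact q.Prime], heckeHom M q k k φ = α q • φ

variable {p : ℕ} [hp : Fact p.Prime] {k : Type*} [Field k] (f : R →+* k)

/-- Twisting at the primes of `Q`: `H¹(M, ψ ∏ η_q²) → H¹(L, ψ)`, `M = N ∏ q`, `L = M ∏ q`. -/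
theorem exists_twistChain (hp2 : p ≠ 2) (hk : ∀ a : k, p • a = 0)
    (hη : ∀ q u, f (η q u : R) = 1) (Q : Finset ℕ) {N : ℕ} [NeZero N] (ψ : (ZMod N)ˣ →* Rˣ)
    (hQ : ∀ q ∈ Q, q.Prime ∧ q.Coprime N ∧ q ≠ p ∧ (q : k) = 1) (hψ : ∀ u, f (ψ u : R) = 1)
    (M L : ℕ) (hM : M = N * ∏ q ∈ Q, q) (hL : L = M * ∏ q ∈ Q, q) :
    ∃ tw : H1 (epsOf (chiTot ψ η M Q)) R →ₗ[R] H1 (epsOf (dPart ψ L)) R,
      (∀ (ℓ : ℕ) [Fact ℓ.Prime], ℓ ∉ Q → ∀ x,
        ((∏ q ∈ Q, etaAt η q ℓ : Rˣ) : R) • h1T (dPart ψ L) R ℓ (tw x) =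
          tw (h1T (chiTot ψ η M Q) R ℓ x)) ∧
      ∀ (ℓ : ℕ) [Fact ℓ.Prime], ¬ ℓ ∣ L → ∀ (c : k) (α : ℕ → k), c ≠ (ℓ : k) + 1 →
        (∀ q ∈ Q, α q ^ 2 ≠ 1) → ∀ x,
          IsTwEigen Q ℓ c α (redMap _ f (f_chiTot ψ η f hψ hη M Q) x) →
            redMap _ f (f_dPart f ψ hψ L) (tw x) = 0 →
              redMap _ f (f_chiTot ψ η f hψ hη M Q) x = 0 := by
  classical
  induction Q using Finset.induction_on generalizing N ψ M L with
  | empty =>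
    rw [Finset.prod_empty, mul_one] at hM hL
    subst L
    subst M
    suffices H : ∀ χ (e : χ = dPart ψ N) (hχ : ∀ u, f (χ u : R) = 1),
        ∃ tw : H1 (epsOf χ) R →ₗ[R] H1 (epsOf (dPart ψ N)) R,
          (∀ (ℓ : ℕ) [Fact ℓ.Prime], ℓ ∉ (∅ : Finset ℕ) → ∀ x,
            ((∏ q ∈ (∅ : Finset ℕ), etaAt η q ℓ : Rˣ) : R) • h1T (dPart ψ N) R ℓ (tw x) =
              tw (h1T χ R ℓ x)) ∧
          ∀ (ℓ : ℕ) [Fact ℓ.Prime], ¬ ℓ ∣ N → ∀ (c : k) (α : ℕ → k), c ≠ (ℓ : k) + 1 →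
            (∀ q ∈ (∅ : Finset ℕ), α q ^ 2 ≠ 1) → ∀ x,
              IsTwEigen ∅ ℓ c α (redMap _ f hχ x) →
                redMap _ f (f_dPart f ψ hψ N) (tw x) = 0 → redMap _ f hχ x = 0 from
      H _ (chiTot_empty ψ η N) _
    rintro χ rfl hχ
    exact ⟨LinearMap.id, fun ℓ _ _ x => by simp, fun ℓ _ _ c α _ _ x _ h => h⟩
  | @insert q Q hqQ ih =>
    obtain ⟨hqp, hqN, hqp', hq1⟩ := hQ q (Finset.mem_insert_self q Q)
    haveI : Fact q.Prime := ⟨hqp⟩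
    have hQ' := fun r hr => hQ r (Finset.mem_insert_of_mem hr)
    set N' := N * ∏ r ∈ Q, r with hN'
    have hqprod : q.Coprime (∏ r ∈ Q, r) := Nat.Coprime.prod_right fun r hr =>
      (Nat.coprime_primes hqp (hQ' r hr).1).2 fun e => hqQ (e ▸ hr)
    have hcop : q.Coprime N' := hqN.mul_right hqprod
    have hne : N' ≠ 0 :=
      mul_ne_zero (NeZero.ne N) (Finset.prod_ne_zero_iff.2 fun r hr => (hQ' r hr).1.ne_zero)
    haveI : NeZero N' := ⟨hne⟩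
    haveI : NeZero (N * q * q) := ⟨mul_ne_zero (mul_ne_zero (NeZero.ne N) hqp.ne_zero) hqp.ne_zero⟩
    obtain rfl : M = N' * q := by rw [hM, Finset.prod_insert hqQ, hN']; ring
    have hNd : N ∣ N' := dvd_mul_right _ _
    have hQd : ∀ r ∈ Q, r ∣ N' := fun r hr => (Finset.dvd_prod_of_mem _ hr).mul_left N
    set ψ' := liftChar ψ ((dvd_mul_right N q).mul_right q) with hψ'def
    have hψ' : ∀ u, f (ψ' u : R) = 1 := fun u => hψ _
    obtain ⟨tw2, htw2, hinj2⟩ := ih ψ' (fun r hr => ⟨(hQ' r hr).1, Nat.Coprime.mul_right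
      (Nat.Coprime.mul_right (hQ' r hr).2.1 ((Nat.coprime_primes (hQ' r hr).1 hqp).2
        fun e => hqQ (e ▸ hr))) ((Nat.coprime_primes (hQ' r hr).1 hqp).2 fun e => hqQ (e ▸ hr)),
      (hQ' r hr).2.2⟩) hψ' (N' * q * q) L (by rw [hN']; ring)
      (by rw [hL, Finset.prod_insert hqQ]; ring)
    have hdL : dPart ψ' L = dPart ψ L := by
      have hd : N * q * q ∣ L := by
        rw [hL, Finset.prod_insert hqQ, hN']
        exact ⟨(∏ r ∈ Q, r) * ∏ r ∈ Q, r, by ring⟩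
      rw [dPart_of_dvd ψ' hd, dPart_of_dvd ψ (((dvd_mul_right N q).mul_right q).trans hd), hψ'def,
        liftChar, liftChar, liftChar, MonoidHom.comp_assoc, ZMod.unitsMap_comp]
    suffices H : ∀ χs (_ : χs = srcChar (chiTot ψ η N' Q) (η q)) χt (_ : χt = dPart ψ' L)
        (hs : ∀ u, f (χs u : R) = 1) (ht : ∀ u, f (χt u : R) = 1),
        ∃ tw : H1 (epsOf χs) R →ₗ[R] H1 (epsOf χt) R,
          (∀ (ℓ : ℕ) [Fact ℓ.Prime], ℓ ∉ insert q Q → ∀ x,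
            ((∏ r ∈ insert q Q, etaAt η r ℓ : Rˣ) : R) • h1T χt R ℓ (tw x) =
              tw (h1T χs R ℓ x)) ∧
          ∀ (ℓ : ℕ) [Fact ℓ.Prime], ¬ ℓ ∣ L → ∀ (c : k) (α : ℕ → k), c ≠ (ℓ : k) + 1 →
            (∀ r ∈ insert q Q, α r ^ 2 ≠ 1) → ∀ x,
              IsTwEigen (insert q Q) ℓ c α (redMap _ f hs x) →
                redMap _ f ht (tw x) = 0 → redMap _ f hs x = 0 from
      H _ (chiTot_insert ψ η hqQ hNd hQd) _ hdL.symm _ _
    rintro χs rfl χt rfl hs ht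
    have hmid : tgtChar (chiTot ψ η N' Q) q = chiTot ψ' η (N' * q * q) Q :=
      chiTot_tgt ψ η hNd hQd
    revert tw2 htw2 hinj2
    suffices H : ∀ χm (_ : χm = tgtChar (chiTot ψ η N' Q) q) (hm : ∀ u, f (χm u : R) = 1)
        (tw2 : H1 (epsOf χm) R →ₗ[R] H1 (epsOf (dPart ψ' L)) R),
        (∀ (ℓ : ℕ) [Fact ℓ.Prime], ℓ ∉ Q → ∀ x,
          ((∏ r ∈ Q, etaAt η r ℓ : Rˣ) : R) • h1T (dPart ψ' L) R ℓ (tw2 x) =
            tw2 (h1T χm R ℓ x)) →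
        (∀ (ℓ : ℕ) [Fact ℓ.Prime], ¬ ℓ ∣ L → ∀ (c : k) (α : ℕ → k), c ≠ (ℓ : k) + 1 →
          (∀ r ∈ Q, α r ^ 2 ≠ 1) → ∀ x,
            IsTwEigen Q ℓ c α (redMap _ f hm x) →
              redMap _ f ht (tw2 x) = 0 → redMap _ f hm x = 0) →
        ∃ tw : H1 (epsOf (srcChar (chiTot ψ η N' Q) (η q))) R →ₗ[R] H1 (epsOf (dPart ψ' L)) R,
          (∀ (ℓ : ℕ) [Fact ℓ.Prime], ℓ ∉ insert q Q → ∀ x,
            ((∏ r ∈ insert q Q, etaAt η r ℓ : Rˣ) : R) • h1T (dPart ψ' L) R ℓ (tw x) =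
              tw (h1T (srcChar (chiTot ψ η N' Q) (η q)) R ℓ x)) ∧
          ∀ (ℓ : ℕ) [Fact ℓ.Prime], ¬ ℓ ∣ L → ∀ (c : k) (α : ℕ → k), c ≠ (ℓ : k) + 1 →
            (∀ r ∈ insert q Q, α r ^ 2 ≠ 1) → ∀ x,
              IsTwEigen (insert q Q) ℓ c α (redMap _ f hs x) →
                redMap _ f ht (tw x) = 0 → redMap _ f hs x = 0 from
      fun tw2 h1 h2 => H _ hmid.symm _ tw2 h1 h2
    rintro χm rfl hm tw2 htw2 hinj2
    refine ⟨tw2 ∘ₗ genTwistH1 _ (η q) R, fun ℓ hℓ hℓQ x => ?_,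
      fun ℓ hℓ hℓL c α hc hα x heig hx => ?_⟩
    · rw [Finset.mem_insert, not_or] at hℓQ
      show _ = tw2 (genTwistH1 _ (η q) R (h1T _ R ℓ x))
      rw [← genTwistH1_h1T hℓQ.1, map_smul, ← htw2 ℓ hℓQ.2, Finset.prod_insert hqQ, Units.val_mul,
        smul_smul, show etaAt η q ℓ = η q (primeUnit hℓQ.1) from
          dif_pos (coprime_of_ne hℓQ.1)]
      rfl
    · set y := genTwistH1 (chiTot ψ η N' Q) (η q) R x
      have hdeg := redMap_genTwistH1 (chiTot ψ η N' Q) (η q) f (hη q) hs hm x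
      have hℓNq : ¬ ℓ ∣ N' * q := fun h => hℓL (hL ▸ h.mul_right _)
      have hℓne : ℓ ≠ q := fun e => hℓNq (e ▸ dvd_mul_left q N')
      have hTy : ∀ (l : ℕ) [Fact l.Prime] (hlq : l ≠ q) (a : k),
          heckeHom (N' * q) l k k (redMap _ f hs x) = a • redMap _ f hs x →
          heckeHom (N' * q * q) l k k (redMap _ f hm y) = a • redMap _ f hm y := by
        intro l _ hlq a ha
        have h1 := congrArg (redMap _ f hm) (genTwistH1_h1T hlq (chiTot ψ η N' Q) (η q) x)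
        rw [redMap_smul, hη, one_smul, redMap_h1T] at h1
        rw [h1]
        refine AddMonoidHom.ext fun g => ?_
        obtain ⟨g, rfl⟩ := Additive.ofMul.surjective g
        rw [AddMonoidHom.smul_apply, hdeg, redMap_genTwistH1 _ _ f (hη q) hs hm, Finset.smul_sum,
          redMap_h1T, ha]
        rfl
      have hy : redMap _ f hm y = 0 := by
        refine hinj2 ℓ hℓL c α hc (fun r hr => hα r (Finset.mem_insert_of_mem hr)) y ⟨?_, ?_⟩ hx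
        · intro _
          exact hTy ℓ hℓne c (heig.1)
        · intro r hr _
          exact hTy r (fun e => hqQ (e ▸ hr)) (α r) (heig.2 r (Finset.mem_insert_of_mem hr))
      refine eq_zero_of_twist_eq_zero hp2 (Ne.symm hqp') hcop hk hq1 _ (fun g => ?_) hℓNq heig.1 hc
        (heig.2 q (Finset.mem_insert_self q Q)) (hα q (Finset.mem_insert_self q Q))
      rw [← hdeg, hy, AddMonoidHom.zero_apply]

end Fermat.Agent.TW.Mod
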