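/-
The twists of the Hecke translates embed the Taylor-Wiles module into twisted `H¹` of level
`N ∏ q²`, with an `R`-linear retraction (owner: helper87).
-/
import Fermat.Agent.TW.Mod.Packaged
import Fermat.Agent.TW.Mod.TwistChain
import Fermat.Agent.TW.Mod.EigenVec
import Mathlib.RingTheory.DiscreteValuationRing.Basic
import Mathlib.LinearAlgebra.Dual.Lemmas

set_option autoImplicit false

noncomputable section

namespace Fermat.Agent.TW.Mod

open CongruenceSubgroup IsLocalRing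
open Fermat.Agent.HK (heckeHom)
open Fermat.Agent.LR (Hom1)

section Retraction

variable {R : Type*} [CommRing R] [IsLocalRing R] {M : Type*} [AddCommGroup M] [Module R M]
  [Module.Free R M] [Module.Finite R M] {X : Type*}

/-- A map to functions which is injective modulo the maximal ideal has a retraction. -/
theorem exists_retraction (Φ : M →ₗ[R] (X → R))
    (h : ∀ x, (∀ g, Φ x g ∈ maximalIdeal R) → x ∈ maximalIdeal R • (⊤ : Submodule R M)) :
    ∃ r : (X → R) →ₗ[R] M, ∀ x, r (Φ x) = x := by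
  classical
  let b := Module.Free.chooseBasis R M
  have : Fintype (Module.Free.ChooseBasisIndex R M) := inferInstance
  let res : R →+* ResidueField R := residue R
  set v : X → (Module.Free.ChooseBasisIndex R M → ResidueField R) :=
    fun g j => res (Φ (b j) g) with hv
  have hcoord : ∀ x : M, x ∈ maximalIdeal R • (⊤ : Submodule R M) → ∀ j, b.repr x j ∈ maximalIdeal R := by
    intro x hx j
    refine Submodule.smul_induction_on hx (fun r hr y _ => ?_) (fun y z hy hz => ?_)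
    · rw [map_smul, Finsupp.smul_apply, smul_eq_mul]
      exact Ideal.mul_mem_right _ _ hr
    · rw [map_add, Finsupp.add_apply]
      exact add_mem hy hz
  have hspan : Submodule.span (ResidueField R) (Set.range v) = ⊤ := by
    by_contra hne
    obtain ⟨f, hf, hle⟩ := Submodule.exists_le_ker_of_lt_top _ (lt_top_iff_ne_top.2 hne)
    refine hf (LinearMap.pi_ext' fun j => LinearMap.ext_ring ?_)
    choose w hw using fun j : Module.Free.ChooseBasisIndex R M =>
      IsLocalRing.residue_surjective (f (Pi.single j (1 : ResidueField R)))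
    have hx : ∑ j, w j • b j ∈ maximalIdeal R • (⊤ : Submodule R M) := by
      refine h _ fun g => ?_
      rw [← residue_eq_zero_iff]
      have h0 : f (v g) = 0 := LinearMap.mem_ker.1 (hle (Submodule.subset_span ⟨g, rfl⟩))
      rw [pi_eq_sum_univ' (v g), map_sum] at h0
      rw [map_sum, Finset.sum_apply, map_sum, ← h0]
      refine Finset.sum_congr rfl fun j _ => ?_
      rw [map_smul, Pi.smul_apply, smul_eq_mul, map_mul, map_smul, smul_eq_mul, hw j, mul_comm]
    have := hcoord _ hx j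
    rw [← residue_eq_zero_iff, map_sum, Finsupp.finsetSum_apply, map_sum] at this
    simpa [Finsupp.single_apply, apply_ite, Finset.sum_ite_eq', hw] using this
  have hsel : ∀ j, ∃ C : X →₀ R, ∀ i,
      res (C.sum fun g c => c * Φ (b i) g) = if i = j then 1 else 0 := by
    intro j
    have hmem : (fun i => if i = j then (1 : ResidueField R) else 0) ∈
        Submodule.span (ResidueField R) (Set.range v) := hspan ▸ Submodule.mem_top
    obtain ⟨c, hc⟩ := Finsupp.mem_span_range_iff_exists_finsupp.1 hmem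
    choose C hC using fun g => IsLocalRing.residue_surjective (c g)
    refine ⟨Finsupp.onFinset c.support (fun g => if g ∈ c.support then C g else 0)
      (fun g hg => by by_contra h'; exact hg (if_neg h')), fun i => ?_⟩
    rw [Finsupp.onFinset_sum _ fun g => zero_mul _, map_sum]
    have := congrFun hc i
    rw [Finsupp.sum, Finset.sum_apply] at this
    rw [← this]
    refine Finset.sum_congr rfl fun g hg => ?_
    rw [if_pos hg, map_mul, Pi.smul_apply, smul_eq_mul, ← hC]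
  choose C hC using hsel
  let G : (X → R) →ₗ[R] M :=
    { toFun := fun φ => ∑ j, ((C j).sum fun g c => c * φ g) • b j
      map_add' := fun φ φ' => by
        simp [mul_add, Finsupp.sum_add, add_smul, Finset.sum_add_distrib]
      map_smul' := fun r φ => by
        simp [mul_left_comm _ r, ← Finsupp.mul_sum, Finset.smul_sum, mul_smul] }
  have hsurj : Function.Surjective (G ∘ₗ Φ) := by
    rw [← LinearMap.range_eq_top]
    refine top_le_iff.1 (Submodule.le_of_le_smul_of_le_jacobson_bot (Module.Finite.fg_top)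
      (IsLocalRing.maximalIdeal_le_jacobson ⊥) ?_)
    rw [← b.span_eq, Submodule.span_le]
    rintro _ ⟨i, rfl⟩
    rw [b.span_eq]
    have : b i = (G ∘ₗ Φ) (b i) + (b i - (G ∘ₗ Φ) (b i)) := by rw [add_sub_cancel]
    rw [this]
    refine Submodule.add_mem_sup (LinearMap.mem_range_self _ _) ?_
    have hd : b i - (G ∘ₗ Φ) (b i) =
        ∑ j, ((if i = j then (1 : R) else 0) - (C j).sum fun g c => c * Φ (b i) g) • b j := by
      simp [G, sub_smul, Finset.sum_sub_distrib]
    rw [hd]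
    refine Submodule.sum_mem _ fun j _ => Submodule.smul_mem_smul ?_ Submodule.mem_top
    rw [← residue_eq_zero_iff, map_sub, hC]
    split_ifs <;> simp
  let e := LinearEquiv.ofBijective (G ∘ₗ Φ)
    ⟨OrzechProperty.injective_of_surjective_endomorphism _ hsurj, hsurj⟩
  exact ⟨e.symm.toLinearMap ∘ₗ G, fun x => e.symm_apply_apply x⟩

end Retraction

variable {𝒪 : Type} [CommRing 𝒪] [IsDomain 𝒪] [IsDiscreteValuationRing 𝒪]
  [IsAdicComplete (maximalIdeal 𝒪) 𝒪] [IsAddTorsionFree 𝒪]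
variable {R : Type} [CommRing R] [Algebra 𝒪 R] [IsLocalRing R] [Module.Finite 𝒪 R]
  [IsAddTorsionFree R]
variable {aug : R →ₐ[𝒪] 𝒪} {S : Set ℕ}

/-- The residual map `R → k`. -/
abbrev resHom (aug : R →ₐ[𝒪] 𝒪) : R →+* ResidueField 𝒪 := (residue 𝒪).comp aug.toRingHom

theorem resHom_eq_zero_iff (r : R) : resHom aug r = 0 ↔ r ∈ maximalIdeal R := by
  have hs : Function.Surjective (resHom aug) := fun x => by
    obtain ⟨c, rfl⟩ := IsLocalRing.residue_surjective x
    exact ⟨algebraMap 𝒪 R c, congrArg (residue 𝒪) (aug.commutes c)⟩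
  rw [← IsLocalRing.eq_maximalIdeal (RingHom.ker_isMaximal_of_surjective (resHom aug) hs),
    RingHom.mem_ker]

variable {M : ℕ} [NeZero M] {χ : (ZMod M)ˣ →* Rˣ} (hadm : Admissible (epsOf χ))
  (htriv : ∀ u, aug (χ u : R) = 1) {lam : PrimeIdx S → ResidueField 𝒪}
  (hM : Occurs 𝒪 (heckeFam 𝒪 M S) lam)

/-- An element of the Taylor-Wiles module with zero reduction is divisible by the maximal
ideal. -/
theorem mem_smul_top_of_redMap_eq_zero (hf : ∀ u, resHom aug (χ u : R) = 1)
    (x : twPart hadm htriv hM) (hx : redMap χ (resHom aug) hf x.1 = 0) :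
    x ∈ maximalIdeal R • (⊤ : Submodule R (twPart hadm htriv hM)) := by
  obtain ⟨ϖ, hϖ⟩ := IsDiscreteValuationRing.exists_irreducible 𝒪
  have hmax := hϖ.maximalIdeal_eq
  set φ : Hom1 M 𝒪 := (twPartMap hadm htriv hM x : Hom1 M 𝒪) with hφ
  have hdvd : ∀ g, ϖ ∣ φ g := fun g => by
    obtain ⟨g, rfl⟩ := Additive.ofMul.surjective g
    have h := DFunLike.congr_fun hx (Additive.ofMul g)
    rw [← Ideal.mem_span_singleton, ← hmax, ← residue_eq_zero_iff, hφ, coe_twPartMap]
    revert h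
    induction x.1 using Submodule.Quotient.induction_on with
    | _ c => intro h; exact h
  choose ψ hψ using hdvd
  let φ' : Hom1 M 𝒪 :=
    { toFun := ψ
      map_zero' := mul_left_cancel₀ hϖ.ne_zero (by rw [← hψ, map_zero, mul_zero])
      map_add' := fun a b => mul_left_cancel₀ hϖ.ne_zero (by
        rw [mul_add, ← hψ, ← hψ, ← hψ, map_add]) }
  have hφ' : φ = ϖ • φ' := AddMonoidHom.ext fun g => hψ g
  obtain ⟨y, hy⟩ := twPartMap_surjective hadm htriv hM
    ⟨hM.idem (heckeFam_comm M S) φ', φ', rfl⟩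
  have hker : twPartMap hadm htriv hM (x - algebraMap 𝒪 R ϖ • y) = 0 := by
    rw [map_sub, twPartMap_smul, aug.commutes, Algebra.algebraMap_self, RingHom.id_apply, hy]
    refine Subtype.ext ?_
    show φ - ϖ • hM.idem (heckeFam_comm M S) φ' = 0
    rw [← map_smul, ← hφ', sub_eq_zero]
    exact ((mem_range_iff_of_idem (hM.idem_mul_idem _)).1 (twPartMap hadm htriv hM x).2).symm
  rw [twPartMap_eq_zero_iff] at hker
  rw [← sub_add_cancel x (algebraMap 𝒪 R ϖ • y)]
  refine add_mem (Submodule.smul_mono (IsLocalRing.le_maximalIdeal ?_) le_rfl hker)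
    (Submodule.smul_mem_smul ?_ Submodule.mem_top)
  · exact RingHom.ker_ne_top aug.toRingHom
  · rw [← resHom_eq_zero_iff (aug := aug), RingHom.comp_apply, AlgHom.toRingHom_eq_coe,
      RingHom.coe_coe, aug.commutes, residue_eq_zero_iff, hmax]
    exact Ideal.mem_span_singleton_self ϖ

section Twist

variable {L : ℕ} {χ' : (ZMod L)ˣ →* Rˣ} (tw : H1 (epsOf χ) R →ₗ[R] H1 (epsOf χ') R)
  (hf : ∀ u, resHom aug (χ u : R) = 1) (hf' : ∀ u, resHom aug (χ' u : R) = 1)

/-- The residual injectivity of a twist on eigen vectors at the primes of `Q`. -/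
def InjOnEigen (Q : Finset ℕ) : Prop :=
  ∀ (ℓ : ℕ) [Fact ℓ.Prime], ¬ ℓ ∣ L → ∀ (c : ResidueField 𝒪) (α : ℕ → ResidueField 𝒪),
    c ≠ (ℓ : ResidueField 𝒪) + 1 → (∀ q ∈ Q, α q ^ 2 ≠ 1) → ∀ x,
      IsTwEigen Q ℓ c α (redMap χ (resHom aug) hf x) →
        redMap χ' (resHom aug) hf' (tw x) = 0 → redMap χ (resHom aug) hf x = 0

/-- Classes of the localised part all of whose translates have twist of reduction zero. -/
def twKer : Submodule 𝒪 (H1 (epsOf χ) R) where
  carrier := {y | y ∈ twPart hadm htriv hM ∧ ∀ a : famAlg 𝒪 (twFam χ S),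
    redMap χ' (resHom aug) hf' (tw ((a : Module.End R (H1 (epsOf χ) R)) y)) = 0}
  zero_mem' := ⟨zero_mem _, fun a => by simp⟩
  add_mem' := fun {y z} hy hz => ⟨add_mem hy.1 hz.1, fun a => by
    rw [map_add, map_add, map_add, hy.2, hz.2, add_zero]⟩
  smul_mem' := fun c y hy => ⟨Submodule.smul_of_tower_mem _ c hy.1, fun a => by
    rw [LinearMap.map_smul_of_tower, LinearMap.map_smul_of_tower, ← algebraMap_smul R c,
      redMap_smul, hy.2, smul_zero]⟩

theorem famAlg_mem_twKer (b : famAlg 𝒪 (twFam χ S)) {y : H1 (epsOf χ) R}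
    (hy : y ∈ twKer hadm htriv hM tw hf') :
    (b : Module.End R (H1 (epsOf χ) R)) y ∈ twKer hadm htriv hM tw hf' := by
  have := finite_end_h1 (𝒪 := 𝒪) hadm
  refine ⟨?_, fun a => hy.2 (a * b)⟩
  obtain ⟨z, rfl⟩ := hy.1
  exact ⟨(b : Module.End R (H1 (epsOf χ) R)) z, (LinearMap.congr_fun
    ((occurs_twFam hadm htriv hM).commute_idem (twFam_comm χ S) b.2).eq z).symm⟩

variable {i : PrimeIdx S} (hiL : ¬ i.1 ∣ L) (hi : lam i ≠ (i.1 : ResidueField 𝒪) + 1)
include hiL hi

/-- Nothing survives reduction in `twKer`. -/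
theorem redMap_eq_zero_of_mem_twKer {Q : Finset ℕ}
    (hQ : ∀ q ∈ Q, ∃ (hq : q.Prime) (hS : q ∉ S), lam ⟨q, hq, hS⟩ ^ 2 ≠ 1)
    (hinj : InjOnEigen tw hf hf' Q) {x : H1 (epsOf χ) R}
    (hx : x ∈ twKer hadm htriv hM tw hf') : redMap χ (resHom aug) hf x = 0 := by
  classical
  have := finite_end_h1 (𝒪 := 𝒪) hadm
  by_contra hred
  obtain ⟨y, hyK, hy, hyeig⟩ := (occurs_twFam hadm htriv hM).exists_eigen (twFam_comm χ S)
    (redMap χ (resHom aug) hf)
    (fun c hc y => by
      rw [← algebraMap_smul R c y, redMap_smul, show resHom aug (algebraMap 𝒪 R c) = 0 by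
        rw [RingHom.comp_apply, AlgHom.toRingHom_eq_coe, RingHom.coe_coe, aug.commutes]
        exact (residue_eq_zero_iff _).2 hc, zero_smul])
    (twKer hadm htriv hM tw hf')
    (fun j y hy => famAlg_mem_twKer hadm htriv hM tw hf' (famGen 𝒪 _ j) hy)
    (fun y hy => (mem_range_iff_of_idem (twIdem_mul_self hadm htriv hM)).1 hy.1) hx hred
  have heig : ∀ j : PrimeIdx S, heckeHom M j.1 (ResidueField 𝒪) (ResidueField 𝒪)
      (redMap χ (resHom aug) hf y) = lam j • redMap χ (resHom aug) hf y := by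
    intro j
    obtain ⟨c, hc⟩ := IsLocalRing.residue_surjective (lam j)
    have h1 := hyeig j c hc
    rw [twFam, redMap_h1T, ← algebraMap_smul R c y, redMap_smul] at h1
    rw [h1, ← hc, RingHom.comp_apply, AlgHom.toRingHom_eq_coe, RingHom.coe_coe, aug.commutes]
    rfl
  refine hy (hinj i.1 hiL (lam i)
    (fun q => if h : q.Prime ∧ q ∉ S then lam ⟨q, h.1, h.2⟩ else 0) hi (fun q hq => ?_) y
    ⟨?_, ?_⟩ (hyK.2 1))
  · obtain ⟨h1, h2, h5⟩ := hQ q hq
    rw [dif_pos ⟨h1, h2⟩]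
    exact h5
  · intro _
    exact heig i
  · intro q hq _
    obtain ⟨h1, h2, -⟩ := hQ q hq
    show _ = (if h : q.Prime ∧ q ∉ S then lam ⟨q, h.1, h.2⟩ else 0) • _
    rw [dif_pos ⟨h1, h2⟩]
    exact heig ⟨q, h1, h2⟩

omit hi in
/-- A class whose lift has values in the maximal ideal is an eigen vector modulo it. -/
theorem redMap_h1T_of_lift (c : H1 (epsOf χ') R)
    (hc : ∀ g : Gamma0 L,
      ((sectionOfLift (derT χ' R i.1) ((heckeSystem χ' i.1).degree)
        (fun b => derT_cobound χ' b) c : Der (epsOf χ') R) : Gamma0 L → R) g ∈ maximalIdeal R) :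
    redMap χ' (resHom aug) hf' (h1T χ' R i.1 c) =
      resHom aug (algebraMap 𝒪 R ((i.1 : 𝒪) + 1)) • redMap χ' (resHom aug) hf' c := by
  have hzero : redMap χ' (resHom aug) hf' ((LinearMap.range (cobound (epsOf χ') R)).mkQ
      (sectionOfLift (derT χ' R i.1) ((heckeSystem χ' i.1).degree)
        (fun b => derT_cobound χ' b) c)) = 0 := by
    refine AddMonoidHom.ext fun g => ?_
    obtain ⟨g, rfl⟩ := Additive.ofMul.surjective g
    rw [Submodule.mkQ_apply, redMap_mk, AddMonoidHom.zero_apply, resHom_eq_zero_iff]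
    exact hc g
  rw [← LinearMap.comp_apply, mkQ_sectionOfLift (T := h1T χ' R i.1)
    (hT := fun c => h1T_mk _ c), LinearMap.sub_apply, map_sub, LinearMap.smul_apply,
    LinearMap.id_apply, redMap_smul, sub_eq_zero] at hzero
  have hdeg : resHom aug (heckeSystem χ' i.1).degree =
      resHom aug (algebraMap 𝒪 R ((i.1 : 𝒪) + 1)) := by
    rw [heckeSystem_degree_of_not_dvd _ hiL, map_add, map_add, map_add, map_natCast,
      map_natCast, map_natCast, map_one, map_one]
    refine congrArg _ ?_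
    unfold chiPrime
    split_ifs with hc
    · exact hf' _
    · simp
  rw [hzero, hdeg]

/-- Classes whose lifted twisted translates have values in the maximal ideal lie in `twKer`. -/
theorem mem_twKer_of_lift
    (htw : ∃ u : R, resHom aug u = 1 ∧ ∀ x, u • h1T χ' R i.1 (tw x) = tw (h1T χ R i.1 x))
    (x : twPart hadm htriv hM)
    (hx : ∀ (a : famAlg 𝒪 (twFam χ S)) (g : Gamma0 L),
      ((sectionOfLift (derT χ' R i.1) ((heckeSystem χ' i.1).degree)
        (fun b => derT_cobound χ' b) (tw ((a : Module.End R (H1 (epsOf χ) R)) x.1)) :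
          Der (epsOf χ') R) : Gamma0 L → R) g ∈ maximalIdeal R) :
    x.1 ∈ twKer hadm htriv hM tw hf' := by
  have := finite_end_h1 (𝒪 := 𝒪) hadm
  have H := (occurs_twFam hadm htriv hM).exists_inv_sub_algebraMap
    (twFam_comm χ S) i ((i.1 : 𝒪) + 1) (by rw [map_add, map_natCast, map_one]; exact hi)
  have hTm := H.1
  have htx : (twFam χ S i - algebraMap 𝒪 _ ((i.1 : 𝒪) + 1)) x.1 ∈
      twKer hadm htriv hM tw hf' := by
    refine ⟨Submodule.sub_mem _ (twPart_stable hadm htriv hM i x.2)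
      (by rw [Module.algebraMap_end_apply]; exact Submodule.smul_of_tower_mem _ _ x.2), fun a => ?_⟩
    have h2 := redMap_h1T_of_lift hf' hiL (tw ((a : Module.End R (H1 (epsOf χ) R)) x.1)) (hx a)
    have h1 : (a : Module.End R (H1 (epsOf χ) R))
        ((twFam χ S i - algebraMap 𝒪 _ ((i.1 : 𝒪) + 1)) x.1) =
        twFam χ S i ((a : Module.End R (H1 (epsOf χ) R)) x.1) -
          algebraMap 𝒪 R ((i.1 : 𝒪) + 1) • (a : Module.End R (H1 (epsOf χ) R)) x.1 := by
      have h3 := LinearMap.congr_fun (famAlg_commute (twFam_comm χ S) a.2 hTm).eq x.1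
      rw [Module.End.mul_apply, Module.End.mul_apply] at h3
      rw [h3, algebraMap_smul]
      rfl
    obtain ⟨u, hu, hcomm⟩ := htw
    rw [h1, map_sub, map_sub, map_smul, redMap_smul, twFam, ← hcomm, redMap_smul, hu, one_smul,
      h2, sub_self]
  obtain ⟨v, hvm, hv⟩ := H.2
  have h1 := LinearMap.congr_fun hv x.1
  have hxe : twIdem hadm htriv hM x.1 = x.1 :=
    (mem_range_iff_of_idem (twIdem_mul_self hadm htriv hM)).1 x.2
  rw [Module.End.mul_apply, Module.End.mul_apply] at h1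
  change v ((twFam χ S i - algebraMap 𝒪 _ ((i.1 : 𝒪) + 1)) (twIdem hadm htriv hM x.1)) =
    twIdem hadm htriv hM x.1 at h1
  rw [hxe] at h1
  rw [← h1]
  exact famAlg_mem_twKer hadm htriv hM tw hf' ⟨v, hvm⟩ htx

/-- Retraction from residual injectivity on eigen vectors. -/
theorem exists_retraction_of_injOnEigen (hiM : ¬ i.1 ∣ M) {Q : Finset ℕ}
    (hQ : ∀ q ∈ Q, ∃ (hq : q.Prime) (hS : q ∉ S), lam ⟨q, hq, hS⟩ ^ 2 ≠ 1)
    (htw : ∃ u : R, resHom aug u = 1 ∧ ∀ x, u • h1T χ' R i.1 (tw x) = tw (h1T χ R i.1 x))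
    (hinj : InjOnEigen tw hf hf' Q) :
    ∃ r : (famAlg 𝒪 (twFam χ S) → H1 (epsOf χ') R) →ₗ[R] twPart hadm htriv hM,
      ∀ x : twPart hadm htriv hM,
        r (fun a => tw ((a : Module.End R (H1 (epsOf χ) R)) x.1)) = x := by
  have hne : ∃ i : PrimeIdx S, ¬ i.1 ∣ M ∧ lam i ≠ (i.1 : ResidueField 𝒪) + 1 := ⟨i, hiM, hi⟩
  have hfree := (free_twPart hadm htriv hM hne).1
  have hfin := (free_twPart hadm htriv hM hne).2
  let s := sectionOfLift (derT χ' R i.1) ((heckeSystem χ' i.1).degree)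
    (fun b => derT_cobound χ' b)
  let G : (famAlg 𝒪 (twFam χ S) → H1 (epsOf χ') R) →ₗ[R]
      (famAlg 𝒪 (twFam χ S) × Gamma0 L → R) :=
    { toFun := fun φ ag => ((s (φ ag.1) : Der (epsOf χ') R) : Gamma0 L → R) ag.2
      map_add' := fun φ φ' => funext fun ag => by simp
      map_smul' := fun r φ => funext fun ag => by simp }
  let T : twPart hadm htriv hM →ₗ[R] (famAlg 𝒪 (twFam χ S) → H1 (epsOf χ') R) :=
    LinearMap.pi fun a =>
      tw ∘ₗ (a : Module.End R (H1 (epsOf χ) R)) ∘ₗ (twPart hadm htriv hM).subtype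
  have hr := exists_retraction (G ∘ₗ T) fun x hx =>
    mem_smul_top_of_redMap_eq_zero hadm htriv hM hf x
      (redMap_eq_zero_of_mem_twKer hadm htriv hM tw hf hf' hiL hi hQ hinj
        (mem_twKer_of_lift hadm htriv hM tw hf' hiL hi htw x fun a g => hx (a, g)))
  exact hr.elim fun r hr => ⟨r ∘ₗ G, fun x => hr x⟩

end Twist

/-- The twists of the Hecke translates have an `R`-linear retraction onto the module. -/
theorem exists_twist_retraction {p : ℕ} [Fact p.Prime] (hp2 : p ≠ 2)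
    (hk : ∀ a : ResidueField 𝒪, p • a = 0) {N : ℕ} [NeZero N] {Q : Finset ℕ}
    (hMQ : M = N * ∏ q ∈ Q, q) {L : ℕ} (hL : L = M * ∏ q ∈ Q, q)
    (ψ : (ZMod N)ˣ →* Rˣ) (η : ∀ q : ℕ, (ZMod q)ˣ →* Rˣ) (hχ : χ = chiTot ψ η M Q)
    (hψ : ∀ u, aug (ψ u : R) = 1) (hη : ∀ q u, aug (η q u : R) = 1)
    (hQ : ∀ q ∈ Q, ∃ (hq : q.Prime) (hS : q ∉ S), q.Coprime N ∧ q ≠ p ∧
      (q : ResidueField 𝒪) = 1 ∧ lam ⟨q, hq, hS⟩ ^ 2 ≠ 1)
    (hne : ∃ i : PrimeIdx S, ¬ i.1 ∣ L ∧ lam i ≠ (i.1 : ResidueField 𝒪) + 1) :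
    ∃ tw : H1 (epsOf χ) R →ₗ[R] H1 (epsOf (dPart ψ L)) R,
      (∀ (ℓ : ℕ) [Fact ℓ.Prime], ℓ ∉ Q → ∀ x,
        ((∏ q ∈ Q, etaAt η q ℓ : Rˣ) : R) • h1T (dPart ψ L) R ℓ (tw x) = tw (h1T χ R ℓ x)) ∧
      ∃ r : (famAlg 𝒪 (twFam χ S) → H1 (epsOf (dPart ψ L)) R) →ₗ[R] twPart hadm htriv hM,
        ∀ x : twPart hadm htriv hM,
          r (fun a => tw ((a : Module.End R (H1 (epsOf χ) R)) x.1)) = x := by
  subst hχ
  have hψf : ∀ u, resHom aug (ψ u : R) = 1 := fun u => by
    show residue 𝒪 (aug (ψ u : R)) = 1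
    rw [hψ, map_one]
  have hηf : ∀ q u, resHom aug (η q u : R) = 1 := fun q u => by
    show residue 𝒪 (aug (η q u : R)) = 1
    rw [hη, map_one]
  have htc := exists_twistChain η (resHom aug) hp2 hk hηf Q ψ
    (fun q hq => by obtain ⟨h1, -, h2, h3, h4, -⟩ := hQ q hq; exact ⟨h1, h2, h3, h4⟩) hψf M L hMQ hL
  refine htc.elim fun tw h => ⟨tw, h.1, ?_⟩
  obtain ⟨i, hiL, hi⟩ := hne
  have hiM : ¬ i.1 ∣ M := fun h => hiL (hL ▸ h.mul_right _)
  have hiQ : i.1 ∉ Q := fun h => hiM (hMQ ▸ (Finset.dvd_prod_of_mem _ h).mul_left N)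
  refine exists_retraction_of_injOnEigen hadm htriv hM tw _ _ hiL hi hiM
    (fun q hq => by obtain ⟨h1, h2, -, -, -, h5⟩ := hQ q hq; exact ⟨h1, h2, h5⟩)
    ⟨_, ?_, h.1 i.1 hiQ⟩ h.2
  rw [Units.coe_prod, map_prod]
  refine Finset.prod_eq_one fun q _ => ?_
  unfold etaAt
  split_ifs
  · exact hηf q _
  · simp

end Fermat.Agent.TW.Mod
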