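/-
The Hecke algebra of trivial character acts on the Taylor-Wiles module, and on its quotients on
which the remaining character is trivial (owner: helper87).
-/
import Fermat.Agent.TW.Mod.TwistSplit
import Fermat.Agent.LL.Pair.Parabolic
import Fermat.Agent.HK.TRep

set_option autoImplicit false
set_option synthInstance.maxHeartbeats 400000

noncomputable section

namespace Fermat.Agent.TW.Mod

open CongruenceSubgroup IsLocalRing ModularCurve.Period
open Fermat.Agent.HK (heckeHom HSpace TFull heckeAct heckeEnd)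
open Fermat.Agent.LR (Hom1)

/-- An action on `Y` restricts to a module embedded in `Y` which is stable under generators. -/
theorem exists_ringHom_of_injective {R A M Y : Type*} [CommRing R] [Ring A] [AddCommGroup M]
    [Module R M] [AddCommGroup Y] (act : A →+* AddMonoid.End Y) (J : M →+ Y)
    (hJ : Function.Injective J) (G : Set A) (hG : Algebra.adjoin ℤ G = ⊤)
    (hgen : ∀ t ∈ G, ∃ f : Module.End R M, ∀ x, J (f x) = act t (J x)) :
    ∃ Φ : A →+* Module.End R M, ∀ t x, J (Φ t x) = act t (J x) := by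
  have hall : ∀ t : A, ∃ f : Module.End R M, ∀ x, J (f x) = act t (J x) := by
    intro t
    have ht : t ∈ Algebra.adjoin ℤ G := hG ▸ Algebra.mem_top
    induction ht using Algebra.adjoin_induction with
    | mem g hg => exact hgen g hg
    | algebraMap n =>
      exact ⟨(n : Module.End R M), fun x => by simp [Module.End.intCast_apply]⟩
    | add s t _ _ hs ht =>
      obtain ⟨f, hf⟩ := hs
      obtain ⟨g, hg⟩ := ht
      exact ⟨f + g, fun x => by
        rw [LinearMap.add_apply, map_add, hf, hg, map_add]; rfl⟩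
    | mul s t _ _ hs ht =>
      obtain ⟨f, hf⟩ := hs
      obtain ⟨g, hg⟩ := ht
      exact ⟨f * g, fun x => by rw [Module.End.mul_apply, hf, hg, map_mul]; rfl⟩
  choose F hF using hall
  exact ⟨{
    toFun := F
    map_one' := LinearMap.ext fun x => hJ (by rw [hF, map_one]; rfl)
    map_mul' := fun s t => LinearMap.ext fun x => hJ (by
      rw [hF, map_mul, Module.End.mul_apply, hF, hF]; rfl)
    map_zero' := LinearMap.ext fun x => hJ (by
      rw [hF, map_zero, LinearMap.zero_apply, map_zero]; rfl)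
    map_add' := fun s t => LinearMap.ext fun x => hJ (by
      rw [hF, map_add, LinearMap.add_apply, map_add J, hF, hF]; rfl) }, hF⟩

theorem redMap_mkQ_eq_zero_iff {R : Type} [CommRing R] [IsAddTorsionFree R] {M : ℕ} [NeZero M]
    {χ : (ZMod M)ˣ →* Rˣ} (h : Admissible (epsOf χ)) (I : Ideal R)
    (hf : ∀ u, Ideal.Quotient.mk I (χ u : R) = 1) (x : H1 (epsOf χ) R) :
    redMap χ (Ideal.Quotient.mk I) hf x = 0 → x ∈ I • (⊤ : Submodule R (H1 (epsOf χ) R)) := by
  intro hx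
  induction x using Submodule.Quotient.induction_on with
  | _ c =>
    have hc : c ∈ LinearMap.ker (Der.map (ε := epsOf χ) I.mkQ) := by
      rw [LinearMap.mem_ker]
      refine Subtype.ext (funext fun g => ?_)
      exact DFunLike.congr_fun hx (Additive.ofMul g)
    rw [h.ker_der_map, Submodule.ker_mkQ] at hc
    have := Submodule.mem_map_of_mem (f := (LinearMap.range (cobound (epsOf χ) R)).mkQ) hc
    rw [Submodule.map_smul''] at this
    exact Submodule.smul_mono le_rfl le_top this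

/-- The Hecke algebra prime to `T` inside the full one. -/
def toFullHecke (L : ℕ) [NeZero L] (T : Set ℕ) :
    CuspForm.heckeAlgebra L 2 T →+* TFull L :=
  (Subalgebra.inclusion (CuspForm.heckeAlgebra_mono (Set.empty_subset T))).toRingHom

variable {𝒪 : Type} [CommRing 𝒪] [IsDomain 𝒪] [IsDiscreteValuationRing 𝒪]
  [IsAdicComplete (maximalIdeal 𝒪) 𝒪] [IsAddTorsionFree 𝒪]
variable {R : Type} [CommRing R] [Algebra 𝒪 R] [IsLocalRing R] [Module.Finite 𝒪 R]
  [IsAddTorsionFree R]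
variable {aug : R →ₐ[𝒪] 𝒪} {S : Set ℕ}
variable {M : ℕ} [NeZero M] {χ : (ZMod M)ˣ →* Rˣ} (hadm : Admissible (epsOf χ))
  (htriv : ∀ u, aug (χ u : R) = 1) {lam : PrimeIdx S → ResidueField 𝒪}
  (hM : Occurs 𝒪 (heckeFam 𝒪 M S) lam)

/-- The Hecke operators of the module. -/
def twPartOp (i : PrimeIdx S) : Module.End R (twPart hadm htriv hM) :=
  (twFam χ S i).restrict fun _ hx => twPart_stable hadm htriv hM i hx

/-- Away from Eisenstein, `T - u (ℓ + 1)` is surjective on the module. -/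
theorem exists_sub_smul_preimage
    {i : PrimeIdx S} (hiM : ¬ i.1 ∣ M) (hi : lam i ≠ (i.1 : ResidueField 𝒪) + 1)
    {u : R} (hu : u - 1 ∈ maximalIdeal R) (x : twPart hadm htriv hM) :
    ∃ y : twPart hadm htriv hM, x.1 = twFam χ S i y.1 - (u * ((i.1 : R) + 1)) • y.1 := by
  have := finite_end_h1 (𝒪 := 𝒪) hadm
  have := hadm.finite_der (A := R)
  have hfin := (free_twPart hadm htriv hM ⟨i, hiM, hi⟩).2
  have h := (occurs_twFam hadm htriv hM).exists_inv_sub_algebraMap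
    (twFam_comm χ S) i ((i.1 : 𝒪) + 1) (by rw [map_add, map_natCast, map_one]; exact hi)
  obtain ⟨hTm, v, hvm, hv⟩ := h
  have hr : (u - 1) * ((i.1 : R) + 1) ∈ maximalIdeal R := Ideal.mul_mem_right _ _ hu
  have het : Commute (twIdem hadm htriv hM) (twFam χ S i - algebraMap 𝒪 _ ((i.1 : 𝒪) + 1)) :=
    ((occurs_twFam hadm htriv hM).commute_idem (twFam_comm χ S) hTm).symm
  have hev : Commute (twIdem hadm htriv hM) v :=
    ((occurs_twFam hadm htriv hM).commute_idem (twFam_comm χ S) hvm).symm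
  obtain ⟨v', hv'⟩ := exists_inv_sub_smul het hev (famAlg_commute (twFam_comm χ S) hvm hTm)
    (twIdem_mul_self hadm htriv hM) hv hr
  let F : Module.End R (twPart hadm htriv hM) :=
    twPartOp hadm htriv hM i - (u * ((i.1 : R) + 1)) • 1
  let G : Module.End R (twPart hadm htriv hM) :=
    LinearMap.codRestrict _ ((twIdem hadm htriv hM * v') ∘ₗ (twPart hadm htriv hM).subtype)
      fun y => LinearMap.mem_range_self _ _
  have hGF : G * F = 1 := by
    refine LinearMap.ext fun y => Subtype.ext ?_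
    have hye : twIdem hadm htriv hM y.1 = y.1 :=
      (mem_range_iff_of_idem (twIdem_mul_self hadm htriv hM)).1 y.2
    have h1 := LinearMap.congr_fun hv' y.1
    simp only [Module.End.mul_apply, hye] at h1
    refine Eq.trans ?_ h1
    show twIdem hadm htriv hM (v' (twFam χ S i y.1 - (u * ((i.1 : R) + 1)) • y.1)) = _
    refine congrArg (fun z => twIdem hadm htriv hM (v' z)) ?_
    rw [LinearMap.sub_apply, LinearMap.sub_apply, LinearMap.smul_apply, Module.End.one_apply,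
      Module.algebraMap_end_apply, ← algebraMap_smul R ((i.1 : 𝒪) + 1) y.1, map_add, map_natCast,
      map_one, sub_sub, ← add_smul]
    congr 2
    ring
  have hsurj : Function.Surjective G := fun y => ⟨F y, LinearMap.congr_fun hGF y⟩
  have hinj := OrzechProperty.injective_of_surjective_endomorphism G hsurj
  refine ⟨G x, (congrArg Subtype.val (hinj (LinearMap.congr_fun hGF (G x)))).symm.trans ?_⟩
  rfl

omit [NeZero M] in
/-- `u • (T z - (ℓ + 1) • z)` reduces to a parabolic class. -/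
theorem redMap_sub_smul_parabolic {L : ℕ} [NeZero L] {χ' : (ZMod L)ˣ →* Rˣ} {R' : Type}
    [CommRing R'] [IsAddTorsionFree R'] (f : R →+* R') (hf : ∀ u, f (χ' u : R) = 1) {ℓ : ℕ}
    [Fact ℓ.Prime] (hℓ1 : (ℓ : ZMod L) = 1) (hℓL : ¬ ℓ ∣ L) (u : R) (z : H1 (epsOf χ') R) :
    IsParabolicHom (Gamma0 L)
      (redMap χ' f hf (u • h1T χ' R ℓ z - (u * ((ℓ : R) + 1)) • z)) := by
  rw [mul_smul, ← smul_sub, redMap_smul, map_sub, redMap_smul, redMap_h1T, map_add f,
    map_natCast f, map_one f]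
  have h := LL.Pair.isParabolicHom_heckeHom_sub (R := R') hℓ1 hℓL (redMap χ' f hf z)
  have e : ((ℓ : R') + 1) • redMap χ' f hf z = ((ℓ : ℤ) + 1) • redMap χ' f hf z := by
    rw [← Int.cast_smul_eq_zsmul R']
    push_cast
    rfl
  rw [e]
  exact Submodule.smul_mem (parabolicHoms R' (Gamma0 L) R') (f u) h

omit [NeZero M] in
/-- Twisted translates are parabolic modulo the character left after twisting. -/
theorem redMap_tw_mem_parabolic {L : ℕ} [NeZero L] {χ' : (ZMod L)ˣ →* Rˣ}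
    (tw : H1 (epsOf χ) R →ₗ[R] H1 (epsOf χ') R) {R' : Type} [CommRing R'] [IsAddTorsionFree R']
    (f : R →+* R') (hf : ∀ u, f (χ' u : R) = 1) {i : PrimeIdx S} (hi1 : (i.1 : ZMod L) = 1)
    (hiL : ¬ i.1 ∣ L) {u : R} (hu : ∀ x, u • h1T χ' R i.1 (tw x) = tw (h1T χ R i.1 x))
    (A : Module.End R (H1 (epsOf χ) R)) (hA : Commute A (twFam χ S i)) {x y : H1 (epsOf χ) R}
    (hxy : x = twFam χ S i y - (u * ((i.1 : R) + 1)) • y) :
    IsParabolicHom (Gamma0 L) (redMap χ' f hf (tw (A x))) := by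
  have h1 : A x = h1T χ R i.1 (A y) - (u * ((i.1 : R) + 1)) • A y := by
    rw [hxy, map_sub, LinearMap.map_smul]
    exact congrArg (· - _) (LinearMap.congr_fun hA.eq y)
  have h2 : tw (A x) = u • h1T χ' R i.1 (tw (A y)) - (u * ((i.1 : R) + 1)) • tw (A y) := by
    rw [h1, map_sub, LinearMap.map_smul, ← hu]
  rw [h2]
  exact redMap_sub_smul_parabolic f hf hi1 hiL u _

/-- A module embedded in parabolic families and stable under `T_ℓ` carries the Hecke algebra. -/
theorem exists_heckeAlgebra_action {R' Mq : Type} [CommRing R'] [IsAddTorsionFree R']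
    [AddCommGroup Mq] {R₀ : Type} [CommRing R₀] [Module R₀ Mq] {X : Type} {L : ℕ} [NeZero L]
    {T : Set ℕ} (hLT : ∀ q : ℕ, q.Prime → q ∣ L → q ∈ T) (J : Mq →+ (X → Hom1 L R'))
    (hJ : Function.Injective J) (hpar : ∀ x a, IsParabolicHom (Gamma0 L) (J x a))
    (op : ∀ (ℓ : ℕ), ℓ.Prime → ℓ ∉ T → Module.End R₀ Mq)
    (hop : ∀ (ℓ : ℕ) [Fact ℓ.Prime] (hℓ : ℓ.Prime) (hℓT : ℓ ∉ T) x a,
      J (op ℓ hℓ hℓT x) a = heckeHom L ℓ R' R' (J x a)) :
    ∃ Φ : ↥(CuspForm.heckeAlgebra L 2 T) →+* Module.End R₀ Mq,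
      ∀ (ℓ : ℕ) (hℓ : ℓ.Prime) (hℓL : ¬ ℓ ∣ L) (hℓT : ℓ ∉ T),
        Φ (CuspForm.heckeAlgebra.T hℓ hℓL hℓT) = op ℓ hℓ hℓT := by
  let J' : Mq →+ (X → HSpace L R') :=
    { toFun := fun x a => HK.HSpace.mk (J x a) (hpar x a)
      map_zero' := funext fun a => HK.HSpace.hom_injective (congrFun (map_zero J) a)
      map_add' := fun x y => funext fun a =>
        HK.HSpace.hom_injective (congrFun (map_add J x y) a) }
  have hJ' : Function.Injective J' := fun x y h => hJ (funext fun a => by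
    exact congrArg HK.HSpace.hom (congrFun h a))
  let act : ↥(CuspForm.heckeAlgebra L 2 T) →+* AddMonoid.End (X → HSpace L R') :=
    { toFun := fun t => AddMonoidHom.mk'
        (fun v a => heckeAct L R' (toFullHecke L T t) (v a))
        fun v v' => funext fun a => map_add _ _ _
      map_one' := AddMonoidHom.ext fun v => funext fun a => by
        show heckeAct L _ (toFullHecke L T 1) (v a) = v a
        rw [map_one, map_one]; rfl
      map_mul' := fun s t => AddMonoidHom.ext fun v => funext fun a => by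
        show heckeAct L _ (toFullHecke L T (s * t)) (v a) =
          heckeAct L _ (toFullHecke L T s) (heckeAct L _ (toFullHecke L T t) (v a))
        rw [map_mul, map_mul]; rfl
      map_zero' := AddMonoidHom.ext fun v => funext fun a => by
        show heckeAct L _ (toFullHecke L T 0) (v a) = 0
        rw [map_zero, map_zero]; rfl
      map_add' := fun s t => AddMonoidHom.ext fun v => funext fun a => by
        show heckeAct L _ (toFullHecke L T (s + t)) (v a) =
          heckeAct L _ (toFullHecke L T s) (v a) + heckeAct L _ (toFullHecke L T t) (v a)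
        rw [map_add, map_add]; rfl }
  have hT : ∀ (ℓ : ℕ) (hℓ : ℓ.Prime) (hℓL : ¬ ℓ ∣ L) (hℓT : ℓ ∉ T) (x : Mq),
      J' (op ℓ hℓ hℓT x) = act (CuspForm.heckeAlgebra.T hℓ hℓL hℓT) (J' x) := by
    intro ℓ hℓ hℓL hℓT x
    haveI : Fact ℓ.Prime := ⟨hℓ⟩
    refine funext fun a => HK.HSpace.hom_injective ?_
    show J (op ℓ hℓ hℓT x) a =
      (heckeAct L _ (toFullHecke L T (CuspForm.heckeAlgebra.T hℓ hℓL hℓT)) (J' x a)).hom
    rw [show toFullHecke L T (CuspForm.heckeAlgebra.T hℓ hℓL hℓT) =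
      CuspForm.heckeFormsGen L 2 ⟨ℓ, hℓ⟩ by
        rw [CuspForm.heckeFormsGen_of_not_dvd (show ¬ ((⟨ℓ, hℓ⟩ : Nat.Primes) : ℕ) ∣ L from hℓL)]
        rfl]
    rw [show heckeAct L R' (CuspForm.heckeFormsGen L 2 ⟨ℓ, hℓ⟩) = heckeEnd L ℓ R' from
      HK.heckeAct_heckeFormsGen L _ ⟨ℓ, hℓ⟩, HK.hom_heckeEnd, hop]
    rfl
  have hgen : Algebra.adjoin ℤ {t : ↥(CuspForm.heckeAlgebra L 2 T) |
      ∃ (ℓ : ℕ) (hℓ : ℓ.Prime) (hℓL : ¬ ℓ ∣ L) (hℓT : ℓ ∉ T),
        t = CuspForm.heckeAlgebra.T hℓ hℓL hℓT} = ⊤ := by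
    refine eq_top_iff.2 ?_
    rintro ⟨t, ht⟩ -
    induction ht using Algebra.adjoin_induction with
    | mem g hg =>
      rcases hg with ⟨ℓ, hℓ, hℓL, hℓT, rfl⟩ | ⟨q, hqL, hq, hqT, rfl⟩
      · exact Algebra.subset_adjoin ⟨ℓ, hℓ, hℓL, hℓT, rfl⟩
      · exact absurd (hLT q hq hqL) hqT
    | algebraMap n => exact Subalgebra.algebraMap_mem _ n
    | add x y hx hy hx' hy' => exact add_mem hx' hy'
    | mul x y hx hy hx' hy' => exact mul_mem hx' hy'
  obtain ⟨Φ, hΦ⟩ := exists_ringHom_of_injective (R := R₀) act J' hJ' _ hgen (by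
    rintro t ⟨ℓ, hℓ, hℓL, hℓT, rfl⟩
    exact ⟨op ℓ hℓ hℓT, hT ℓ hℓ hℓL hℓT⟩)
  exact ⟨Φ, fun ℓ hℓ hℓL hℓT => LinearMap.ext fun x => hJ' (by rw [hΦ, hT _ _ hℓL])⟩

/-- A family of reductions vanishing modulo `(d)` comes from `(d)`. -/
theorem mem_span_smul_of_redMap_eq_zero {L : ℕ} [NeZero L] {χ' : (ZMod L)ˣ →* Rˣ}
    (hadm' : Admissible (epsOf χ')) (d : R)
    (hf : ∀ u, Ideal.Quotient.mk (Ideal.span {d}) (χ' u : R) = 1)
    {X P : Type*} [AddCommGroup P] [Module R P] (r : (X → H1 (epsOf χ') R) →ₗ[R] P)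
    (g : X → H1 (epsOf χ') R)
    (h : ∀ a, redMap χ' (Ideal.Quotient.mk (Ideal.span {d})) hf (g a) = 0) :
    r g ∈ Ideal.span {d} • (⊤ : Submodule R P) := by
  have hmem : ∀ a, ∃ z : H1 (epsOf χ') R, d • z = g a := fun a => by
    have h1 := redMap_mkQ_eq_zero_iff hadm' (Ideal.span {d}) hf _ (h a)
    rw [Submodule.ideal_span_singleton_smul] at h1
    obtain ⟨z, -, hz⟩ := h1
    exact ⟨z, hz⟩
  choose z hz using hmem
  rw [show g = d • z from funext fun a => (hz a).symm, map_smul]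
  exact Submodule.smul_mem_smul (Ideal.mem_span_singleton_self d) Submodule.mem_top

/-- Reduced twisted translates vanish on `(d)` and detect it. -/
theorem exists_embedding_aux {L : ℕ} [NeZero L] {χ' : (ZMod L)ˣ →* Rˣ}
    (hadm' : Admissible (epsOf χ')) (d : R)
    (hf : ∀ u, Ideal.Quotient.mk (Ideal.span {d}) (χ' u : R) = 1)
    {X P : Type*} [AddCommGroup P] [Module R P] (r : (X → H1 (epsOf χ') R) →ₗ[R] P)
    (T : P →ₗ[R] (X → H1 (epsOf χ') R)) (hr : ∀ x, r (T x) = x) :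
    ∃ J : (P ⧸ Ideal.span {d} • (⊤ : Submodule R P)) →+ (X → Hom1 L (R ⧸ Ideal.span {d})),
      Function.Injective J ∧ ∀ x a, J (Submodule.Quotient.mk x) a =
        redMap χ' (Ideal.Quotient.mk (Ideal.span {d})) hf (T x a) := by
  let J0 : P →+ (X → Hom1 L (R ⧸ Ideal.span {d})) :=
    AddMonoidHom.mk' (fun x a => redMap χ' (Ideal.Quotient.mk (Ideal.span {d})) hf (T x a))
      fun x y => funext fun a => by rw [Pi.add_apply, map_add, Pi.add_apply, map_add]
  have hker : ∀ x, J0 x = 0 ↔ x ∈ Ideal.span {d} • (⊤ : Submodule R P) := by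
    intro x
    constructor
    · intro hx
      rw [← hr x]
      exact mem_span_smul_of_redMap_eq_zero hadm' d hf r _ fun a => congrFun hx a
    · intro hx
      rw [Submodule.ideal_span_singleton_smul] at hx
      obtain ⟨y, -, rfl⟩ := hx
      refine funext fun a => ?_
      show redMap χ' _ hf (T (d • y) a) = 0
      rw [map_smul, Pi.smul_apply, redMap_smul,
        Ideal.Quotient.eq_zero_iff_mem.2 (Ideal.mem_span_singleton_self d)]
      exact zero_smul (R ⧸ Ideal.span {d}) _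
  refine ⟨QuotientAddGroup.lift (Ideal.span {d} • (⊤ : Submodule R P)).toAddSubgroup J0
    fun x hx => (hker x).2 hx, ?_, fun x a => rfl⟩
  intro x y hxy
  induction x using Submodule.Quotient.induction_on with
  | _ x =>
    induction y using Submodule.Quotient.induction_on with
    | _ y =>
      refine (Submodule.Quotient.eq _).2 ((hker _).1 ?_)
      rw [map_sub, sub_eq_zero]
      exact hxy

/-- The translates of the classes of the module. -/
def translates {L : ℕ} {χ' : (ZMod L)ˣ →* Rˣ} (tw : H1 (epsOf χ) R →ₗ[R] H1 (epsOf χ') R) :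
    twPart hadm htriv hM →ₗ[R] (famAlg 𝒪 (twFam χ S) → H1 (epsOf χ') R) :=
  LinearMap.pi fun a =>
    tw ∘ₗ (a : Module.End R (H1 (epsOf χ) R)) ∘ₗ (twPart hadm htriv hM).subtype

omit [NeZero M] in
/-- The inverse twisted operator becomes `T_ℓ` after twisting. -/
theorem redMap_tw_op {L : ℕ} {χ' : (ZMod L)ˣ →* Rˣ} (tw : H1 (epsOf χ) R →ₗ[R] H1 (epsOf χ') R)
    {R' : Type} [CommRing R'] (f : R →+* R') (hf : ∀ u, f (χ' u : R) = 1) {i : PrimeIdx S}
    (w : Rˣ) (hw : ∀ x, (w : R) • h1T χ' R i.1 (tw x) = tw (h1T χ R i.1 x))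
    (A : Module.End R (H1 (epsOf χ) R)) (hA : Commute A (twFam χ S i)) (x : H1 (epsOf χ) R) :
    redMap χ' f hf (tw (A (((w⁻¹ : Rˣ) : R) • twFam χ S i x))) =
      heckeHom L i.1 R' R' (redMap χ' f hf (tw (A x))) := by
  have h1 : A (twFam χ S i x) = h1T χ R i.1 (A x) := LinearMap.congr_fun hA.eq x
  rw [LinearMap.map_smul, h1, LinearMap.map_smul, ← hw, smul_smul, ← Units.val_mul,
    inv_mul_cancel, Units.val_one, one_smul, redMap_h1T]

set_option maxHeartbeats 800000 in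
/-- The Hecke algebra of trivial character acts on the quotient of the module by an ideal `(d)`
modulo which the character left after twisting is trivial. -/
theorem exists_twHecke {p : ℕ} [Fact p.Prime] (hp2 : p ≠ 2)
    (hk : ∀ a : ResidueField 𝒪, p • a = 0) {N : ℕ} [NeZero N] {Q : Finset ℕ}
    (hMQ : M = N * ∏ q ∈ Q, q) {L : ℕ} [NeZero L] (hL : L = M * ∏ q ∈ Q, q)
    (ψ : (ZMod N)ˣ →* Rˣ) (η : ∀ q : ℕ, (ZMod q)ˣ →* Rˣ) (hχ : χ = chiTot ψ η M Q)
    (hψ : ∀ u, aug (ψ u : R) = 1) (hη : ∀ q u, aug (η q u : R) = 1)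
    (hQ : ∀ q ∈ Q, ∃ (hq : q.Prime) (hS : q ∉ S), q.Coprime N ∧ q ≠ p ∧
      (q : ResidueField 𝒪) = 1 ∧ lam ⟨q, hq, hS⟩ ^ 2 ≠ 1)
    (hne : ∃ i : PrimeIdx S, (i.1 : ZMod L) = 1 ∧ ¬ i.1 ∣ L ∧
      lam i ≠ (i.1 : ResidueField 𝒪) + 1)
    (hadm' : Admissible (epsOf (dPart ψ L))) (d : R)
    (hd : ∀ u, (ψ u : R) - 1 ∈ Ideal.span {d}) [IsAddTorsionFree (R ⧸ Ideal.span {d})]
    (T : Set ℕ) (hLT : ∀ q : ℕ, q.Prime → q ∣ L → q ∈ T)
    (hT : ∀ ℓ : ℕ, ℓ.Prime → ℓ ∉ T → ℓ ∉ S) :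
    ∃ Φ : ↥(CuspForm.heckeAlgebra L 2 T) →+*
        Module.End R (twPart hadm htriv hM ⧸
          Ideal.span {d} • (⊤ : Submodule R (twPart hadm htriv hM))),
      ∀ (ℓ : ℕ) (hℓ : ℓ.Prime) (hℓL : ¬ ℓ ∣ L) (hℓT : ℓ ∉ T) (x : twPart hadm htriv hM),
        Φ (CuspForm.heckeAlgebra.T hℓ hℓL hℓT) (Submodule.Quotient.mk x) =
          Submodule.Quotient.mk (((((∏ q ∈ Q, etaAt η q ℓ)⁻¹ : Rˣ) : R)) •
            twPartOp hadm htriv hM ⟨ℓ, hℓ, hT ℓ hℓ hℓT⟩ x) := by
  classical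
  obtain ⟨i, hi1, hiL, hi⟩ := hne
  have hsplit := exists_twist_retraction hadm htriv hM hp2 hk hMQ hL ψ η hχ hψ hη hQ
    ⟨i, hiL, hi⟩
  refine hsplit.elim fun tw hspl => ?_
  refine hspl.2.elim fun r hr => ?_
  have hψ' : ∀ u, Ideal.Quotient.mk (Ideal.span {d}) (dPart ψ L u : R) = 1 :=
    f_dPart _ ψ (fun u => ((map_one _).symm.trans (Ideal.Quotient.eq.2 (hd u)).symm).symm) L
  have hiM : ¬ i.1 ∣ M := fun h => hiL (hL ▸ h.mul_right _)
  have hiQ : i.1 ∉ Q := fun h => hiM (hMQ ▸ (Finset.dvd_prod_of_mem _ h).mul_left N)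
  have hwm : ((∏ q ∈ Q, etaAt η q i.1 : Rˣ) : R) - 1 ∈ maximalIdeal R := by
    refine IsLocalRing.le_maximalIdeal (RingHom.ker_ne_top aug.toRingHom) ?_
    rw [RingHom.mem_ker, map_sub, map_one, sub_eq_zero, Units.coe_prod, map_prod]
    refine Finset.prod_eq_one fun q _ => ?_
    unfold etaAt
    split_ifs
    · exact hη q _
    · simp
  refine (exists_embedding_aux hadm' d hψ' r (translates hadm htriv hM tw) hr).elim fun J hJ => ?_
  have hpar : ∀ x a, IsParabolicHom (Gamma0 L) (J x a) := by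
    intro x a
    induction x using Submodule.Quotient.induction_on with
    | _ x =>
      rw [hJ.2]
      exact (exists_sub_smul_preimage hadm htriv hM hiM hi hwm x).elim fun y hy =>
        redMap_tw_mem_parabolic tw _ hψ' hi1 hiL (hspl.1 i.1 hiQ) a.1
          (famAlg_commute (twFam_comm χ S) a.2 (famGen 𝒪 _ i).2) hy
  let op : ∀ (ℓ : ℕ), ℓ.Prime → ℓ ∉ T → Module.End R (twPart hadm htriv hM ⧸
      Ideal.span {d} • (⊤ : Submodule R (twPart hadm htriv hM))) := fun ℓ hℓ hℓT =>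
    Submodule.mapQ _ _ ((((∏ q ∈ Q, etaAt η q ℓ)⁻¹ : Rˣ) : R) •
      twPartOp hadm htriv hM ⟨ℓ, hℓ, hT ℓ hℓ hℓT⟩)
      (Submodule.map_le_iff_le_comap.1
        (by rw [Submodule.map_smul'']; exact Submodule.smul_mono le_rfl le_top))
  have hop : ∀ (ℓ : ℕ) [Fact ℓ.Prime] (hℓ : ℓ.Prime) (hℓT : ℓ ∉ T) x a,
      J (op ℓ hℓ hℓT x) a =
      heckeHom L ℓ (R ⧸ Ideal.span {d}) (R ⧸ Ideal.span {d}) (J x a) := by
    intro ℓ _ hℓ hℓT x a
    induction x using Submodule.Quotient.induction_on with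
    | _ x =>
      have hℓQ : ℓ ∉ Q := fun h => hℓT (hLT ℓ hℓ (hL ▸ (Finset.dvd_prod_of_mem _ h).mul_left M))
      show J (Submodule.Quotient.mk ((((∏ q ∈ Q, etaAt η q ℓ)⁻¹ : Rˣ) : R) •
        twPartOp hadm htriv hM ⟨ℓ, hℓ, hT ℓ hℓ hℓT⟩ x)) a = _
      rw [hJ.2, hJ.2]
      exact redMap_tw_op (i := (⟨ℓ, hℓ, hT ℓ hℓ hℓT⟩ : PrimeIdx S)) tw _ hψ' _
        (hspl.1 ℓ hℓQ) a.1 (famAlg_commute (twFam_comm χ S) a.2 (famGen 𝒪 _ _).2) x.1
  exact (exists_heckeAlgebra_action hLT J hJ.1 hpar op hop).elim fun Φ hΦ =>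
    ⟨Φ, fun ℓ hℓ hℓL hℓT x => by rw [hΦ ℓ hℓ hℓL hℓT]; rfl⟩

end Fermat.Agent.TW.Mod
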