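/-
Characters of depth: Nebentypus characters of Taylor-Wiles type kill the elements of finite order
(owner: helper87).
-/
import Fermat.Agent.TW.Mod.Hecke
import Fermat.Agent.TW.Mod.Free
import Fermat.Agent.HK.RootChar

set_option autoImplicit false

namespace Fermat.Agent.TW.Mod

open CongruenceSubgroup
open scoped MatrixGroups

/-- Elements of finite order of `SL(2, ℤ)` have order dividing twelve. -/
theorem pow_twelve_of_isOfFinOrder {g : SL(2, ℤ)} (hg : IsOfFinOrder g) : g ^ 12 = 1 := by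
  rcases MF.Cosets.trace_sq_lt_four_of_isOfFinOrder hg with rfl | rfl | h
  · exact one_pow _
  · exact Even.neg_one_pow (by decide)
  · exact HK.pow_twelve_eq_one_of_trace_sq_lt_four h

/-- A character trivial on twelfth roots of unity is admissible. -/
theorem admissible_epsOf {M : ℕ} {R : Type*} [CommRing R] (χ : (ZMod M)ˣ →* Rˣ)
    (h : ∀ u : (ZMod M)ˣ, u ^ 12 = 1 → χ u = 1) : Admissible (epsOf χ) := by
  refine ⟨by simp [Gamma0_mem], fun γ hγ => h _ ?_⟩
  have h12 : γ ^ 12 = 1 := Subtype.ext (by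
    rw [SubmonoidClass.coe_pow]
    exact pow_twelve_of_isOfFinOrder ((Subgroup.subtype _).isOfFinOrder hγ))
  rw [← map_pow, h12, map_one]

/-- A homomorphism to a group of exponent `p ^ m` from a cyclic group of order divisible by
`p ^ (m + 1)` kills the elements of order `p`. -/
theorem apply_eq_one_of_pow_prime {G H : Type*} [CommGroup G] [CommMonoid H] (f : G →* H) {g : G}
    (hg : ∀ u : G, ∃ j : ℕ, g ^ j = u) {p m : ℕ} (hp : p.Prime)
    (hord : p ^ (m + 1) ∣ orderOf g) (hH : ∀ x, f x ^ p ^ m = 1) {u : G} (hu : u ^ p = 1) :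
    f u = 1 := by
  obtain ⟨j, rfl⟩ := hg u
  rw [← pow_mul] at hu
  have h1 : p * p ^ m ∣ p * j := by
    rw [← pow_succ', mul_comm p j]
    exact hord.trans (orderOf_dvd_of_pow_eq_one hu)
  obtain ⟨i, hi⟩ := (mul_dvd_mul_iff_left hp.ne_zero).1 h1
  rw [hi, map_pow, pow_mul, hH, one_pow]

/-- Such a homomorphism kills twelfth roots of unity, for odd `p`. -/
theorem apply_eq_one_of_pow_twelve {G H : Type*} [CommGroup G] [CommMonoid H] (f : G →* H) {g : G}
    (hg : ∀ u : G, ∃ j : ℕ, g ^ j = u) {p m : ℕ} (hp : p.Prime) (hp2 : p ≠ 2)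
    (hord : p ^ (m + 1) ∣ orderOf g) (hH : ∀ x, f x ^ p ^ m = 1) {u : G} (hu : u ^ 12 = 1) :
    f u = 1 := by
  have h4 : Nat.Coprime 4 (p ^ m) := Nat.Coprime.pow_right _
    (((Nat.coprime_primes Nat.prime_two hp).2 hp2.symm).pow_left 2)
  by_cases hp3 : p = 3
  · subst hp3
    have h1 : f u ^ 4 = 1 := by
      rw [← map_pow]
      exact apply_eq_one_of_pow_prime f hg hp hord hH (by rw [← pow_mul]; exact hu)
    exact (by
      have h2 := pow_gcd_eq_one.2 ⟨h1, hH u⟩
      rwa [h4.gcd_eq_one, pow_one] at h2)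
  · have h12 : Nat.Coprime 12 (p ^ m) := by
      refine Nat.Coprime.pow_right _ (Nat.Coprime.symm ((hp.coprime_iff_not_dvd).2 fun h => ?_))
      rcases hp.dvd_mul.1 (show p ∣ 2 ^ 2 * 3 by simpa using h) with h' | h'
      · exact hp2 ((Nat.prime_dvd_prime_iff_eq hp Nat.prime_two).1 (hp.dvd_of_dvd_pow h'))
      · exact hp3 ((Nat.prime_dvd_prime_iff_eq hp Nat.prime_three).1 h')
    have h2 := pow_gcd_eq_one.2 ⟨(by rw [← map_pow, hu, map_one] : f u ^ 12 = 1), hH u⟩
    rwa [h12.gcd_eq_one, pow_one] at h2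

end Fermat.Agent.TW.Mod
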