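/-
The Jacobi sums occurring in `tw' ∘ tw` (owner: helper87).
-/
import Mathlib.Algebra.Field.ZMod
import Mathlib.RingTheory.IntegralDomain
import Mathlib.Algebra.Module.BigOperators
import Mathlib.Tactic

set_option autoImplicit false

namespace Fermat.Agent.TW.Mod

variable {q : ℕ} [hq : Fact q.Prime] {R : Type*} [CommRing R] [IsDomain R]

open scoped Classical in
/-- A character of `(ℤ/q)ˣ` extended by zero. -/
noncomputable def extChar (η : (ZMod q)ˣ →* Rˣ) (x : ZMod q) : R :=
  if h : x = 0 then 0 else (η (Units.mk0 x h) : R)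

omit [IsDomain R] in
@[simp] theorem extChar_coe (η : (ZMod q)ˣ →* Rˣ) (u : (ZMod q)ˣ) :
    extChar η (u : ZMod q) = (η u : R) := by
  rw [extChar, dif_neg u.ne_zero, Units.mk0_val]

omit [IsDomain R] in
@[simp] theorem extChar_zero (η : (ZMod q)ˣ →* Rˣ) : extChar η 0 = 0 := by simp [extChar]

omit [IsDomain R] in
theorem extChar_mul (η : (ZMod q)ˣ →* Rˣ) (x y : ZMod q) :
    extChar η (x * y) = extChar η x * extChar η y := by
  rcases eq_or_ne x 0 with rfl | hx
  · simp
  rcases eq_or_ne y 0 with rfl | hy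
  · simp
  obtain ⟨u, rfl⟩ : ∃ u : (ZMod q)ˣ, (u : ZMod q) = x := ⟨Units.mk0 x hx, rfl⟩
  obtain ⟨v, rfl⟩ : ∃ v : (ZMod q)ˣ, (v : ZMod q) = y := ⟨Units.mk0 y hy, rfl⟩
  rw [← Units.val_mul, extChar_coe, extChar_coe, extChar_coe, map_mul, Units.val_mul]

theorem sum_units_char_eq_zero {η : (ZMod q)ˣ →* Rˣ} (hη : η ≠ 1) :
    ∑ u : (ZMod q)ˣ, (η u : R) = 0 := by
  have h := sum_hom_units_eq_zero ((Units.coeHom R).comp η) (fun e => hη (MonoidHom.ext fun u =>
    Units.ext (by simpa using DFunLike.congr_fun e u)))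
  simpa using h

/-- `∑ᵤ η(u) η(v - u)⁻¹`. -/
theorem sum_char_mul_inv_char {η : (ZMod q)ˣ →* Rˣ} (hη : η ≠ 1) (v : ZMod q) :
    ∑ u : (ZMod q)ˣ, (η u : R) * extChar η⁻¹ (v - u) =
      (η (-1) : R) * (if v = 0 then (q : R) - 1 else -1) := by
  classical
  have hinv : ∀ u : (ZMod q)ˣ, ((η⁻¹) u : R) = (η u⁻¹ : R) := fun u => by
    rw [MonoidHom.inv_apply, map_inv]
  split_ifs with hv
  · subst hv
    have : ∀ u : (ZMod q)ˣ, (η u : R) * extChar η⁻¹ (0 - (u : ZMod q)) = (η (-1) : R) := fun u => by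
      rw [zero_sub, ← Units.val_neg, extChar_coe, hinv, ← Units.val_mul, ← map_mul]
      simp [inv_neg]
    rw [Finset.sum_congr rfl fun u _ => this u, Finset.sum_const, Finset.card_univ,
      ZMod.card_units, nsmul_eq_mul, Nat.cast_sub hq.out.one_le, Nat.cast_one, mul_comm]
  · -- `u ↦ (v - u) / u` is injective on units with image missing exactly `-1`
    have key : ∀ u : (ZMod q)ˣ, (η u : R) * extChar η⁻¹ (v - u) =
        extChar η⁻¹ ((v - u) * (u⁻¹ : (ZMod q)ˣ)) := by
      intro u
      rw [extChar_mul, extChar_coe, hinv, inv_inv, mul_comm]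
    rw [Finset.sum_congr rfl fun u _ => key u]
    have himg : ∑ u : (ZMod q)ˣ, extChar η⁻¹ ((v - u) * (u⁻¹ : (ZMod q)ˣ)) =
        ∑ x ∈ Finset.univ.erase (-1 : ZMod q), extChar η⁻¹ x := by
      refine Finset.sum_bij (fun u _ => (v - u) * ((u⁻¹ : (ZMod q)ˣ) : ZMod q)) ?_ ?_ ?_ fun _ _ => rfl
      · intro u _
        simp only [Finset.mem_erase, Finset.mem_univ, and_true]
        intro h
        apply hv
        have := congrArg (· * (u : ZMod q)) h
        simp only [mul_assoc, Units.inv_mul, mul_one] at this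
        linear_combination this
      · intro u _ u' _ h
        apply Units.ext
        simp only [Units.val_inv_eq_inv_val] at h
        field_simp at h
        have : v * (u' : ZMod q) = v * (u : ZMod q) := by linear_combination h
        exact (mul_left_cancel₀ hv this).symm
      · intro x hx
        simp only [Finset.mem_erase, Finset.mem_univ, and_true] at hx
        have h1 : x + 1 ≠ 0 := fun h => hx (eq_neg_of_add_eq_zero_left h)
        refine ⟨Units.mk0 (v / (x + 1)) (div_ne_zero hv h1), Finset.mem_univ _, ?_⟩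
        simp only [Units.val_inv_eq_inv_val, Units.val_mk0]
        field_simp
        ring
    rw [himg, Finset.sum_erase_eq_sub (Finset.mem_univ _)]
    have htot : ∑ x : ZMod q, extChar η⁻¹ x = 0 := by
      rw [← Finset.sum_erase Finset.univ (extChar_zero η⁻¹)]
      refine Eq.trans ?_ (sum_units_char_eq_zero (η := η⁻¹) fun e => hη (MonoidHom.ext fun u => by simpa using DFunLike.congr_fun e u))
      refine Finset.sum_bij' (fun x hx => Units.mk0 x (Finset.ne_of_mem_erase hx))
        (fun u _ => (u : ZMod q)) (fun _ _ => Finset.mem_univ _)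
        (fun u _ => by simp [u.ne_zero]) (fun _ _ => rfl) (fun u _ => Units.mk0_val u _)
        (fun x hx => by rw [extChar, dif_neg (Finset.ne_of_mem_erase hx)])
    rw [htot, zero_sub, show (-1 : ZMod q) = ((-1 : (ZMod q)ˣ) : ZMod q) by simp, extChar_coe, hinv]
    simp

end Fermat.Agent.TW.Mod
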