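/-
The normal subgroup `Γ₀(N) ∩ Γ(q)` and conjugation by `diag(1, q)` (owner: helper87).
-/
import Fermat.Agent.TW.Mod.HeckeComm
import Mathlib.LinearAlgebra.Matrix.SpecialLinearGroup

set_option autoImplicit false

namespace Fermat.Agent.TW.Mod

open CongruenceSubgroup
open scoped MatrixGroups

variable {N q : ℕ}

variable (N q) in
/-- Reduction of `Γ₀(N)` modulo `q`. -/
def redModHom : Gamma0 N →* Matrix.SpecialLinearGroup (Fin 2) (ZMod q) :=
  (Matrix.SpecialLinearGroup.map (Int.castRingHom (ZMod q))).comp (Gamma0 N).subtype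

variable (N q) in
/-- `Γ₀(N) ∩ Γ(q)`. -/
def congSub : Subgroup (Gamma0 N) := (redModHom N q).ker

theorem redModHom_apply (g : Gamma0 N) (i j : Fin 2) :
    (redModHom N q g : Matrix (Fin 2) (Fin 2) (ZMod q)) i j = ((matOf g i j : ℤ) : ZMod q) := rfl

theorem mem_congSub {g : Gamma0 N} : g ∈ congSub N q ↔
    ∀ i j, ((matOf g i j : ℤ) : ZMod q) = (1 : Matrix (Fin 2) (Fin 2) (ZMod q)) i j := by
  rw [congSub, MonoidHom.mem_ker]
  constructor
  · intro h i j
    rw [← redModHom_apply, h]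
    rfl
  · intro h
    exact Subtype.ext (Matrix.ext fun i j => (redModHom_apply g i j).trans (h i j))

variable (N q) in
/-- The elements of `Γ₀(N)` with `q ∣ b`. -/
def upperSub : Subgroup (Gamma0 N) where
  carrier := {g | ((matOf g 0 1 : ℤ) : ZMod q) = 0}
  one_mem' := by simp
  mul_mem' {g h} hg hh := by
    simp only [Set.mem_setOf_eq] at hg hh ⊢
    rw [matOf_mul, Matrix.mul_apply, Fin.sum_univ_two]
    push_cast
    rw [hg, hh, zero_mul, mul_zero, add_zero]
  inv_mem' {g} hg := by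
    simp only [Set.mem_setOf_eq] at hg ⊢
    show (((g : SL(2, ℤ))⁻¹ 0 1 : ℤ) : ZMod q) = 0
    rw [Matrix.SpecialLinearGroup.coe_inv, Matrix.adjugate_fin_two]
    simp only [Matrix.of_apply, Matrix.cons_val_zero, Matrix.cons_val_one, Matrix.cons_val',
      Matrix.cons_val_fin_one, Int.cast_neg]
    rw [show ((g : SL(2, ℤ)) 0 1 : ℤ) = matOf g 0 1 from rfl, hg, neg_zero]

theorem congSub_le_upperSub : congSub N q ≤ upperSub N q := fun g hg => by
  show ((matOf g 0 1 : ℤ) : ZMod q) = 0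
  simpa using mem_congSub.1 hg 0 1

theorem upperSub_dvd {g : Gamma0 N} (hg : g ∈ upperSub N q) : (q : ℤ) ∣ matOf g 0 1 :=
  (ZMod.intCast_zmod_eq_zero_iff_dvd _ _).1 hg

variable [NeZero q]

/-- `[[a, b], [c, d]] ↦ [[a, b/q], [qc, d]]`, i.e. `D g D⁻¹` for `D = diag(1, q)`. -/
def downMap (g : upperSub N q) : Gamma0 (N * q) :=
  ⟨⟨!![matOf g.1 0 0, matOf g.1 0 1 / q; (q : ℤ) * matOf g.1 1 0, matOf g.1 1 1], by
      have h : (matOf g.1).det = 1 := (g.1 : SL(2, ℤ)).det_coe
      rw [Matrix.det_fin_two] at h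
      rw [Matrix.det_fin_two_of, ← mul_assoc, Int.ediv_mul_cancel (upperSub_dvd g.2), h]⟩,
    Gamma0_mem.mpr (by
      show (((q : ℤ) * matOf g.1 1 0 : ℤ) : ZMod (N * q)) = 0
      rw [ZMod.intCast_zmod_eq_zero_iff_dvd, Nat.cast_mul, mul_comm (N : ℤ)]
      exact mul_dvd_mul_left _ ((ZMod.intCast_zmod_eq_zero_iff_dvd _ _).1 (Gamma0_mem.mp g.1.2)))⟩

theorem matOf_downMap (g : upperSub N q) :
    matOf (downMap g) * !![1, 0; 0, (q : ℤ)] = !![1, 0; 0, (q : ℤ)] * matOf g.1 := by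
  have := Int.ediv_mul_cancel (upperSub_dvd g.2)
  ext i j
  fin_cases i <;> fin_cases j <;>
    simp [downMap, matOf, Matrix.mul_apply, Fin.sum_univ_two] at this ⊢ <;>
    first
      | linear_combination this
      | ring1

theorem downMat_cancel {M : ℕ} {a b : Gamma0 M} {X : Matrix (Fin 2) (Fin 2) ℤ} (hX : X.det ≠ 0)
    (h : matOf a * X = matOf b * X) : a = b := by
  have h' := congrArg (· * X.adjugate) h
  simp only [Matrix.mul_assoc, Matrix.mul_adjugate, Matrix.mul_smul, Matrix.mul_one] at h'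
  exact Subtype.ext (Subtype.ext (smul_right_injective _ hX h'))

theorem downMap_mul (g h : upperSub N q) : downMap (g * h) = downMap g * downMap h := by
  refine downMat_cancel (X := !![1, 0; 0, (q : ℤ)]) (by simp [Matrix.det_fin_two_of, NeZero.ne q]) ?_
  rw [matOf_downMap, matOf_mul, Matrix.mul_assoc, matOf_downMap, ← Matrix.mul_assoc, matOf_downMap,
    Matrix.mul_assoc, Subgroup.coe_mul, matOf_mul]

/-- `downMap` as a homomorphism. -/
def downHom : upperSub N q →* Gamma0 (N * q) := MonoidHom.mk' downMap downMap_mul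

omit [NeZero q] in
theorem matOf_upperUni_mem (M : ℕ) {t : ℤ} (ht : (q : ℤ) ∣ t) :
    upperUni M t ∈ upperSub M q := by
  show ((matOf (upperUni M t) 0 1 : ℤ) : ZMod q) = 0
  simpa [ZMod.intCast_zmod_eq_zero_iff_dvd] using ht

theorem upperUni_add (M : ℕ) (s t : ℤ) : upperUni M (s + t) = upperUni M s * upperUni M t := by
  refine Subtype.ext (Subtype.ext ?_)
  show matOf (upperUni M (s + t)) = matOf (upperUni M s * upperUni M t)
  rw [matOf_mul]
  ext i j
  fin_cases i <;> fin_cases j <;> simp [Matrix.mul_apply, Fin.sum_univ_two, add_comm]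

theorem upperUni_zero (M : ℕ) : upperUni M 0 = 1 := by
  refine Subtype.ext (Subtype.ext ?_)
  show matOf (upperUni M 0) = matOf (1 : Gamma0 M)
  rw [matOf_one]
  ext i j
  fin_cases i <;> fin_cases j <;> simp

variable (N) in
/-- Lower unipotent `[[1, 0], [N y, 1]]`. -/
def lowerUni (y : ℤ) : Gamma0 N :=
  ⟨⟨!![1, 0; (N : ℤ) * y, 1], by simp [Matrix.det_fin_two_of]⟩, Gamma0_mem.mpr (by simp)⟩

@[simp] theorem matOf_lowerUni (y : ℤ) : matOf (lowerUni N y) = !![1, 0; (N : ℤ) * y, 1] := rfl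

theorem lowerUni_mem (y : ℤ) : lowerUni N y ∈ upperSub N q := by
  show ((matOf (lowerUni N y) 0 1 : ℤ) : ZMod q) = 0
  simp

end Fermat.Agent.TW.Mod
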