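/-
Injectivity of the twist on the `U_q`-unit part, up to coboundaries and torsion
(owner: helper87).
-/
import Fermat.Agent.TW.Mod.Twist
import Fermat.Agent.TW.Mod.Congruence
import Fermat.Agent.TW.Mod.JacobiSum

set_option autoImplicit false

namespace Fermat.Agent.TW.Mod

open CongruenceSubgroup Fermat.Agent.HK
open scoped MatrixGroups

theorem Der.map_conj {G : Type*} [Group G] {R : Type*} [CommRing R] {ε : G →* Rˣ} {A : Type*}
    [AddCommGroup A] [Module R A] (c : Der ε A) (g h : G) (hh : ε h = 1) :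
    (c : G → A) (g * h * g⁻¹) = (ε g : R) • (c : G → A) h := by
  rw [Der.map_mul c, Der.map_mul c, Der.map_inv c, MonoidHom.map_mul, hh, mul_one, smul_smul,
    mul_neg, ← Units.val_mul, ← MonoidHom.map_mul, mul_inv_cancel, MonoidHom.map_one,
    Units.val_one, neg_smul, one_smul]
  abel

variable {N q : ℕ} [hq : Fact q.Prime] {R : Type*} [CommRing R] (η : (ZMod q)ˣ →* Rˣ)

theorem eps_eq_of_cast (γ : Gamma0 (N * q)) (u : (ZMod q)ˣ)
    (h : ((matOf γ 1 1 : ℤ) : ZMod q) = (u : ZMod q)) :
    epsOf (sqTwistChar N η) γ = η u ^ 2 := by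
  rw [epsOf_apply, sqTwistChar_apply]
  congr 2
  refine Units.ext ?_
  show ZMod.castHom (dvd_mul_left q N) (ZMod q) ((matOf γ 1 1 : ℤ) : ZMod (N * q)) = _
  rw [map_intCast, h]

theorem eps_downMap_of_cast (g : upperSub N q) (u : (ZMod q)ˣ)
    (h : ((matOf g.1 1 1 : ℤ) : ZMod q) = (u : ZMod q)) :
    haveI : NeZero q := ⟨hq.out.ne_zero⟩
    epsOf (sqTwistChar N η) (downMap g) = η u ^ 2 :=
  haveI : NeZero q := ⟨hq.out.ne_zero⟩
  eps_eq_of_cast η _ u (by simpa [downMap, matOf] using h)

variable [Fact (¬ q ∣ N)]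

theorem congSub_dvd (k : congSub N q) : ((N * q : ℕ) : ℤ) ∣ matOf (k : Gamma0 N) 1 0 := by
  have h1 : (N : ℤ) ∣ matOf (k : Gamma0 N) 1 0 :=
    (ZMod.intCast_zmod_eq_zero_iff_dvd _ _).1 (Gamma0_mem.mp (k : Gamma0 N).2)
  have h2 : (q : ℤ) ∣ matOf (k : Gamma0 N) 1 0 :=
    (ZMod.intCast_zmod_eq_zero_iff_dvd _ _).1 (by simpa using mem_congSub.1 k.2 1 0)
  rw [Nat.cast_mul]
  exact (Int.isCoprime_iff_nat_coprime.2
    (by simpa using ((hq.out.coprime_iff_not_dvd).2 Fact.out).symm)).mul_dvd h1 h2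

variable (N q) in
/-- `Γ₀(N) ∩ Γ(q) → Γ₀(Nq)`. -/
def congIncl (k : congSub N q) : Gamma0 (N * q) :=
  ⟨((k : Gamma0 N) : SL(2, ℤ)), Gamma0_mem.mpr
    ((ZMod.intCast_zmod_eq_zero_iff_dvd _ _).2 (congSub_dvd k))⟩

theorem matOf_congIncl (k : congSub N q) : matOf (congIncl N q k) = matOf (k : Gamma0 N) := rfl

/-- `k ↦ g k g⁻¹` on the normal subgroup. -/
def congConj (g : Gamma0 N) (k : congSub N q) : congSub N q :=
  ⟨g * k * g⁻¹, (MonoidHom.normal_ker (redModHom N q)).conj_mem _ k.2 g⟩

theorem congConj_mul (g h : Gamma0 N) (k : congSub N q) :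
    congConj (g * h) k = congConj g (congConj h k) :=
  Subtype.ext (by simp [congConj, mul_assoc])

theorem matOf_congConj (g : Gamma0 N) (k : congSub N q) :
    matOf (congConj g k : Gamma0 N) * matOf g = matOf g * matOf (k : Gamma0 N) := by
  rw [← matOf_mul, ← matOf_mul]
  congr 1
  simp [congConj]

/-- The element of `upperSub` underlying `k`. -/
def congUpper (k : congSub N q) : upperSub N q := ⟨k.1, congSub_le_upperSub k.2⟩

variable {A : Type*} [AddCommGroup A] [Module R A] (c : Der (epsOf (sqTwistChar N η)) A)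

/-- `c` transported to `Γ₀(N) ∩ Γ(q)` by conjugation with `diag(1, q)`. -/
def downVal (k : congSub N q) : A :=
  haveI : NeZero q := ⟨hq.out.ne_zero⟩
  (c : Gamma0 (N * q) → A) (downMap (congUpper k))

/-- `c` restricted to `Γ₀(N) ∩ Γ(q)`. -/
def inclVal (k : congSub N q) : A := (c : Gamma0 (N * q) → A) (congIncl N q k)

theorem congSub_cast (k : congSub N q) : ((matOf (k : Gamma0 N) 1 1 : ℤ) : ZMod q) = 1 := by
  simpa using mem_congSub.1 k.2 1 1

theorem eps_downMap_congUpper (k : congSub N q) :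
    haveI : NeZero q := ⟨hq.out.ne_zero⟩
    epsOf (sqTwistChar N η) (downMap (congUpper k)) = 1 := by
  rw [eps_downMap_of_cast η (congUpper k) 1 (by simpa [congUpper] using congSub_cast k), map_one,
    one_pow]

/-- Conjugation by an element with `q ∣ b` acts on `downVal` by `η(d)²`. -/
theorem downVal_conj (g : upperSub N q) (u : (ZMod q)ˣ)
    (hu : ((matOf g.1 1 1 : ℤ) : ZMod q) = (u : ZMod q)) (k : congSub N q) :
    downVal η c (congConj g.1 k) = ((η u ^ 2 : Rˣ) : R) • downVal η c k := by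
  haveI : NeZero q := ⟨hq.out.ne_zero⟩
  have e : congUpper (congConj g.1 k) = g * congUpper k * g⁻¹ := Subtype.ext rfl
  unfold downVal
  rw [e, show downMap (g * congUpper k * g⁻¹) =
    downMap g * downMap (congUpper k) * (downMap g)⁻¹ by
      show downHom (g * congUpper k * g⁻¹) = downHom g * downHom (congUpper k) * (downHom g)⁻¹
      rw [MonoidHom.map_mul, MonoidHom.map_mul, MonoidHom.map_inv],
    Der.map_conj c _ _ (eps_downMap_congUpper η k), eps_downMap_of_cast η g u hu]

theorem inclVal_conj_upperUni (s : ℤ) (k : congSub N q) :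
    inclVal η c (congConj (upperUni N s) k) = inclVal η c k := by
  have e : congIncl N q (congConj (upperUni N s) k) =
      upperUni (N * q) s * congIncl N q k * (upperUni (N * q) s)⁻¹ := Subtype.ext rfl
  have he : epsOf (sqTwistChar N η) (congIncl N q k) = 1 := by
    rw [eps_eq_of_cast η (congIncl N q k) 1 (by simpa [matOf_congIncl] using congSub_cast k),
      MonoidHom.map_one, one_pow]
  unfold inclVal
  rw [e, Der.map_conj c _ _ he, epsOf_upperUni, Units.val_one, one_smul]

/-- `downVal` of the conjugate by `Tˢ` depends on `s` modulo `q` only. -/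
theorem downVal_conj_upperUni_congr {s t : ℤ} (h : (s : ZMod q) = t) (k : congSub N q) :
    downVal η c (congConj (upperUni N s) k) = downVal η c (congConj (upperUni N t) k) := by
  have hd : (q : ℤ) ∣ s - t :=
    (ZMod.intCast_zmod_eq_zero_iff_dvd _ _).1 (by push_cast; rw [h, sub_self])
  rw [show s = (s - t) + t by ring, upperUni_add, congConj_mul]
  rw [downVal_conj η c ⟨_, matOf_upperUni_mem N hd⟩ 1 (by simp), map_one, one_pow, Units.val_one,
    one_smul]

/-- The values along the unipotent conjugates, indexed by `ℤ/q`. -/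
def conjVal (k : congSub N q) (x : ZMod q) : A :=
  downVal η c (congConj (upperUni N (x.val : ℤ)) k)

theorem conjVal_eq (k : congSub N q) (s : ℤ) :
    downVal η c (congConj (upperUni N s) k) = conjVal η c k (s : ZMod q) := by
  haveI : NeZero q := ⟨hq.out.ne_zero⟩
  exact downVal_conj_upperUni_congr η c (by simp) k

theorem conjVal_zero (k : congSub N q) : conjVal η c k 0 = downVal η c k := by
  have : congConj (upperUni N 0) k = k := by
    rw [upperUni_zero]
    exact Subtype.ext (by simp [congConj])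
  simp [conjVal, this]

theorem conjVal_conj (k : congSub N q) (x y : ZMod q) :
    conjVal η c (congConj (upperUni N (y.val : ℤ)) k) x = conjVal η c k (x + y) := by
  haveI : NeZero q := ⟨hq.out.ne_zero⟩
  conv_lhs => unfold conjVal
  rw [← congConj_mul, ← upperUni_add, conjVal_eq]
  simp

/-- The element of `Γ₀(Nq²)` attached to `k`. -/
def congLevel (k : congSub N q) : Gamma0 (N * q * q) :=
  haveI : NeZero q := ⟨hq.out.ne_zero⟩
  ⟨((downMap (congUpper k) : Gamma0 (N * q)) : SL(2, ℤ)), Gamma0_mem.mpr (by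
    show (((q : ℤ) * matOf (k : Gamma0 N) 1 0 : ℤ) : ZMod (N * q * q)) = 0
    rw [ZMod.intCast_zmod_eq_zero_iff_dvd, Nat.cast_mul, mul_comm ((N * q : ℕ) : ℤ)]
    exact mul_dvd_mul_left _ (congSub_dvd k))⟩

/-- The twist at `congLevel k`. -/
theorem twistHom_congLevel (k : congSub N q) :
    twistHom N η A c (Additive.ofMul (congLevel k)) =
      ∑ u : (ZMod q)ˣ, (η u : R) • conjVal η c k (u : ZMod q) := by
  haveI : NeZero q := ⟨hq.out.ne_zero⟩
  have hd : dUnit (congLevel k) = 1 := Units.ext (by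
    rw [coe_dUnit, Units.val_one]
    simpa [congLevel, downMap, congUpper, matOf] using congSub_cast k)
  rw [twistHom, TwSystem.op_apply]
  refine Finset.sum_congr rfl fun u _ => ?_
  show (η u : R) • (c : Gamma0 (N * q) → A) (twistCoc (congLevel k) u) = _
  congr 1
  have hn : twistNext (congLevel k) u = u := by simp [twistNext, hd]
  set g := upperUni N ((u : ZMod q).val : ℤ)
  have key : twistCoc (congLevel k) u = downMap (congUpper (congConj g k)) := by
    refine twistMat_cancel (u := u) ?_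
    have e := twistCoc_rel (congLevel k) u
    rw [hn] at e
    rw [e]
    set D : Matrix (Fin 2) (Fin 2) ℤ := !![1, 0; 0, (q : ℤ)]
    have hD : D.det ≠ 0 := by simp [D, Matrix.det_fin_two_of, hq.out.ne_zero]
    have htD : twistMat u * D = (q : ℤ) • (D * matOf g) := by
      ext i j
      fin_cases i <;> fin_cases j <;>
        simp [twistMat, D, g, Matrix.mul_apply, Fin.sum_univ_two, mul_comm]
    have h' : twistMat u * matOf (congLevel k) * D =
        matOf (downMap (congUpper (congConj g k))) * twistMat u * D := by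
      rw [Matrix.mul_assoc, show matOf (congLevel k) * D = D * matOf (k : Gamma0 N) from
          matOf_downMap (congUpper k),
        ← Matrix.mul_assoc, htD, Matrix.mul_assoc _ (twistMat u), htD, Matrix.mul_smul,
        ← Matrix.mul_assoc, matOf_downMap, Matrix.smul_mul, Matrix.mul_assoc, Matrix.mul_assoc]
      show _ = (q : ℤ) • (D * (matOf (congConj g k : Gamma0 N) * matOf g))
      rw [matOf_congConj]
    have h'' := congrArg (· * D.adjugate) h'
    simp only [Matrix.mul_assoc, Matrix.mul_adjugate, Matrix.mul_smul, Matrix.mul_one] at h''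
    exact smul_right_injective _ hD h''
  rw [key]
  rfl

/-- `U_q` at `congIncl k`. -/
theorem derT_congIncl (k : congSub N q) :
    (derT (sqTwistChar N η) A q c : Gamma0 (N * q) → A) (congIncl N q k) =
      ∑ x : ZMod q, conjVal η c k x := by
  haveI : NeZero q := ⟨hq.out.ne_zero⟩
  have hs : ∀ i : HeckeIdx (N * q) q, i.1.isSome := fun i => i.2 (dvd_mul_left q N)
  let e : ZMod q ≃ HeckeIdx (N * q) q :=
    { toFun := fun x => HeckeIdx.upper (N * q) ⟨x.val, x.val_lt⟩
      invFun := fun i => ((i.1.get (hs i) : Fin q) : ℕ)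
      left_inv := fun x => by simp [HeckeIdx.upper]
      right_inv := fun i => by
        obtain ⟨_ | j, hi⟩ := i
        · simpa using hi (dvd_mul_left q N)
        · exact Subtype.ext (congrArg some (Fin.ext (ZMod.val_cast_of_lt j.isLt))) }
  show ∑ i, heckeWeight (sqTwistChar N η) i •
    (c : Gamma0 (N * q) → A) (heckeCoc (p := q) (congIncl N q k) i) = _
  rw [← e.sum_comp]
  refine Finset.sum_congr rfl fun x _ => ?_
  show heckeWeight _ (HeckeIdx.upper (N * q) ⟨x.val, x.val_lt⟩) •
    (c : Gamma0 (N * q) → A) (heckeCoc _ _) = _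
  rw [heckeWeight_upper, one_smul]
  set g := upperUni N (x.val : ℤ)
  have key : heckeCoc (congIncl N q k) (HeckeIdx.upper (N * q) ⟨x.val, x.val_lt⟩) =
      downMap (congUpper (congConj g k)) := by
    refine (heckeNext_heckeCoc_eq (i' := HeckeIdx.upper (N * q) ⟨x.val, x.val_lt⟩) ?_).2
    set D : Matrix (Fin 2) (Fin 2) ℤ := !![1, 0; 0, (q : ℤ)]
    have hα : heckeMat (HeckeIdx.upper (N * q) (⟨x.val, x.val_lt⟩ : Fin q)) = D * matOf g := by
      ext i j
      fin_cases i <;> fin_cases j <;> simp [D, g, Matrix.mul_apply, Fin.sum_univ_two]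
    show matOf (downMap (congUpper (congConj g k))) * _ = _ * matOf (congIncl N q k)
    rw [hα, ← Matrix.mul_assoc, matOf_downMap, Matrix.mul_assoc, Matrix.mul_assoc]
    show D * (matOf (congConj g k : Gamma0 N) * matOf g) = _
    rw [matOf_congConj, matOf_congIncl]
  rw [show e x = HeckeIdx.upper (N * q) ⟨x.val, x.val_lt⟩ from rfl, key]
  rfl

section Main

variable [IsDomain R] [Module.IsTorsionFree R A]
variable (hη : ∃ u, η u ^ 2 ≠ 1) (hqR : (q : R) ≠ 0) {α : R} (hα : α ≠ 0)
variable (htw : twistHom N η A c = 0) (a : A)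
variable (hU : derT (sqTwistChar N η) A q c = α • c + cobound (epsOf (sqTwistChar N η)) A a)

include hη htw hU in
/-- `q c|D = α c` on `Γ₀(N) ∩ Γ(q)`. -/
theorem smul_downVal_eq (k : congSub N q) : (q : R) • downVal η c k = α • inclVal η c k := by
  classical
  haveI : NeZero q := ⟨hq.out.ne_zero⟩
  have hη1 : η ≠ 1 := fun h => by obtain ⟨u, hu⟩ := hη; exact hu (by simp [h])
  have hsum : ∑ x : ZMod q, conjVal η c k x = α • inclVal η c k := by
    rw [← derT_congIncl η c k, hU]
    simp only [Submodule.coe_add, SetLike.val_smul, Pi.add_apply, Pi.smul_apply]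
    rw [cobound_apply, eps_eq_of_cast η (congIncl N q k) 1 (by
      simpa [matOf_congIncl] using congSub_cast k)]
    simp [inclVal]
  have hA : ∀ y : ZMod q, ∑ u : (ZMod q)ˣ, (η u : R) • conjVal η c k ((u : ZMod q) + y) = 0 := by
    intro y
    have := twistHom_congLevel η c (congConj (upperUni N (y.val : ℤ)) k)
    rw [htw, AddMonoidHom.zero_apply] at this
    simp only [conjVal_conj] at this
    exact this.symm
  have h0 : ∑ w : ZMod q, (∑ u : (ZMod q)ˣ, (η u : R) * extChar η⁻¹ (w - u)) • conjVal η c k w = 0 := by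
    simp only [Finset.sum_smul]
    rw [Finset.sum_comm]
    rw [Finset.sum_congr rfl fun u _ => (Fintype.sum_equiv (Equiv.addLeft ((u : (ZMod q)ˣ) : ZMod q))
      (fun y => ((η u : R) * extChar η⁻¹ y) • conjVal η c k ((u : ZMod q) + y))
      (fun w => ((η u : R) * extChar η⁻¹ (w - u)) • conjVal η c k w) (fun y => by simp)).symm,
      Finset.sum_comm]
    refine Finset.sum_eq_zero fun y _ => ?_
    have := congrArg (fun z => extChar η⁻¹ y • z) (hA y)
    simpa [Finset.smul_sum, smul_smul, mul_comm] using this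
  simp only [sum_char_mul_inv_char hη1, mul_smul, ← Finset.smul_sum] at h0
  have h1 := (smul_eq_zero.1 h0).resolve_left (Units.ne_zero _)
  rw [← Finset.add_sum_erase _ _ (Finset.mem_univ (0 : ZMod q)), if_pos rfl,
    Finset.sum_congr rfl (fun w hw => by rw [if_neg (Finset.ne_of_mem_erase hw)])] at h1
  rw [sub_smul, one_smul, conjVal_zero] at h1
  simp only [neg_smul, one_smul, Finset.sum_neg_distrib] at h1
  rw [← hsum, ← Finset.add_sum_erase _ _ (Finset.mem_univ (0 : ZMod q)), conjVal_zero,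
    ← sub_eq_zero, ← h1]
  abel

include hη hqR htw hU in
/-- `c|D` vanishes on `Γ₀(N) ∩ Γ(q)`. -/
theorem downVal_eq_zero (k : congSub N q) : downVal η c k = 0 := by
  haveI : NeZero q := ⟨hq.out.ne_zero⟩
  have hT : ∀ s k, downVal η c (congConj (upperUni N s) k) = downVal η c k := fun s k => by
    apply smul_right_injective A hqR
    show (q : R) • _ = (q : R) • _
    rw [smul_downVal_eq η c hη htw a hU, smul_downVal_eq η c hη htw a hU, inclVal_conj_upperUni]
  have hL : ∀ y k, downVal η c (congConj (lowerUni N y) k) = downVal η c k := fun y k => by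
    rw [downVal_conj η c ⟨_, lowerUni_mem y⟩ 1 (by simp), map_one, one_pow, Units.val_one, one_smul]
  obtain ⟨t, ht⟩ := hη
  have hN : ((N : ℤ) : ZMod q) ≠ 0 := by
    rw [Ne, ZMod.intCast_zmod_eq_zero_iff_dvd, Int.natCast_dvd_natCast]
    exact Fact.out
  obtain ⟨y1, e1⟩ : ∃ y : ℤ, (((N : ℤ) * y : ℤ) : ZMod q) = -((t⁻¹ : (ZMod q)ˣ) : ZMod q) :=
    ⟨((-((t⁻¹ : (ZMod q)ˣ) : ZMod q) / (N : ℤ)).val : ℤ), by
      rw [Int.cast_mul, Int.cast_natCast (R := ZMod q) ((_ : ZMod q).val), ZMod.natCast_zmod_val]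
      exact mul_div_cancel₀ _ hN⟩
  obtain ⟨y2, e2⟩ : ∃ y : ℤ, (((N : ℤ) * y : ℤ) : ZMod q) = 1 :=
    ⟨(((1 : ZMod q) / (N : ℤ)).val : ℤ), by
      rw [Int.cast_mul, Int.cast_natCast (R := ZMod q) ((_ : ZMod q).val), ZMod.natCast_zmod_val]
      exact mul_div_cancel₀ _ hN⟩
  obtain ⟨s, hs⟩ : ∃ s : ℤ, (s : ZMod q) = (t : ZMod q) := ⟨((t : ZMod q).val : ℤ), by simp⟩
  let g : Gamma0 N := upperUni N s * lowerUni N y1 * upperUni N s *
    (upperUni N (-1) * lowerUni N y2 * upperUni N (-1))
  have hinv : downVal η c (congConj g k) = downVal η c k := by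
    simp only [g, congConj_mul, hT, hL]
  have htt : (t : ZMod q) * ((t⁻¹ : (ZMod q)ˣ) : ZMod q) = 1 := Units.mul_inv t
  have iU : ∀ z : ℤ, (redModHom N q (upperUni N z) : Matrix (Fin 2) (Fin 2) (ZMod q)) =
      !![1, (z : ZMod q); 0, 1] := fun z => by
    ext i j
    fin_cases i <;> fin_cases j <;> simp [redModHom_apply]
  have iL : ∀ y : ℤ, (redModHom N q (lowerUni N y) : Matrix (Fin 2) (Fin 2) (ZMod q)) =
      !![1, 0; (((N : ℤ) * y : ℤ) : ZMod q), 1] := fun y => by
    ext i j
    fin_cases i <;> fin_cases j <;> simp [redModHom_apply]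
  have himg : (redModHom N q g : Matrix (Fin 2) (Fin 2) (ZMod q)) =
      !![(t : ZMod q), 0; 0, ((t⁻¹ : (ZMod q)ˣ) : ZMod q)] := by
    simp only [g, MonoidHom.map_mul, Matrix.SpecialLinearGroup.coe_mul, iU, iL, hs, e1, e2,
      Int.cast_neg, Int.cast_one]
    generalize ((t⁻¹ : (ZMod q)ˣ) : ZMod q) = w at htt ⊢
    generalize (t : ZMod q) = v at htt ⊢
    ext i j
    fin_cases i <;> fin_cases j <;> simp [Matrix.mul_apply, Fin.sum_univ_two] <;>
      first
        | ring1
        | (left; linear_combination -htt)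
        | (left; linear_combination htt)
        | linear_combination htt
        | linear_combination -htt
        | linear_combination v * htt
        | linear_combination (-v) * htt
        | linear_combination w * htt
        | linear_combination (-w) * htt
  have h01 : g ∈ upperSub N q := by
    show ((matOf g 0 1 : ℤ) : ZMod q) = 0
    rw [← redModHom_apply, himg]
    rfl
  have h11 : ((matOf g 1 1 : ℤ) : ZMod q) = ((t⁻¹ : (ZMod q)ˣ) : ZMod q) := by
    rw [← redModHom_apply, himg]
    rfl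
  rw [downVal_conj η c ⟨g, h01⟩ t⁻¹ h11] at hinv
  have : (((η t⁻¹ ^ 2 : Rˣ) : R) - 1) • downVal η c k = 0 := by rw [sub_smul, hinv, one_smul, sub_self]
  refine (smul_eq_zero.1 this).resolve_left fun h => ht ?_
  have h' : η t⁻¹ ^ 2 = 1 := Units.ext (sub_eq_zero.1 h)
  rwa [map_inv, inv_pow, inv_eq_one] at h'

include hη hqR hα htw hU in
/-- A class killed by the twist with `U_q = α ≠ 0` is torsion. -/
theorem exists_nsmul_eq_cobound :
    ∃ n : ℕ, 0 < n ∧ ∃ b : A, n • c = cobound (epsOf (sqTwistChar N η)) A b := by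
  classical
  haveI : NeZero q := ⟨hq.out.ne_zero⟩
  let f : Gamma0 (N * q) →* Matrix.SpecialLinearGroup (Fin 2) (ZMod q) :=
    (redModHom N q).comp (Subgroup.inclusion fun g hg => by
      rw [Gamma0_mem, ZMod.intCast_zmod_eq_zero_iff_dvd] at hg ⊢
      exact dvd_trans (by simp) hg)
  have hK : ∀ g ∈ f.ker, (c : Gamma0 (N * q) → A) g = 0 := by
    intro g hg
    have h : α • inclVal η c ⟨Subgroup.inclusion _ g, hg⟩ = 0 := by
      rw [← smul_downVal_eq η c hη htw a hU, downVal_eq_zero η c hη hqR htw a hU, smul_zero]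
    exact (smul_eq_zero.1 h).resolve_left hα
  have hεK : ∀ g ∈ f.ker, epsOf (sqTwistChar N η) g = 1 := fun g hg => by
    have h1 : ((matOf g 1 1 : ℤ) : ZMod q) = ((1 : (ZMod q)ˣ) : ZMod q) := by
      have := congSub_cast (⟨Subgroup.inclusion _ g, hg⟩ : congSub N q)
      simpa [matOf] using this
    rw [eps_eq_of_cast η g 1 h1, map_one, one_pow]
  haveI : Finite (Gamma0 (N * q) ⧸ f.ker) :=
    Finite.of_equiv _ (QuotientGroup.quotientKerEquivRange f).symm.toEquiv
  haveI := Fintype.ofFinite (Gamma0 (N * q) ⧸ f.ker)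
  let F : Gamma0 (N * q) ⧸ f.ker → A := fun h => (c : Gamma0 (N * q) → A) h.out
  have hF : ∀ g : Gamma0 (N * q), F g = (c : Gamma0 (N * q) → A) g := by
    intro g
    obtain ⟨⟨k, hk⟩, e⟩ := QuotientGroup.mk_out_eq_mul f.ker g
    show (c : Gamma0 (N * q) → A) (Quotient.out (g : Gamma0 (N * q) ⧸ f.ker)) = _
    rw [e, Der.map_mul c, hK k hk, smul_zero, add_zero]
  refine ⟨Fintype.card (Gamma0 (N * q) ⧸ f.ker), Fintype.card_pos, -∑ h, F h, ?_⟩
  ext g
  show Fintype.card _ • (c : Gamma0 (N * q) → A) g = _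
  have e : ∀ h, F ((g : Gamma0 (N * q) ⧸ f.ker) * h) =
      (c : Gamma0 (N * q) → A) g + (epsOf (sqTwistChar N η) g : R) • F h := by
    intro h
    conv_lhs => rw [← QuotientGroup.out_eq' h, ← QuotientGroup.mk_mul, hF, Der.map_mul c]
  have hsum : ∑ h, F h = Fintype.card (Gamma0 (N * q) ⧸ f.ker) • (c : Gamma0 (N * q) → A) g +
      (epsOf (sqTwistChar N η) g : R) • ∑ h, F h := by
    conv_lhs => rw [← Equiv.sum_comp (Equiv.mulLeft (g : Gamma0 (N * q) ⧸ f.ker)) F]
    simp only [Equiv.coe_mulLeft, e, Finset.sum_add_distrib, ← Finset.smul_sum, Finset.sum_const,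
      Finset.card_univ]
  rw [cobound_apply, smul_neg, sub_neg_eq_add, neg_add_eq_sub]
  exact eq_sub_of_add_eq hsum.symm

end Main

end Fermat.Agent.TW.Mod
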